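import Fermat.Agent.ModPoly.Scale
import Fermat.Prelude.Def_ModularCurve_LaurentCoeff

/-!
# Orders of rescaled Laurent series
-/

set_option autoImplicit false

noncomputable section

open ModularCurve

namespace FLTAgent.Eisen

open ModPoly

variable {R S : Type*} [Field R] [Field S]

theorem order_eq_of_coeff {x : LaurentSeries R} {d : ℤ} (h : x.coeff d ≠ 0)
    (hlt : ∀ k < d, x.coeff k = 0) : x.order = d :=
  le_antisymm (HahnSeries.order_le_of_coeff_ne_zero h)
    ((HahnSeries.le_order_iff_forall (HahnSeries.ne_zero_of_coeff_ne_zero h)).mpr hlt)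

theorem order_coeffMap_eq (f : R →+* S) {x : LaurentSeries R} (hx : x ≠ 0) :
    (coeffMap f x).order = x.order := by
  refine order_eq_of_coeff ?_ fun k hk => ?_
  · rw [coeffMap_coeff]
    exact (map_ne_zero f).2 (HahnSeries.coeff_order_eq_zero.not.2 hx)
  · rw [coeffMap_coeff, HahnSeries.coeff_eq_zero_of_lt_order hk, map_zero]

theorem order_twist (c : Rˣ) {x : LaurentSeries R} (hx : x ≠ 0) : (twist c x).order = x.order := by
  refine order_eq_of_coeff ?_ fun k hk => ?_
  · rw [twist_coeff]
    exact mul_ne_zero (Units.ne_zero _) (HahnSeries.coeff_order_eq_zero.not.2 hx)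
  · rw [twist_coeff, HahnSeries.coeff_eq_zero_of_lt_order hk, mul_zero]

theorem order_qExpand' (n : ℕ) [NeZero n] {x : LaurentSeries R} (hx : x ≠ 0) :
    (qExpand R n x).order = n * x.order := by
  refine order_eq_of_coeff ?_ fun k hk => ?_
  · rw [qExpand_coeff_mul]
    exact HahnSeries.coeff_order_eq_zero.not.2 hx
  · by_cases hd : (n : ℤ) ∣ k
    · obtain ⟨c, rfl⟩ := hd
      rw [qExpand_coeff_mul]
      exact HahnSeries.coeff_eq_zero_of_lt_order
        (lt_of_mul_lt_mul_left hk (Int.natCast_nonneg n))
    · exact qExpand_coeff_of_not_dvd n _ hd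

theorem order_prod {ι : Type*} (s : Finset ι) (f : ι → LaurentSeries R) (h : ∀ i ∈ s, f i ≠ 0) :
    (∏ i ∈ s, f i).order = ∑ i ∈ s, (f i).order := by
  classical
  induction s using Finset.induction_on with
  | empty => simp
  | insert a s ha ih =>
    rw [Finset.prod_insert ha, Finset.sum_insert ha,
      HahnSeries.order_mul (h a (Finset.mem_insert_self a s))
        (Finset.prod_ne_zero_iff.2 fun i hi => h i (Finset.mem_insert_of_mem hi)),
      ih fun i hi => h i (Finset.mem_insert_of_mem hi)]

end FLTAgent.Eisen
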