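import Fermat.Agent.Eisen.ConjExpand
import Fermat.Agent.JTors.Proj
import Fermat.Prelude.Def_GaloisRep_ComplexConjugation

/-!
# Complex conjugation on the torsion of `J₀(N)` seen on `Hom(ParQuot N, ℤ)`
-/

set_option autoImplicit false
set_option linter.unusedSectionVars false

noncomputable section

open ModularCurve AlgebraicCurve CongruenceSubgroup
open scoped MatrixGroups ComplexConjugate

namespace FLTAgent.Eisen

open ModPoly Periods JTors

variable {N : ℕ}

/-- The character `γ ↦ conj (χ (J γ J))`. -/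
def conjChar (χ : Gamma0 N →* ℂˣ) : Gamma0 N →* ℂˣ :=
  ((Units.map (starRingEnd ℂ).toMonoidHom).comp χ).comp (Period.jConjGamma0 N)

theorem coe_conjChar (χ : Gamma0 N →* ℂˣ) (γ : Gamma0 N) :
    (conjChar χ γ : ℂ) = conj (χ (Period.jConjGamma0 N γ) : ℂ) := rfl

theorem toC_galois (σ : AlgebraicClosure ℚ ≃ₐ[ℚ] AlgebraicClosure ℚ) (s : ℂ →+* ℂ)
    (h : ∀ a, embC (σ a) = s (embC a)) (f : modularFunctionFieldBar N) :
    toC N (arithmeticGalois (modularFunctionFieldFull N) σ • f) = coeffMap s (toC N f) := by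
  rw [toC_apply, toC_apply, coe_arithmeticGalois_smul, coeffMap_coeffMap, coeffMap_coeffMap]
  exact coeffMap_congr (RingHom.ext fun a => h a) _

variable [NeZero N]

/-- Complex conjugation on characters of torsion classes. -/
theorem isTorsChar_complexConjugation {n : ℕ} {x : JZero N} {χ : Gamma0 N →* ℂˣ}
    (H : IsTorsChar n x χ) : IsTorsChar n (complexConjugation • x) (conjChar χ) := by
  obtain ⟨D, f, rfl, hf, hD, h, b, hd, hχ⟩ := H
  obtain ⟨g, hg, hgp⟩ := hd.eq
  set A := arithmeticGalois (modularFunctionFieldFull N) complexConjugation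
  refine ⟨SemilinearAut.degZeroSMulHom A D, A • f, ?_, ?_, fun v => ?_,
    conjFun h, conjMod b, ⟨?_, mdiff_conjFun hd.mdiff, ?_, conjMod g, ?_, fun z => ?_⟩,
    fun γ z => ?_⟩
  · exact (SemilinearAut.pic0_smul_mk A D).symm
  · exact (smul_ne_zero_iff_ne A).2 hf
  · obtain ⟨w, rfl⟩ : ∃ w, v = A • w := ⟨A⁻¹ • v, (smul_inv_smul A v).symm⟩
    rw [SemilinearAut.ord_smul]
    rw [show ((SemilinearAut.degZeroSMulHom A D : Divisor.degZero (K := AlgebraicClosure ℚ)
      (F := modularFunctionFieldBar N)) : Divisor (AlgebraicClosure ℚ) (modularFunctionFieldBar N))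
      (A • w) = (A • (D : Divisor (AlgebraicClosure ℚ) (modularFunctionFieldBar N))) (A • w)
      from rfl, SemilinearAut.divisor_smul_apply_smul]
    exact hD w
  · exact fun h0 => hd.b_ne (qL_injective (by
      have := congrArg (qL N) h0
      rw [qL_conjMod, map_zero] at this
      rw [map_zero]
      exact (map_eq_zero _).1 this))
  · exact fun h0 => hd.ne (conjFun_eq_zero_iff.1 h0)
  · rw [toC_galois complexConjugation (starRingEnd ℂ)
      (fun a => complexEmbedding_complexConjugation a) f, qL_conjMod, qL_conjMod, ← map_pow,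
      ← map_mul, hg]
  · show conj (h (Periods.negConj z)) ^ n = conj ((g : UpperHalfPlane → ℂ) (Periods.negConj z))
    rw [← map_pow, hgp]
  · rw [conjFun_apply, conjFun_apply, negConj_smul, ← Period.jConjGamma0_coe, hχ, map_mul,
      coe_conjChar]

/-- `J` on `ParQuot N`. -/
def jBar (N : ℕ) : ParQuot N →+ ParQuot N :=
  parLift ((parProj N).comp (MonoidHom.toAdditive (Period.jConjGamma0 N))) fun γ hγ =>
    parProj_eq_zero (γ := Period.jConjGamma0 N γ) (by
      show (Period.jConjMat _).trace ^ 2 ≤ 4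
      rw [Period.jConjMat_trace]
      exact hγ)

theorem jBar_parProj (γ : Gamma0 N) :
    jBar N (parProj N (Additive.ofMul γ)) = parProj N (Additive.ofMul (Period.jConjGamma0 N γ)) :=
  rfl

theorem jBar_jBar (x : ParQuot N) : jBar N (jBar N x) = x := by
  obtain ⟨y, rfl⟩ := parProj_surjective N x
  obtain ⟨γ, rfl⟩ := Additive.ofMul.surjective y
  rw [jBar_parProj, jBar_parProj, Period.jConjGamma0_jConjGamma0]

/-- Complex conjugation on `Hom(ParQuot N, ℤ)`: `φ ↦ -(φ ∘ J)`. -/
def iota (N : ℕ) : (ParQuot N →+ ℤ) →+ (ParQuot N →+ ℤ) :=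
  AddMonoidHom.mk' (fun φ => -(φ.comp (jBar N))) fun φ ψ => by
    rw [AddMonoidHom.add_comp, neg_add]

@[simp]
theorem iota_apply (φ : ParQuot N →+ ℤ) (x : ParQuot N) : iota N φ x = -φ (jBar N x) := rfl

theorem iota_iota (φ : ParQuot N →+ ℤ) : iota N (iota N φ) = φ :=
  DFunLike.ext _ _ fun x => by simp [jBar_jBar]

theorem conjChar_expChar (n : ℕ) (φ : ParQuot N →+ ℤ) :
    conjChar (expChar n φ) = expChar n (iota N φ) := by
  refine MonoidHom.ext fun γ => Units.ext ?_
  rw [coe_conjChar, expChar_apply, expChar_apply, iota_apply, jBar_parProj, zpow_neg,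
    Units.val_zpow_eq_zpow_val, Units.val_inv_eq_inv_val, Units.val_zpow_eq_zpow_val,
    map_zpow₀, ← inv_zpow]
  congr 1
  show conj (Complex.exp _) = (Complex.exp _)⁻¹
  rw [← Complex.exp_conj, ← Complex.exp_neg]
  congr 1
  simp [map_ofNat, neg_div]

/-- Complex conjugation through the uniformisation of the `p ^ n`-torsion. -/
theorem complexConjugation_torsionProj (p : ℕ) [NeZero p] (n : ℕ) (φ : ParQuot N →+ ℤ) :
    complexConjugation • torsionProj p n φ = torsionProj p n (iota N φ) := by
  refine IsTorsChar.inj (pow_ne_zero n (NeZero.ne p)) ?_ (isTorsChar_torsionProj p n _)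
  rw [← conjChar_expChar]
  exact isTorsChar_complexConjugation (isTorsChar_torsionProj p n φ)

end FLTAgent.Eisen
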