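import Fermat.Agent.Eisen.Rationalise
import Fermat.Agent.Eisen.ConjTors
import Fermat.Agent.Periods.HeckeLattice
import Mathlib.LinearAlgebra.Matrix.ToLin
import Mathlib.LinearAlgebra.Matrix.Adjugate

/-!
# An integral operator commuting with the Hecke operators and anticommuting with conjugation

Multiplication by `i` on cusp forms, seen through the real periods, is invertible, commutes with
the Hecke operators and anticommutes with complex conjugation.
-/

set_option autoImplicit false
set_option linter.unusedSectionVars false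

noncomputable section

namespace FLTAgent.Eisen

open scoped MatrixGroups ComplexConjugate
open CongruenceSubgroup ModularCurve Periods
open Complex (I)

variable {N : ℕ} [NeZero N]

/-- If `Re (per g) = -Re (per f ∘ J)` then `per g = -conj (per f ∘ J)`. -/
theorem periodMap_eq_neg_conj {f g : CuspForm (Gamma0 N) 2}
    (h : ∀ γ : Gamma0 N, (periodMap N g (Additive.ofMul γ)).re
      = -(periodMap N f (Additive.ofMul (Period.jConjGamma0 N γ))).re) (γ : Gamma0 N) :
    periodMap N g (Additive.ofMul γ)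
      = -conj (periodMap N f (Additive.ofMul (Period.jConjGamma0 N γ))) := by
  obtain ⟨F, hF⟩ := exists_isPrimitive f
  obtain ⟨G, hG⟩ := exists_isPrimitive g
  have hexp : HasCuspExpansions N fun z => G z + conj (F (negConj z)) := fun δ => by
    obtain ⟨A, hA, hAeq⟩ := hG.exists_cuspExpansion δ
    obtain ⟨B, hB, hBeq⟩ := hasCuspExpansions_combination hF 0 1 δ
    exact ⟨A + B, hA.add hB, fun w => by
      simp only [zero_mul, zero_add, one_mul] at hBeq
      show G (δ • w) + conj (F (negConj (δ • w))) = _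
      rw [hAeq, hBeq]; rfl⟩
  have hG' := fun z => periodMap_apply_of_isPrimitive hG γ z
  have hF' : ∀ (δ : Gamma0 N) (z : UpperHalfPlane),
      periodMap N f (Additive.ofMul (Period.jConjGamma0 N δ))
        = F (negConj ((δ : SL(2, ℤ)) • z)) - F (negConj z) := fun δ z => by
    rw [periodMap_apply_of_isPrimitive hF _ (negConj z), Period.jConjGamma0_coe, negConj_smul]
  obtain ⟨c, hc⟩ := exists_eq_const_of_re_invariant hexp fun δ z => by
    have h1 := h δ
    rw [periodMap_apply_of_isPrimitive hG δ z, hF' δ z, Complex.sub_re, Complex.sub_re] at h1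
    simp only [Complex.add_re, Complex.conj_re]
    linarith
  rw [hG' UpperHalfPlane.I, hF' γ UpperHalfPlane.I, map_sub]
  linear_combination hc ((γ : SL(2, ℤ)) • UpperHalfPlane.I) - hc UpperHalfPlane.I

/-- Complex conjugation on cusp forms, defined through the real periods. -/
def iotaForm (N : ℕ) [NeZero N] (f : CuspForm (Gamma0 N) 2) : CuspForm (Gamma0 N) 2 :=
  (rePeriodEquiv (hdim N)).symm (-((rePeriod N f).comp (jBar N)))

theorem rePeriod_iotaForm (f : CuspForm (Gamma0 N) 2) :
    rePeriod N (iotaForm N f) = -((rePeriod N f).comp (jBar N)) :=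
  (rePeriodEquiv (hdim N)).apply_symm_apply _

theorem rePeriod_injective : Function.Injective (rePeriod N) :=
  (rePeriod_bijective_of_dim (hdim N)).1

theorem rePeriod_real_smul (a : ℝ) (f : CuspForm (Gamma0 N) 2) :
    rePeriod N ((a : ℂ) • f) = a • rePeriod N f := by
  ext x
  simp

theorem parPeriod_iotaForm (f : CuspForm (Gamma0 N) 2) (x : ParQuot N) :
    parPeriod N (iotaForm N f) x = -conj (parPeriod N f (jBar N x)) := by
  obtain ⟨y, rfl⟩ := parProj_surjective N x
  obtain ⟨γ, rfl⟩ := Additive.ofMul.surjective y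
  rw [jBar_parProj, parPeriod_parProj, parPeriod_parProj]
  refine periodMap_eq_neg_conj (fun δ => ?_) γ
  exact DFunLike.congr_fun (rePeriod_iotaForm f) (parProj N (Additive.ofMul δ))

theorem iotaForm_real_smul (a : ℝ) (f : CuspForm (Gamma0 N) 2) :
    iotaForm N ((a : ℂ) • f) = (a : ℂ) • iotaForm N f := by
  apply rePeriod_injective
  rw [rePeriod_iotaForm, rePeriod_real_smul, rePeriod_real_smul, rePeriod_iotaForm]
  ext x
  simp

theorem iotaForm_I_smul (f : CuspForm (Gamma0 N) 2) :
    iotaForm N (I • f) = -(I • iotaForm N f) := by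
  apply rePeriod_injective
  rw [rePeriod_iotaForm, map_neg]
  ext x
  simp [map_smul, parPeriod_iotaForm]

theorem iotaForm_latticeForm (φ : ParQuot N →+ ℤ) :
    iotaForm N (latticeForm (hdim N) φ) = latticeForm (hdim N) (iota N φ) := by
  apply rePeriod_injective
  rw [rePeriod_iotaForm, rePeriod_latticeForm, rePeriod_latticeForm]
  ext x
  simp

/-- The good Hecke operators on `Hom(ParQuot N, ℤ)`. -/
def latticeT (q : Nat.Primes) (hq : ¬ (q : ℕ) ∣ N) : Module.End ℤ (ParQuot N →+ ℤ) :=
  heckeAct ∅ (hdim N) (CuspForm.heckeAlgebra.T q.2 hq (Set.notMem_empty _))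

section Coord

variable {r : ℕ} (eqv : ParQuot N ≃+ (Fin r → ℤ))

/-- The dual basis vectors. -/
def dualVec (j : Fin r) : ParQuot N →+ ℤ :=
  (Pi.evalAddMonoidHom (fun _ : Fin r => ℤ) j).comp eqv.toAddMonoidHom

/-- Coordinates of integral homomorphisms. -/
def coordZ (φ : ParQuot N →+ ℤ) : Fin r → ℤ := fun j => φ (eqv.symm (Pi.single j 1))

/-- Coordinates of the real periods of a cusp form. -/
def coordR (f : CuspForm (Gamma0 N) 2) : Fin r → ℝ :=
  fun j => rePeriod N f (eqv.symm (Pi.single j 1))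

theorem sum_coord_smul {A : Type*} [AddCommGroup A] (ψ : ParQuot N →+ A) (x : ParQuot N) :
    ψ x = ∑ j, eqv x j • ψ (eqv.symm (Pi.single j 1)) := by
  have hx : x = ∑ j, eqv x j • eqv.symm (Pi.single j 1) := by
    apply eqv.injective
    rw [map_sum]
    simp only [map_zsmul, AddEquiv.apply_symm_apply]
    exact pi_eq_sum_univ' (eqv x)
  conv_lhs => rw [hx, map_sum]
  simp only [map_zsmul]

theorem coordZ_injective : Function.Injective (coordZ eqv) := fun φ ψ h =>
  DFunLike.ext _ _ fun x => by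
    rw [sum_coord_smul eqv φ, sum_coord_smul eqv ψ]
    exact Finset.sum_congr rfl fun j _ => congrArg _ (congrFun h j)

theorem coordR_injective : Function.Injective (coordR eqv) := fun f g h =>
  rePeriod_injective (DFunLike.ext _ _ fun x => by
    rw [sum_coord_smul eqv (rePeriod N f), sum_coord_smul eqv (rePeriod N g)]
    exact Finset.sum_congr rfl fun j _ => congrArg _ (congrFun h j))

theorem coordR_latticeForm (φ : ParQuot N →+ ℤ) :
    coordR eqv (latticeForm (hdim N) φ) = fun j => (coordZ eqv φ j : ℝ) := by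
  funext j
  rw [coordR, rePeriod_latticeForm]
  rfl

theorem coordR_add (f g : CuspForm (Gamma0 N) 2) :
    coordR eqv (f + g) = coordR eqv f + coordR eqv g := by
  funext j; simp [coordR]

theorem coordR_real_smul (a : ℝ) (f : CuspForm (Gamma0 N) 2) :
    coordR eqv ((a : ℂ) • f) = a • coordR eqv f := by
  funext j; simp [coordR]

theorem coordZ_dualVec (j : Fin r) : coordZ eqv (dualVec eqv j) = Pi.single j 1 := by
  funext i
  simp only [coordZ, dualVec, AddMonoidHom.comp_apply, AddEquiv.coe_toAddMonoidHom,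
    AddEquiv.apply_symm_apply, Pi.evalAddMonoidHom_apply]
  rcases eq_or_ne i j with rfl | h
  · simp
  · simp [Pi.single_eq_of_ne h, Pi.single_eq_of_ne h.symm]

theorem eq_sum_coordR (f : CuspForm (Gamma0 N) 2) :
    f = ∑ j, (coordR eqv f j : ℂ) • latticeForm (hdim N) (dualVec eqv j) := by
  apply coordR_injective eqv
  have hsum : ∀ (s : Finset (Fin r)) (v : Fin r → CuspForm (Gamma0 N) 2),
      coordR eqv (∑ j ∈ s, v j) = ∑ j ∈ s, coordR eqv (v j) := fun s v =>
    map_sum (AddMonoidHom.mk' (coordR eqv) (coordR_add eqv)) v s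
  rw [hsum]
  simp only [coordR_real_smul, coordR_latticeForm, coordZ_dualVec]
  funext i
  simp [Finset.sum_apply, Pi.single_apply]

/-- The matrix of a real linear map of cusp forms. -/
def matR (F : CuspForm (Gamma0 N) 2 →+ CuspForm (Gamma0 N) 2) : Matrix (Fin r) (Fin r) ℝ :=
  fun i j => coordR eqv (F (latticeForm (hdim N) (dualVec eqv j))) i

/-- The matrix of an endomorphism of the lattice. -/
def matZ (u : (ParQuot N →+ ℤ) →+ (ParQuot N →+ ℤ)) : Matrix (Fin r) (Fin r) ℤ :=
  fun i j => coordZ eqv (u (dualVec eqv j)) i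

theorem matR_mulVec (F : CuspForm (Gamma0 N) 2 →+ CuspForm (Gamma0 N) 2)
    (hF : ∀ (a : ℝ) f, F ((a : ℂ) • f) = (a : ℂ) • F f) (f : CuspForm (Gamma0 N) 2) :
    coordR eqv (F f) = (matR eqv F).mulVec (coordR eqv f) := by
  conv_lhs => rw [eq_sum_coordR eqv f, map_sum]
  have hsum := map_sum (AddMonoidHom.mk' (coordR eqv) (coordR_add eqv))
    (fun j => F ((coordR eqv f j : ℂ) • latticeForm (hdim N) (dualVec eqv j))) Finset.univ
  rw [AddMonoidHom.mk'_apply] at hsum
  rw [hsum]
  funext i
  simp only [Finset.sum_apply, hF, coordR_real_smul, Pi.smul_apply,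
    smul_eq_mul, Matrix.mulVec, dotProduct, matR]
  exact Finset.sum_congr rfl fun j _ => mul_comm _ _

theorem matR_eq_map (F : CuspForm (Gamma0 N) 2 →+ CuspForm (Gamma0 N) 2)
    (u : (ParQuot N →+ ℤ) →+ (ParQuot N →+ ℤ))
    (h : ∀ φ, F (latticeForm (hdim N) φ) = latticeForm (hdim N) (u φ)) :
    matR eqv F = (matZ eqv u).map Int.cast := by
  refine Matrix.ext fun i j => ?_
  show coordR eqv (F _) i = _
  rw [h, coordR_latticeForm]
  rfl

theorem matR_comp (F G : CuspForm (Gamma0 N) 2 →+ CuspForm (Gamma0 N) 2)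
    (hF : ∀ (a : ℝ) f, F ((a : ℂ) • f) = (a : ℂ) • F f) :
    matR eqv (F.comp G) = matR eqv F * matR eqv G := by
  refine Matrix.ext fun i j => ?_
  show coordR eqv (F (G _)) i = _
  rw [matR_mulVec eqv F hF]
  rfl

theorem matZ_mulVec (u : (ParQuot N →+ ℤ) →+ (ParQuot N →+ ℤ)) (φ : ParQuot N →+ ℤ) :
    coordZ eqv (u φ) = (matZ eqv u).mulVec (coordZ eqv φ) := by
  have hφ : φ = ∑ j, coordZ eqv φ j • dualVec eqv j := by
    refine DFunLike.ext _ _ fun x => ?_
    rw [sum_coord_smul eqv φ, AddMonoidHom.finsetSum_apply]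
    exact Finset.sum_congr rfl fun j _ => by
      simp [dualVec, coordZ, mul_comm]
  conv_lhs => rw [hφ, map_sum]
  funext i
  simp only [coordZ, AddMonoidHom.finsetSum_apply, map_zsmul, AddMonoidHom.smul_apply,
    Matrix.mulVec, dotProduct, matZ, smul_eq_mul]
  exact Finset.sum_congr rfl fun j _ => mul_comm _ _

end Coord

/-- An integral operator, invertible over `ℚ`, which commutes with the good Hecke operators and
anticommutes with conjugation. -/
theorem exists_anti_lattice (N : ℕ) [NeZero N] :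
    ∃ (a a' : (ParQuot N →+ ℤ) →+ (ParQuot N →+ ℤ)) (d : ℤ), d ≠ 0 ∧
      (∀ φ, a' (a φ) = d • φ) ∧ (∀ φ, a (iota N φ) = -iota N (a φ)) ∧
      ∀ (q : Nat.Primes) (hq : ¬ (q : ℕ) ∣ N) φ, a (latticeT q hq φ) = latticeT q hq (a φ) := by
  classical
  obtain ⟨eqv⟩ := parQuot_equiv N
  let V := CuspForm (Gamma0 N) 2
  let Im : V →+ V := DistribSMul.toAddMonoidHom V I
  have hIm : ∀ (a : ℝ) (f : V), Im ((a : ℂ) • f) = (a : ℂ) • Im f := fun a f => smul_comm I _ f
  let κV : V →+ V := AddMonoidHom.mk' (iotaForm N) fun f g => by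
    apply rePeriod_injective
    rw [map_add, rePeriod_iotaForm, rePeriod_iotaForm, rePeriod_iotaForm, map_add,
      AddMonoidHom.add_comp, neg_add]
  let TV : {q : Nat.Primes // ¬ (q : ℕ) ∣ N} → V →+ V := fun q =>
    ((CuspForm.heckeAlgebra.T q.1.2 q.2 (Set.notMem_empty _) : CuspForm.heckeAlgebra N 2 ∅) :
      Module.End ℂ V).toAddMonoidHom
  let u : Option {q : Nat.Primes // ¬ (q : ℕ) ∣ N} → (ParQuot N →+ ℤ) →+ (ParQuot N →+ ℤ) :=
    fun k => k.elim (iota N) fun q => (latticeT q.1 q.2).toAddMonoidHom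
  let s : Option {q : Nat.Primes // ¬ (q : ℕ) ∣ N} → ℤ := fun k => k.elim (-1) fun _ => 1
  let F : Option {q : Nat.Primes // ¬ (q : ℕ) ∣ N} → V →+ V := fun k => k.elim κV TV
  have hF : ∀ k φ, F k (latticeForm (hdim N) φ) = latticeForm (hdim N) (u k φ)
    | none, φ => iotaForm_latticeForm φ
    | some q, φ => (latticeForm_heckeAct (S := ∅) (hdim N)
        (CuspForm.heckeAlgebra.T q.1.2 q.2 (Set.notMem_empty _)) φ).symm
  have hFs : ∀ k (a : ℝ) (f : V), F k ((a : ℂ) • f) = (a : ℂ) • F k f
    | none, a, f => iotaForm_real_smul a f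
    | some q, a, f => map_smul
        ((CuspForm.heckeAlgebra.T q.1.2 q.2 (Set.notMem_empty _) : CuspForm.heckeAlgebra N 2 ∅) :
          Module.End ℂ V) (a : ℂ) f
  have hcomm : ∀ k (f : V), Im (F k f) = (s k) • F k (Im f)
    | none, f => by
      show I • iotaForm N f = (-1 : ℤ) • iotaForm N (I • f)
      rw [iotaForm_I_smul, neg_one_zsmul, neg_neg]
    | some q, f => by
      show Im (F (some q) f) = (1 : ℤ) • F (some q) (Im f)
      rw [one_zsmul]
      exact (map_smul
        ((CuspForm.heckeAlgebra.T q.1.2 q.2 (Set.notMem_empty _) : CuspForm.heckeAlgebra N 2 ∅) :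
          Module.End ℂ V) I f).symm
  set B := matR eqv Im
  have hB : B.det ≠ 0 := by
    intro h0
    have h1 := congrArg Matrix.det (matR_comp eqv Im Im hIm)
    rw [Matrix.det_mul, h0, mul_zero] at h1
    have h2 : matR eqv (Im.comp Im) = -1 := by
      refine Matrix.ext fun i j => ?_
      show coordR eqv (I • I • _) i = _
      rw [smul_smul, Complex.I_mul_I, show ((-1 : ℂ)) = ((-1 : ℝ) : ℂ) by simp, coordR_real_smul,
        coordR_latticeForm, coordZ_dualVec, Matrix.neg_apply, Matrix.one_apply, Pi.smul_apply,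
        Pi.single_apply]
      split <;> simp
    rw [h2, Matrix.det_neg, Matrix.det_one, mul_one] at h1
    exact pow_ne_zero _ (neg_ne_zero.2 one_ne_zero) h1
  obtain ⟨A, hA, hAcomm⟩ := exists_int_matrix (fun k => matZ eqv (u k)) s B hB fun k => by
    show B * (matZ eqv (u k)).map Int.cast = _
    rw [← matR_eq_map eqv (F k) (u k) (hF k), ← matR_comp eqv Im (F k) hIm,
      ← matR_comp eqv (F k) Im (hFs k)]
    refine Matrix.ext fun i j => ?_
    show coordR eqv (Im (F k _)) i = (s k : ℝ) * coordR eqv (F k (Im _)) i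
    rw [hcomm, show ∀ f : V, s k • f = ((s k : ℝ) : ℂ) • f from fun f => by
      rw [Complex.ofReal_intCast, Int.cast_smul_eq_zsmul], coordR_real_smul]
    rfl
  let lift : Matrix (Fin _) (Fin _) ℤ → (ParQuot N →+ ℤ) →+ (ParQuot N →+ ℤ) := fun M =>
    AddMonoidHom.mk' (fun φ => ∑ i, (M.mulVec (coordZ eqv φ)) i • dualVec eqv i) fun φ ψ => by
      rw [← Finset.sum_add_distrib]
      refine Finset.sum_congr rfl fun i _ => ?_
      rw [← add_smul, ← Pi.add_apply, ← Matrix.mulVec_add]
      rfl
  have hlift : ∀ M φ, coordZ eqv (lift M φ) = M.mulVec (coordZ eqv φ) := fun M φ => by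
    funext i
    simp only [lift, coordZ, AddMonoidHom.mk'_apply, AddMonoidHom.finsetSum_apply,
      AddMonoidHom.smul_apply, dualVec, AddMonoidHom.comp_apply, AddEquiv.coe_toAddMonoidHom,
      AddEquiv.apply_symm_apply, Pi.evalAddMonoidHom_apply]
    simp [Pi.single_apply]
  have hrel : ∀ k φ, lift A (u k φ) = s k • u k (lift A φ) := fun k φ => by
    apply coordZ_injective eqv
    rw [hlift, matZ_mulVec, Matrix.mulVec_mulVec, hAcomm, Matrix.smul_mulVec,
      ← Matrix.mulVec_mulVec, ← hlift, ← matZ_mulVec]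
    rfl
  refine ⟨lift A, lift A.adjugate, A.det, hA, fun φ => ?_, fun φ => ?_, fun q hq φ => ?_⟩
  · apply coordZ_injective eqv
    rw [hlift, hlift, Matrix.mulVec_mulVec, Matrix.adjugate_mul, Matrix.smul_mulVec,
      Matrix.one_mulVec]
    rfl
  · exact (hrel none φ).trans (neg_one_zsmul _)
  · exact (hrel (some ⟨q, hq⟩) φ).trans (one_zsmul _)

end FLTAgent.Eisen
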