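import Fermat.Agent.Mazur.Cusps
import Fermat.Agent.JTors.HeckeChar
import Fermat.Agent.Eisen.OrderSeries

/-!
# The cuspidal class is Eisenstein

`T l (∞ - 0) = (1 + l) (∞ - 0)` as divisors on `X₀(p)`: the norm of the unit `u` is a modular
function without zeros on the upper half plane and with order `(1 + l) ord u` at `∞`.
-/

set_option autoImplicit false
set_option linter.unusedSectionVars false
set_option linter.style.haveILetI false

noncomputable section

open ModularCurve AlgebraicCurve CongruenceSubgroup Filter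
open UpperHalfPlane hiding I
open scoped MatrixGroups

namespace FLTAgent.Eisen

open ModPoly Mazur JTors Periods

variable {p l : ℕ} [NeZero p] [Fact p.Prime]

local notation "Qbar" => AlgebraicClosure ℚ
local notation "FB" => modularFunctionFieldBar p

theorem iotaC_eq_embC : iotaC = embC := rfl

/-- The unit `u` as a function. -/
def uMod (hp : 5 ≤ p) : modFunRing p := ⟨uFun p, uFun_mem (by omega)⟩

theorem toC_uBar (hp : 5 ≤ p) : toC p (uBar hp) = qL p (uMod hp) :=
  (qL_eq_of_expands (g := uMod (p := p) hp) (expands_uBar hp)).symm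

theorem order_qL_uMod (hp : 5 ≤ p) :
    (qL p (uMod hp)).order = -(half p : ℤ) ∧ qL p (uMod (p := p) hp) ≠ 0 := by
  have e : qL p (uMod hp) = coeffMap iotaC (uSer p (zetaBar p)) := qL_eq_of_expands (expands_uBar hp)
  rw [e]
  exact ⟨(order_coeffMap_eq _ (order_uSer hp).2).trans (order_uSer hp).1,
    (map_ne_zero _).2 (order_uSer hp).2⟩

section Norm

variable [NeZero l]

local instance instNeZeroCuspLevel : NeZero (p * l) := neZero_mul_level

/-- The norm of `β u` along `α`. -/
def uNorm (l : ℕ) [NeZero l] (hp : 5 ≤ p) : FB :=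
  Hecke.normAlong (heckeAlphaBar (AlgebraicClosure ℚ) p l)
    (heckeBetaBar (AlgebraicClosure ℚ) p l (uBar hp))

theorem toC_uNorm (hl : l.Prime) (hlp : ¬ l ∣ p) (hp : 5 ≤ p) :
    toC p (uNorm l hp) = qL p ⟨tProd l (uFun p), tProd_mem_modFunRing hl hlp (uMod hp).2⟩ := by
  obtain ⟨δ, γ, hδ, hinj⟩ := exists_gamma0_tRep (N := p) hl hlp
  have h : toC p (uBar hp) * qL p (1 : modFunRing p) ^ 1 = qL p (uMod hp) := by
    rw [map_one, one_pow, mul_one, toC_uBar]
  apply (qExpand ℂ (p * l)).injective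
  rw [uNorm, qExpand_toC_normAlong hl hlp hinj]
  refine Eq.trans ?_ (qExpand_qL_tProd (uMod hp) (tProd_mem_modFunRing hl hlp (uMod hp).2)).symm
  refine Finset.prod_congr rfl fun x _ => ?_
  have h1 := levelEmb_beta_mul h hδ x
  rwa [show tExp (l := l) (1 : modFunRing p) x = 1 from Subtype.ext rfl, map_one, one_pow,
    mul_one] at h1

theorem qLaurentHom_tExp_some (hl : l ≠ 0) (g : modFunRing p) (j : ZMod l) :
    ∃ c : ℂˣ, qLaurentHom (p * l) (tExp g (some j)) = qExpand ℂ p (twist c (qL p g)) := by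
  set c : ℂˣ := Units.mk0 (Complex.exp (2 * Real.pi * Complex.I * j.val / l))
    (Complex.exp_ne_zero _)
  refine ⟨c, (expands_expSeries _).unique ?_⟩
  have hφ : Tendsto (fun z : ℍ => tRep l (some j) • z) atImInfty atImInfty := by
    rw [atImInfty, tendsto_comap_iff]
    refine ((tendsto_comap (f := UpperHalfPlane.im) (x := atTop)).const_mul_atTop
      (r := ((l : ℝ))⁻¹) (by positivity)).congr fun z => ?_
    show (l : ℝ)⁻¹ * z.im = ((tRep l (some j) • z : ℍ) : ℂ).im
    rw [coe_tRep_some_smul hl]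
    rw [Complex.div_natCast_im, Complex.add_im, Complex.natCast_im, add_zero, inv_mul_eq_div]
    rfl
  exact (expands_qL g).comp_scale (h' := p * l) (k := p) c hφ fun z => by
    have h1 : (p : ℂ) ≠ 0 := Nat.cast_ne_zero.2 (NeZero.ne p)
    have h2 : (l : ℂ) ≠ 0 := Nat.cast_ne_zero.2 hl
    rw [coe_tRep_some_smul hl, Units.val_mk0, Function.Periodic.qParam, Function.Periodic.qParam,
      ← Complex.exp_nat_mul, ← Complex.exp_add]
    congr 1
    push_cast
    field_simp
    ring

theorem order_uNorm (hl : l.Prime) (hlp : ¬ l ∣ p) (hp : 5 ≤ p) :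
    (cuspInf p).ord (uNorm l hp) = -((1 + l : ℕ) * half p : ℤ) := by
  set g := uMod (p := p) hp
  obtain ⟨hX, hX0⟩ := order_qL_uMod (p := p) hp
  have hne : ∀ x : Option (ZMod l), qLaurentHom (p * l) (tExp g x) ≠ 0 ∧
      (qLaurentHom (p * l) (tExp g x)).order =
        x.elim ((p : ℤ) * l * (l * -(half p : ℤ))) (fun _ => p * -(half p : ℤ)) := by
    intro x
    rcases x with _ | j
    · have h1 : qLaurentHom (p * l) (tExp g none) = qExpand ℂ (p * l) (qExpand ℂ l (qL p g)) := by
        have := (expands_comp_none (l := l) g).width_mul (k := p * l)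
        rw [one_mul] at this
        exact (expands_expSeries _).unique this
      rw [h1]
      refine ⟨(map_ne_zero _).2 ((map_ne_zero _).2 hX0), ?_⟩
      rw [order_qExpand' _ ((map_ne_zero _).2 hX0), order_qExpand' _ hX0, hX]
      push_cast
      rfl
    · obtain ⟨c, hc⟩ := qLaurentHom_tExp_some hl.ne_zero g j
      have ht : twist c (qL p g) ≠ 0 := (map_ne_zero _).2 hX0
      rw [hc]
      exact ⟨(map_ne_zero _).2 ht, by rw [order_qExpand' _ ht, order_twist c hX0, hX]; rfl⟩
  have h := congrArg (fun x => (qExpand ℂ (p * l) x).order) (toC_uNorm hl hlp hp)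
  erw [qExpand_qL_tProd g] at h
  rw [order_prod _ _ fun x _ => (hne x).1, Finset.sum_congr rfl fun x _ => (hne x).2,
    Fintype.sum_option] at h
  have hN0 : (uNorm l hp : FB) ≠ 0 := by
    obtain ⟨_, _, _, hfin, -, -⟩ := Hecke.heckeInputsAlong (AlgebraicClosure ℚ) p l
    exact Hecke.normAlong_ne_zero _ hfin (by simpa using uBar_ne_zero hp)
  have hN : toC p (uNorm l hp) ≠ 0 := (map_ne_zero _).2 hN0
  rw [order_qExpand' _ hN, toC_apply,
    order_coeffMap_eq _ (fun e => hN0 (Subtype.ext e)), ← ord_cuspInf] at h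
  simp only [Option.elim, Finset.sum_const, Finset.card_univ, ZMod.card, nsmul_eq_mul] at h
  have hpl : ((p : ℤ) * l) ≠ 0 := by exact_mod_cast NeZero.ne (p * l)
  refine mul_left_cancel₀ hpl ?_
  push_cast at h ⊢
  linear_combination h

theorem ord_uNorm_eq_zero (hl : l.Prime) (hlp : ¬ l ∣ p) (hp : 5 ≤ p) {v : Place Qbar FB}
    (h : v ≠ cuspZero hp) (h' : v ≠ cuspInf p) : v.ord (uNorm l hp) = 0 := by
  obtain ⟨v, rfl⟩ := toBar_surjective v
  rw [ord_toBar]
  set G : modFunRing p := ⟨tProd l (uFun p), tProd_mem_modFunRing hl hlp (uMod hp).2⟩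
  have hG : IsFunOf (ofBar (uNorm l hp)) G := (toC_uNorm hl hlp hp).symm
  rcases Genus.exists_point_or_cusp iotaC v with ⟨a, z, q, k, -, hk⟩ | ⟨q, k, hk⟩
  · have := hk.2 (ofBar (uNorm l hp))
    have hnz : ∀ w, (G : ℍ → ℂ) w ≠ 0 := fun w =>
      Finset.prod_ne_zero_iff.2 fun x _ => uFun_ne_zero hp _
    rw [hG.fieldEmb, Genus.pointHom_apply,
      (Genus.order_diskSeries_eq_zero z (g := Genus.cosetFun q (G : ℍ → ℂ)) (hnz _)).1] at this
    exact (mul_eq_zero.mp this.symm).resolve_left hk.1.ne'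
  · exfalso
    have hj := hk.2 (Genus.jEl Qbar p)⁻¹
    rw [map_inv₀, Genus.fieldEmb_jEl, Genus.cuspHom_jFun, Genus.order_inv',
      Genus.order_qExpand_jqModC, neg_neg] at hj
    rcases eq_cusp hp (pos_of_mul_pos_right
      (hj ▸ Int.natCast_pos.mpr (Nat.pos_of_ne_zero (NeZero.ne p))) hk.1.le) with e | e
    · exact h (congrArg toBar e)
    · exact h' (congrArg toBar e)

end Norm

theorem heckeOperatorBar_cuspClass (hp : 5 ≤ p) (l : Nat.Primes) (hlp : ¬ (l : ℕ) ∣ p) :
    heckeOperatorBar p l (cuspClass hp) = (1 + (l : ℕ)) • cuspClass (p := p) hp := by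
  haveI : NeZero (l : ℕ) := ⟨l.2.ne_zero⟩
  haveI : NeZero (p * (l : ℕ)) := neZero_mul_level
  haveI := Hecke.hasPrincipalDivisors_level Qbar (p * (l : ℕ))
  have hfacts := Hecke.levelFacts Qbar
  have hα := Hecke.alphaBarIntegral_of_facts hfacts p (l : ℕ)
  have hβ := Hecke.betaBarIntegral_of_facts hfacts p (l : ℕ)
  obtain ⟨_, _, _, hfin, -, hN⟩ := Hecke.heckeInputsAlong Qbar p (l : ℕ)
  set D₀ := diffDiv (cuspInf p) (cuspZero (p := p) hp)
  have hmem := Hecke.heckeDivBar_mem_degZero hfacts p (l : ℕ) hα hβ D₀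
  rw [cuspClass, diffClass, heckeOperatorBar_apply,
    Hecke.heckeOperatorAlong_mk hfacts p (l : ℕ) D₀ hα hβ hmem]
  refine Eq.trans ?_ (map_nsmul (QuotientAddGroup.mk' _) _ _)
  refine congrArg Pic0.mk (Subtype.ext ?_)
  show heckeDivBar hα hβ (D₀ : Divisor Qbar FB) = ((1 + (l : ℕ)) • D₀ : Divisor.degZero (K := Qbar) (F := FB))
  rw [AddSubgroupClass.coe_nsmul]
  set E : Divisor Qbar FB := heckeDivBar hα hβ (D₀ : Divisor Qbar FB) with hE
  have hne := cuspZero_ne (p := p) hp
  have hval : ∀ v, (D₀ : Divisor Qbar FB) v * (-(half p : ℤ)) = v.ord (uBar (p := p) hp) := by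
    intro v
    show (Finsupp.single (cuspInf p) 1 - Finsupp.single (cuspZero hp) 1 : Divisor Qbar FB) v * _ = _
    rw [Finsupp.sub_apply]
    by_cases h1 : v = cuspInf p
    · subst h1
      rw [Finsupp.single_eq_same, Finsupp.single_eq_of_ne (Ne.symm hne), ord_uBar_cuspInf]
      ring
    by_cases h2 : v = cuspZero hp
    · subst h2
      rw [Finsupp.single_eq_same, Finsupp.single_eq_of_ne hne, ord_uBar_cuspZero]
      ring
    rw [Finsupp.single_eq_of_ne h1, Finsupp.single_eq_of_ne h2, ord_uBar_eq_zero hp h2 h1]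
    ring
  have hord : ∀ v, E v * (-(half p : ℤ)) = v.ord (uNorm (l : ℕ) hp) := by
    intro v
    have e := Hecke.heckeDivBar_apply_of_apply_eq_ord p (l : ℕ) hα hβ hfin hN (uBar_ne_zero hp)
      (D := (-(half p : ℤ)) • (D₀ : Divisor Qbar FB)) (fun w => by
        rw [Finsupp.smul_apply, smul_eq_mul, mul_comm]; exact hval w) v
    rw [map_zsmul, Finsupp.smul_apply, smul_eq_mul, mul_comm, ← hE] at e
    exact e
  have hm : (-(half p : ℤ)) ≠ 0 := by have := half_pos (p := p) hp; omega
  have hinf : E (cuspInf p) = ((1 + (l : ℕ) : ℕ) : ℤ) := mul_right_cancel₀ hm <| by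
    rw [hord, order_uNorm l.2 hlp hp]
    ring
  have hoff : ∀ v, v ≠ cuspZero hp → v ≠ cuspInf p → E v = 0 := fun v h h' => by
    have := hord v
    rw [ord_uNorm_eq_zero l.2 hlp hp h h'] at this
    exact (mul_eq_zero.1 this).resolve_right hm
  have hzero : E (cuspZero hp) = -((1 + (l : ℕ) : ℕ) : ℤ) := by
    have hsum : E = Finsupp.single (cuspInf p) (E (cuspInf p))
        + Finsupp.single (cuspZero hp) (E (cuspZero hp)) := by
      ext v
      rw [Finsupp.add_apply]
      by_cases h1 : v = cuspInf p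
      · subst h1
        rw [Finsupp.single_eq_same, Finsupp.single_eq_of_ne (Ne.symm hne), add_zero]
      by_cases h2 : v = cuspZero hp
      · subst h2
        rw [Finsupp.single_eq_same, Finsupp.single_eq_of_ne hne, zero_add]
      rw [Finsupp.single_eq_of_ne h1, Finsupp.single_eq_of_ne h2, hoff v h2 h1, add_zero]
    have hdeg : E ∈ Divisor.degZero (K := Qbar) (F := FB) := hmem
    rw [Divisor.mem_degZero, hsum, map_add, Divisor.degree_single, Divisor.degree_single,
      deg_eq_one_bar, deg_eq_one_bar, hinf] at hdeg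
    push_cast at hdeg ⊢
    linarith
  ext v
  show E v = ((1 + (l : ℕ)) • (Finsupp.single (cuspInf p) (1 : ℤ) - Finsupp.single (cuspZero hp) 1) :
    Divisor Qbar FB) v
  rw [Finsupp.smul_apply, Finsupp.sub_apply, nsmul_eq_mul]
  by_cases h1 : v = cuspInf p
  · subst h1
    rw [Finsupp.single_eq_same, Finsupp.single_eq_of_ne (Ne.symm hne), hinf]
    ring
  by_cases h2 : v = cuspZero hp
  · subst h2
    rw [Finsupp.single_eq_same, Finsupp.single_eq_of_ne hne, hzero]
    ring
  rw [Finsupp.single_eq_of_ne h1, Finsupp.single_eq_of_ne h2, hoff v h2 h1]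
  ring

end FLTAgent.Eisen
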