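import Fermat.Agent.Mazur.Cusps
import Fermat.Agent.JTors.Proj
import Fermat.Agent.Hecke.Inputs
import Fermat.Agent.Hecke.Approx
import Fermat.Agent.FunctionField.PlaceBasic

/-!
# The cuspidal class is not zero for `p ∉ {2, 3, 5, 7, 13}`

A function with divisor `∞ - 0` would kill `J₀(p)`, which has nonzero two-torsion.
-/

set_option autoImplicit false
set_option linter.unusedSectionVars false
set_option linter.style.haveILetI false

noncomputable section

open ModularCurve AlgebraicCurve

namespace FLTAgent.Eisen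

open Mazur

section Rational

variable {K F : Type*} [Field K] [Field F] [Algebra K F]

/-- A function with a single simple pole kills all divisor classes of degree zero. -/
theorem pic0_eq_zero_of_simple_pole [HasPrincipalDivisors K F]
    (hdeg : ∀ v : Place K F, v.deg = 1) (hres : ∀ v : Place K F, Genus.HasResidueK v) {f : F}
    (hf : f ≠ 0) {v₀ v₁ : Place K F} (hne : v₁ ≠ v₀) (h₁ : v₁.ord f = 1) (h₀ : v₀.ord f = -1)
    (hoff : ∀ v, v ≠ v₀ → 0 ≤ v.ord f) (x : Pic0 K F) : x = 0 := by
  classical
  have hcl : ∀ v : Place K F,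
      (Finsupp.single v (1 : ℤ) - Finsupp.single v₀ 1) ∈ Divisor.principal (K := K) (F := F) := by
    intro v
    by_cases hv : v = v₀
    · rw [hv, sub_self]; exact zero_mem _
    obtain ⟨c, hc⟩ := hres v f (hoff v hv)
    have hne0 : f - algebraMap K F c ≠ 0 := fun e => by
      have e' : f = algebraMap K F c := sub_eq_zero.1 e
      rw [e', FunctionField.ord_algebraMap] at h₁
      exact absurd h₁ (by norm_num)
    have hpos : 0 < v.ord (f - algebraMap K F c) :=
      hc.resolve_left fun e => hne0 (sub_eq_zero.2 e)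
    obtain ⟨D, hD, hD0⟩ := HasPrincipalDivisors.exists_divisor (K := K) (f - algebraMap K F c) hne0
    have hint : ∀ w, w ≠ v₀ → 0 ≤ w.ord (f - algebraMap K F c) := fun w hw => by
      rw [← Genus.mem_iff_ord_nonneg]
      exact sub_mem ((Genus.mem_iff_ord_nonneg w f).2 (hoff w hw)) (w.algebraMap_mem' c)
    have hpole : -1 ≤ D v₀ := by
      rw [hD]
      rcases eq_or_ne c 0 with rfl | hc0
      · rw [map_zero, sub_zero, h₀]
      · rw [sub_eq_add_neg, Hecke.ord_add_eq_left v₀ hf (neg_ne_zero.2 ((map_ne_zero _).2 hc0))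
          (by rw [h₀, Hecke.ord_neg, FunctionField.ord_algebraMap]; norm_num), h₀]
    have hDnn : ∀ w, w ≠ v₀ → 0 ≤ D w := fun w hw => by rw [hD]; exact hint w hw
    have hval : D = Finsupp.single v 1 - Finsupp.single v₀ 1 := by
      have hsum : (D.sum fun w n => n) = 0 := by
        rw [← hD0]
        simp [Divisor.degree, Finsupp.liftAddHom_apply, hdeg]
      obtain ⟨s, hs⟩ : ∃ s, s = D.support ∪ {v, v₀} := ⟨_, rfl⟩
      have hsub1 : D.support ⊆ s := hs ▸ Finset.subset_union_left
      have hsub2 : ({v, v₀} : Finset _) ⊆ s := hs ▸ Finset.subset_union_right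
      have hsum' : ∑ w ∈ s, D w = 0 := by
        rw [← hsum, Finsupp.sum]
        exact (Finset.sum_subset hsub1 fun w _ hw =>
          Finsupp.notMem_support_iff.1 hw).symm
      rw [← Finset.sum_sdiff hsub2,
        Finset.sum_pair hv] at hsum'
      have hrest : 0 ≤ ∑ w ∈ s \ {v, v₀}, D w := Finset.sum_nonneg fun w hw => by
        simp only [Finset.mem_sdiff, Finset.mem_insert, Finset.mem_singleton, not_or] at hw
        exact hDnn w hw.2.2
      have hv1 : 0 < D v := by rw [hD]; exact hpos
      ext w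
      rw [Finsupp.sub_apply]
      by_cases hw1 : w = v
      · subst hw1
        rw [Finsupp.single_eq_same, Finsupp.single_eq_of_ne hv]
        omega
      by_cases hw2 : w = v₀
      · subst hw2
        rw [Finsupp.single_eq_same, Finsupp.single_eq_of_ne hw1]
        omega
      rw [Finsupp.single_eq_of_ne hw1, Finsupp.single_eq_of_ne hw2, sub_zero]
      by_contra hw0
      have hws : w ∈ s \ {v, v₀} := by
        simp [hs, hw1, hw2, hw0]
      have : D w ≤ ∑ u ∈ s \ {v, v₀}, D u :=
        Finset.single_le_sum (fun u hu => by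
          simp only [Finset.mem_sdiff, Finset.mem_insert, Finset.mem_singleton, not_or] at hu
          exact hDnn u hu.2.2) hws
      have : 0 < D w := lt_of_le_of_ne (hDnn w hw2) (Ne.symm hw0)
      omega
    rw [← hval]
    exact ⟨_, hne0, hD⟩
  obtain ⟨⟨D, hD⟩, rfl⟩ := Pic0.mk_surjective x
  refine (QuotientAddGroup.eq_zero_iff _).2 ?_
  rw [AddSubgroup.mem_addSubgroupOf]
  show D ∈ Divisor.principal (K := K) (F := F)
  simp only [Divisor.mem_degZero, Divisor.degree, Finsupp.liftAddHom_apply,
    AddMonoidHom.coe_mulRight, hdeg, Nat.cast_one, mul_one] at hD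
  have : D = ∑ w ∈ D.support, D w • (Finsupp.single w (1 : ℤ) - Finsupp.single v₀ 1) := by
    simp only [smul_sub, Finset.sum_sub_distrib, Finsupp.smul_single, smul_eq_mul, mul_one]
    rw [← Finsupp.single_finsetSum, show ∑ w ∈ D.support, D w = 0 by simpa [Finsupp.sum, hdeg] using hD,
      Finsupp.single_zero, sub_zero]
    exact (Finsupp.sum_single D).symm
  rw [this]
  exact AddSubgroup.sum_mem _ fun w _ => AddSubgroup.zsmul_mem _ (hcl w) _

end Rational

variable {p : ℕ} [NeZero p] [Fact p.Prime]

theorem exists_jZero_ne_zero (hg : 0 < genusFormula p) : ∃ x : JZero p, x ≠ 0 := by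
  obtain ⟨eqv⟩ := Periods.parQuot_equiv p
  have hd := Periods.hdim p
  have hpos : 0 < Module.finrank ℂ (CuspForm (CongruenceSubgroup.Gamma0 p) 2) := by
    rw [← Nat.cast_pos (α := ℚ), hd]; exact hg
  let j : Fin (2 * Module.finrank ℂ (CuspForm (CongruenceSubgroup.Gamma0 p) 2)) := ⟨0, by omega⟩
  refine ⟨JTors.torsionProj 2 1 ((Pi.evalAddMonoidHom (fun _ => ℤ) j).comp eqv.toAddMonoidHom),
    fun h => ?_⟩
  obtain ⟨ψ, hψ⟩ := (JTors.torsionProj_eq_zero_iff 2 1 _).1 h
  have := DFunLike.congr_fun hψ (eqv.symm (Pi.single j 1))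
  simp at this
  omega

omit [NeZero p] [Fact p.Prime] in
theorem no_roots_eleven :
    (∀ x : ZMod 11, ¬ x ^ 2 + 1 = 0) ∧ ∀ x : ZMod 11, ¬ x ^ 2 + x + 1 = 0 := by decide

theorem genusFormula_prime_pos (hp : p.Prime) (hp' : p ∉ ({2, 3, 5, 7, 13} : Finset ℕ)) :
    0 < genusFormula p := by
  have hpsi : dedekindPsi p = p + 1 := by
    rw [dedekindPsi, hp.divisors, Finset.filter_true_of_mem fun d hd => ?_,
      Finset.sum_pair hp.one_lt.ne]
    · simp [Nat.div_self hp.pos]
    · simp only [Finset.mem_insert, Finset.mem_singleton] at hd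
      rcases hd with rfl | rfl
      · exact squarefree_one
      · exact hp.squarefree
  have hcard : ∀ a b : ZMod p, Nat.card {x : ZMod p // x ^ 2 + a * x + b = 0} ≤ 2 := by
    classical
    intro a b
    set P : Polynomial (ZMod p) := Polynomial.X ^ 2 + Polynomial.C a * Polynomial.X + Polynomial.C b
    have hP : P.Monic := by simp only [P]; monicity!
    have hd : P.natDegree = 2 := by simp only [P]; compute_degree!
    calc Nat.card {x : ZMod p // x ^ 2 + a * x + b = 0}
        ≤ Nat.card P.roots.toFinset := Nat.card_le_card_of_injective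
          (fun x => ⟨x.1, by rw [Multiset.mem_toFinset, Polynomial.mem_roots hP.ne_zero]; simpa [P] using x.2⟩)
          fun x y h => Subtype.ext (congrArg (fun t : P.roots.toFinset => (t : ZMod p)) h)
      _ ≤ 2 := by
        rw [Nat.card_eq_fintype_card, Fintype.card_coe]
        exact (Multiset.toFinset_card_le _).trans (hd ▸ Polynomial.card_roots' P)
  simp only [Finset.mem_insert, Finset.mem_singleton, not_or] at hp'
  rw [genusFormula, hpsi, cuspCount_prime]
  rcases eq_or_ne p 11 with rfl | h11
  · obtain ⟨k2, k3⟩ := no_roots_eleven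
    have h2 : nuTwo 11 = 0 := Nat.card_eq_zero.2 (Or.inl ⟨fun x => k2 x.1 x.2⟩)
    have h3 : nuThree 11 = 0 := Nat.card_eq_zero.2 (Or.inl ⟨fun x => k3 x.1 x.2⟩)
    rw [h2, h3]; norm_num
  have h14 : 14 ≤ p := by
    rcases hp' with ⟨h2, h3, h5, h7, h13⟩
    by_contra hlt
    interval_cases p <;> first | omega | exact absurd hp (by norm_num)
  have h2 : (nuTwo p : ℚ) ≤ 2 := by
    have := hcard 0 1
    simp only [zero_mul, add_zero] at this
    exact_mod_cast this
  have h3 : (nuThree p : ℚ) ≤ 2 := by
    have := hcard 1 1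
    simp only [one_mul] at this
    exact_mod_cast this
  have h14' : (14 : ℚ) ≤ p := by exact_mod_cast h14
  push_cast
  linarith

theorem cuspClass_ne_zero (hp : 5 ≤ p) (hp' : p ∉ ({2, 3, 5, 7, 13} : Finset ℕ)) :
    cuspClass (p := p) hp ≠ 0 := by
  intro h
  haveI := Hecke.hasPrincipalDivisors_level (AlgebraicClosure ℚ) p
  have h' : diffDiv (cuspInf p) (cuspZero (p := p) hp) ∈
      (Divisor.principal (K := AlgebraicClosure ℚ) (F := modularFunctionFieldBar p)).addSubgroupOf
        Divisor.degZero :=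
    (QuotientAddGroup.eq_zero_iff _).1 h
  rw [AddSubgroup.mem_addSubgroupOf] at h'
  obtain ⟨u, hu, hdiv⟩ := h'
  have hne := cuspZero_ne (p := p) hp
  have hval : ∀ v, (diffDiv (cuspInf p) (cuspZero (p := p) hp) :
      Divisor (AlgebraicClosure ℚ) (modularFunctionFieldBar p)) v = v.ord u := hdiv
  simp only [diffDiv, Finsupp.sub_apply] at hval
  have hres : ∀ v : Place (AlgebraicClosure ℚ) (modularFunctionFieldBar p), Genus.HasResidueK v := by
    have key : ∀ (E : IntermediateField (AlgebraicClosure ℚ) (LaurentSeries (AlgebraicClosure ℚ))),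
        E = modularFunctionFieldC (AlgebraicClosure ℚ) p →
          ∀ v : Place (AlgebraicClosure ℚ) E, Genus.HasResidueK v := by
      rintro E rfl v
      exact Genus.hasResidueK_modular v
    exact key _ bar_eq
  have h1 := hval (cuspInf p)
  rw [Finsupp.single_eq_same, Finsupp.single_eq_of_ne (Ne.symm hne), sub_zero] at h1
  have h0 := hval (cuspZero hp)
  rw [Finsupp.single_eq_same, Finsupp.single_eq_of_ne hne, zero_sub] at h0
  obtain ⟨x, hx⟩ := exists_jZero_ne_zero (p := p) (genusFormula_prime_pos Fact.out hp')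
  refine hx (pic0_eq_zero_of_simple_pole deg_eq_one_bar hres hu (Ne.symm hne) h1.symm h0.symm
    (fun v hv => ?_) x)
  rw [← hval v, Finsupp.single_eq_of_ne hv, sub_zero]
  by_cases h1' : v = cuspInf p
  · rw [h1', Finsupp.single_eq_same]; norm_num
  · rw [Finsupp.single_eq_of_ne h1']

end FLTAgent.Eisen
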