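import Fermat.Agent.Eisen.HeckeRing
import Fermat.Agent.GalRep.Assembly
import Fermat.Agent.GalRep.Dense

/-!
# The good reduction fields of the descent data of `J₀(N)`
-/

set_option autoImplicit false
set_option linter.style.haveILetI false

noncomputable section

namespace FLTAgent.Eisen

open ModularCurve AlgebraicCurve

variable {N : ℕ} [NeZero N]

theorem openStab_jZero (x : JZero N) : ∃ L : IntermediateField ℚ QBar, FiniteDimensional ℚ L ∧
    ∀ σ ∈ L.fixingSubgroup, σ • x = x := by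
  haveI := Hecke.hasPrincipalDivisors_level (AlgebraicClosure ℚ) N
  obtain ⟨L, hL, h⟩ := GalRep.isFiniteLevel_jZero N x
  exact ⟨L, hL, fun σ hσ => h σ fun a ha => (L.mem_fixingSubgroup_iff σ).1 hσ a ha⟩

open Classical in
/-- `T q` in `EisRing N`, and `0` when `q` is not a good prime. -/
def tGood (N q : ℕ) : EisRing N :=
  if h : q.Prime ∧ ¬ q ∣ N then MvPolynomial.X ⟨⟨q, h.1⟩, h.2⟩ else 0

theorem frob_jZero (hspec : GalRep.SpecializationsExist) (l : ℕ) [Fact l.Prime] (hN : N.Prime) :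
    ∃ (S : Finset ℕ) (T : ℕ → EisRing N),
      (∀ q : ℕ, q.Prime → q ∉ S → T q - 1 - (q : EisRing N) ∈ eisIdeal N l) ∧
      ∀ q : ℕ, q.Prime → q ∉ S → ∀ A : ValuationSubring QBar, A.LiesOverPrime q →
        ∀ φ : GQ, A.IsFrobeniusAt φ q → ∀ (r : ℕ) (x : JZero N), l ^ r • x = 0 →
          φ • φ • x - T q • φ • x + q • x = 0 := by
  have hgood : ∀ q : ℕ, q.Prime → q ∉ ({N, l} : Finset ℕ) → ¬ q ∣ N * l := fun q hq hqS hdvd => by
    simp only [Finset.mem_insert, Finset.mem_singleton, not_or] at hqS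
    rcases (Nat.Prime.dvd_mul hq).1 hdvd with h | h
    · exact hqS.1 ((Nat.prime_dvd_prime_iff_eq hq hN).1 h)
    · exact hqS.2 ((Nat.prime_dvd_prime_iff_eq hq Fact.out).1 h)
  refine ⟨{N, l}, tGood N, fun q hq hqS => ?_, fun q hq hqS A hA φ hφ r x hx => ?_⟩
  · have h : q.Prime ∧ ¬ q ∣ N := ⟨hq, fun h => hgood q hq hqS (h.mul_right l)⟩
    rw [tGood, dif_pos h, mem_eisIdeal, map_sub, map_sub, eisChar_X, map_one, map_natCast]
    simp
  · have h : q.Prime ∧ ¬ q ∣ N := ⟨hq, fun h => hgood q hq hqS (h.mul_right l)⟩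
    rw [tGood, dif_pos h, X_eis_smul]
    exact (GalRep.galoisFacts hspec N l).frobenius q hq (hgood q hq hqS) A hA φ hφ x ⟨r, hx⟩

theorem unr_jZero (hspec : GalRep.SpecializationsExist) (l : ℕ) [Fact l.Prime] (hN : N.Prime)
    (q : ℕ) (hq : q.Prime) (hql : q ≠ l) (hqN : q ≠ N) (A : ValuationSubring QBar)
    (hA : A.LiesOverPrime q) (σ : GQ) (hσ : σ ∈ A.inertiaSubgroupIn ℚ) (r : ℕ) (x : JZero N)
    (hx : ∀ τ : GQ, τ • l ^ r • x = l ^ r • x) : σ • x = x := by
  have hdvd : ¬ q ∣ N * l := fun h => by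
    rcases (Nat.Prime.dvd_mul hq).1 h with h | h
    · exact hqN ((Nat.prime_dvd_prime_iff_eq hq hN).1 h)
    · exact hql ((Nat.prime_dvd_prime_iff_eq hq Fact.out).1 h)
  letI := heckeModuleBar N
  obtain ⟨J', _, _, sp, F, hsp, -⟩ := hspec N l (Hecke.heckeOperatorsCommuteBar N)
    (Hecke.smulCommClass_heckeModuleBar N) q hq hdvd A hA
  refine sub_eq_zero.1 (hsp.injective_torsion _ ⟨r, ?_⟩ ?_)
  · rw [nsmul_sub, ← GalRep.smul_nsmul_jZero, hx σ, sub_self]
  · rw [map_sub, hsp.inertia_comm σ hσ, sub_self]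

end FLTAgent.Eisen
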