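import Fermat.Agent.Eisen.ConjBound
import Fermat.Agent.Eisen.SpecFields
import Fermat.Agent.Eisen.CuspEis
import Fermat.Agent.Eisen.CuspNeZero
import Fermat.Agent.Mazur.StepThree

/-!
# The Eisenstein endomorphism of `J₀(p)` from its geometric inputs
-/

set_option autoImplicit false
set_option linter.style.haveILetI false

noncomputable section

namespace FLTAgent.Eisen

open ModularCurve AlgebraicCurve

variable (N : ℕ) [NeZero N]

/-- At a place over `N` inertia is unipotent on the `l`-power roots of rational points. -/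
def UnipRoots (l : ℕ) (A₀ : ValuationSubring QBar) : Prop :=
  ∀ σ ∈ A₀.inertiaSubgroupIn ℚ, ∀ (r : ℕ) (x : JZero N),
    (∀ τ : GQ, τ • l ^ r • x = l ^ r • x) → σ • (σ • x - x) = σ • x - x

/-- Every point is divisible by `l`. -/
def DivisibleByPrime (l : ℕ) : Prop := ∀ x : JZero N, ∃ y : JZero N, l • y = x

/-- Torsors of the `l`-power torsion attached to `l`-power roots of rational points are flat. -/
def FlatTorsion (l : ℕ) : Prop :=
  ∀ (r : ℕ) (x : JZero N) (hx : ∀ σ : GQ, σ • x - x ∈ torL (EisRing N) (JZero N) l r),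
    letI := subAction (torL (EisRing N) (JZero N) l r) (torL_stable l r)
    IsFlatTorsor l fun σ => (⟨σ • x - x, hx σ⟩ : torL (EisRing N) (JZero N) l r)

/-- The rational points are finitely generated. -/
def FixedFG : Prop := (fixedSub (EisRing N) (JZero N)).toAddSubgroup.FG

/-- The kernel of reduction is stable under the good Hecke operators. -/
def ReductionHeckeStable : Prop :=
  ∀ q : ℕ, q.Prime → q ≠ N → ∀ A : ValuationSubring QBar, A.LiesOverPrime q →
    ∀ (i : GoodPrimes N) (z : JZero N), reductionModL A N z = 0 →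
      reductionModL A N (heckeOperatorBar N i.1 z) = 0

variable {N}

omit [NeZero N] in
theorem kappa_root (x : QBar) (n : ℕ) (hn : 0 < n) (hx : x ^ n = 1) :
    complexConjugation x = x⁻¹ := by
  apply complexEmbedding.toRingHom.injective
  show complexEmbedding (complexConjugation x) = complexEmbedding x⁻¹
  rw [complexEmbedding_complexConjugation, map_inv₀]
  refine (Complex.inv_eq_conj ?_).symm
  exact Complex.norm_eq_one_of_pow_eq_one (by rw [← map_pow, hx, map_one]) hn.ne'

theorem exists_smul_torsion (hspec : GalRep.SpecializationsExist) (hN : N.Prime) {l : ℕ}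
    [Fact l.Prime] (hne : N ≠ l) {A₀ : ValuationSubring QBar} (hA₀ : A₀.LiesOverPrime N)
    (hunip : UnipRoots N l A₀) (hdiv : DivisibleByPrime N l) (hflat : FlatTorsion N l)
    (hfg : FixedFG N) :
    ∃ s : EisRing N, s ∉ eisIdeal N l ∧
      ∀ y ∈ fixedSub (EisRing N) (JZero N), ∃ m : ℕ, m ≠ 0 ∧ m • s • y = 0 :=
  haveI : NeZero l := ⟨(Fact.out : l.Prime).ne_zero⟩
  DescentData.exists_torsion (J := JZero N) (N := N) (κ := complexConjugation) (A₀ := A₀)
    { primeN := hN
      ne := hne
      maximal := eisIdeal_isMaximal l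
      mem := natCast_mem_eisIdeal l
      residue := exists_int_sub_mem_eisIdeal l
      kappa := kappa_root
      kappaInv := complexConjugation_mul_self
      overN := hA₀
      fg := hfg
      finTor := fun r => JTors.finite_jZero_torsion N (pow_ne_zero r (NeZero.ne l))
      openStab := openStab_jZero
      frob := frob_jZero hspec l hN
      unr := unr_jZero hspec l hN
      unip := hunip
      divisible := hdiv
      conj := conj_bound N l _
      flat := hflat }
    GalRep.frobeniusDense

variable {p : ℕ} [NeZero p] [Fact p.Prime]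

theorem smul_cuspClass (hp : 5 ≤ p) (t : EisRing p) :
    t • Mazur.cuspClass (p := p) hp = eisChar p t • Mazur.cuspClass (p := p) hp := by
  induction t using MvPolynomial.induction_on with
  | C z =>
    rw [C_eis_smul, ← MvPolynomial.algebraMap_eq, eq_intCast, map_intCast]
    rfl
  | add s u hs hu => rw [add_smul, hs, hu, map_add]; exact (add_zsmul _ _ _).symm
  | mul_X s q hs =>
    rw [mul_smul, X_eis_smul, heckeOperatorBar_cuspClass hp q.1 q.2, map_mul, eisChar_X,
      ← natCast_zsmul, ← Int.cast_smul_eq_zsmul (EisRing p), smul_comm, hs,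
      Int.cast_smul_eq_zsmul, smul_smul, mul_comm]
    push_cast
    rfl

omit [Fact p.Prime] in
theorem stable_smul (hstab : ReductionHeckeStable p) {q : ℕ} (hq : q.Prime) (hqp : q ≠ p)
    {A : ValuationSubring QBar} (hA : A.LiesOverPrime q) (t : EisRing p) :
    ∀ z : JZero p, reductionModL A p z = 0 → reductionModL A p (t • z) = 0 := by
  induction t using MvPolynomial.induction_on with
  | C a => intro z hz; rw [C_eis_smul, map_zsmul, hz, smul_zero]
  | add s u hs hu => intro z hz; rw [add_smul, map_add, hs z hz, hu z hz, add_zero]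
  | mul_X s i hs =>
    intro z hz
    rw [mul_smul, X_eis_smul]
    exact hs _ (hstab q hq hqp A hA i z hz)

/-- The endomorphism needed in the third step of Mazur's argument. -/
theorem eisensteinEndExists (hp : 5 ≤ p) (hp' : p ∉ ({2, 3, 5, 7, 13} : Finset ℕ))
    (hspec : GalRep.SpecializationsExist) (hstab : ReductionHeckeStable p)
    (hfg : FixedFG p)
    (hflat : ∀ l : ℕ, l.Prime → l ≠ p → l ∣ Mazur.half p → FlatTorsion p l)
    (hdiv : ∀ l : ℕ, l.Prime → l ∣ Mazur.half p → DivisibleByPrime p l)
    (hunip : ∀ l : ℕ, l.Prime → l ≠ p → l ∣ Mazur.half p → ∃ A₀ : ValuationSubring QBar,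
      A₀.LiesOverPrime p ∧ UnipRoots p l A₀) :
    Mazur.EisensteinEndExists p hp := by
  set c := Mazur.cuspClass (p := p) hp with hc
  have hhalf := Mazur.half_nsmul_cuspClass (p := p) hp
  have hne1 : addOrderOf c ≠ 1 := fun h =>
    cuspClass_ne_zero hp hp' (AddMonoid.addOrderOf_eq_one_iff.1 h)
  set l := (addOrderOf c).minFac
  haveI : Fact l.Prime := ⟨Nat.minFac_prime hne1⟩
  have hdvd : l ∣ Mazur.half p :=
    (Nat.minFac_dvd _).trans (addOrderOf_dvd_of_nsmul_eq_zero hhalf)
  have hlp : l ≠ p := fun h => by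
    have h1 := Nat.le_of_dvd (Mazur.half_pos hp) hdvd
    rw [h, Mazur.half] at h1
    omega
  obtain ⟨A₀, hA₀, hunip⟩ := hunip l Fact.out hlp hdvd
  obtain ⟨s, hs, hstor⟩ := exists_smul_torsion hspec Fact.out (Ne.symm hlp) hA₀ hunip
    (hdiv l Fact.out hdvd) (hflat l Fact.out hlp hdvd) hfg
  refine ⟨DistribSMul.toAddMonoidHom (JZero p) s, fun q hq hqp A hA z hz =>
    stable_smul hstab hq hqp hA s z hz, fun z hz => hstor z hz, fun h => hs ?_⟩
  have h : s • c = 0 := h
  rw [hc, smul_cuspClass, ← hc] at h
  rw [mem_eisIdeal]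
  exact (Int.natCast_dvd_natCast.2 (Nat.minFac_dvd _)).trans
    (addOrderOf_dvd_iff_zsmul_eq_zero.2 h)

end FLTAgent.Eisen
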