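import Fermat.Agent.Eisen.FlatPair
import Fermat.Agent.GalRep.Cyclo
import Fermat.Agent.GalRep.Approx
import Mathlib.GroupTheory.PGroup
import Mathlib.GroupTheory.Index

/-!
Galois modules killed by `P` on which almost all Frobenius elements satisfy
`(φ - 1)(φ - q) = 0` contain a line with trivial or cyclotomic action.
-/

set_option autoImplicit false
set_option linter.style.haveILetI false
set_option linter.unusedSectionVars false

noncomputable section

namespace FLTAgent.Eisen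

theorem frobenius_apply_root {A : ValuationSubring QBar} {q m : ℕ} (hA : A.LiesOverPrime q)
    {φ : GQ} (hφ : A.IsFrobeniusAt φ q) (hm0 : m ≠ 0) (hm : m.Coprime q) {ζ : QBar}
    (hζ : ζ ^ m = 1) : φ ζ = ζ ^ q := by
  let x : A := ⟨ζ, GalRep.root_mem m hm0 hζ⟩
  have hx : x ^ m = 1 := Subtype.ext (by simpa using hζ)
  let g : A.decompositionSubgroup ℚ := ⟨φ, hφ.mem_decompositionSubgroup⟩
  have h := hφ.smul_residue_eq (IsLocalRing.residue A x)
  rw [← IsLocalRing.ResidueField.residue_smul, ← map_pow] at h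
  have key : g • x = x ^ q := by
    refine GalRep.root_eq_of_residue_eq hA hm0 hm ?_ ?_ h
    · rw [← smul_pow', hx, smul_one]
    · rw [← pow_mul, mul_comm, pow_mul, hx, one_pow]
  exact congrArg Subtype.val key

variable {l : ℕ} [Fact l.Prime]

theorem zsmul_eq_of_cast_eq {V : Type*} [AddCommGroup V] {v : V} (hv : l • v = 0) {a b : ℤ}
    (h : (a : ZMod l) = (b : ZMod l)) : a • v = b • v := by
  obtain ⟨k, hk⟩ := (ZMod.intCast_eq_intCast_iff_dvd_sub a b l).1 h
  rw [← sub_eq_zero, ← sub_smul, show a - b = (l : ℤ) * (-k) by linarith, mul_comm, mul_smul,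
    natCast_zsmul, hv, smul_zero]

variable {V : Type*} [AddCommGroup V] [DistribMulAction GQ V]

theorem smul_zsmul_comm (g : GQ) (n : ℤ) (v : V) : g • (n • v) = n • (g • v) :=
  map_zsmul (DistribSMul.toAddMonoidHom V g) n v

/-- `(g - 1)^l = g^l - 1` kills unipotent elements. -/
theorem pow_smul_eq_self_of_unipotent (hl : ∀ v : V, l • v = 0) {g : GQ}
    (hg : ∀ v : V, g • (g • v - v) = g • v - v) (v : V) : (g ^ l) • v = v := by
  have key : ∀ k : ℕ, (g ^ k) • v = v + k • (g • v - v) := by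
    intro k
    induction k with
    | zero => simp
    | succ k ih =>
      rw [pow_succ', mul_smul, ih, smul_add, ← natCast_zsmul, smul_zsmul_comm, hg, natCast_zsmul,
        succ_nsmul]
      abel
  rw [key, hl, add_zero]

/-- Some non-zero element is fixed by a group acting unipotently in exponent `l`. -/
theorem exists_fixed_ne_zero [Finite V] [Nontrivial V] (hl : ∀ v : V, l • v = 0) (H : Subgroup GQ)
    (hH : ∀ g ∈ H, ∀ v : V, g • (g • v - v) = g • v - v) :
    ∃ v : V, v ≠ 0 ∧ ∀ g ∈ H, g • v = v := by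
  have hl' : l.Prime := Fact.out
  let ρ : H →* Equiv.Perm V := (MulAction.toPermHom GQ V).comp H.subtype
  have hpg : IsPGroup l ρ.range := by
    rintro ⟨_, ⟨g, rfl⟩⟩
    refine ⟨1, Subtype.ext (Equiv.ext fun v => ?_)⟩
    rw [pow_one]
    show ((ρ g) ^ l) v = v
    rw [← map_pow]
    exact pow_smul_eq_self_of_unipotent hl (hH g g.2) v
  have hdvd : l ∣ Nat.card V := by
    obtain ⟨v, hv⟩ := exists_ne (0 : V)
    rw [← addOrderOf_eq_prime (hl v) hv]
    exact addOrderOf_dvd_natCard v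
  have h0 : (0 : V) ∈ MulAction.fixedPoints ρ.range V := by
    rintro ⟨_, ⟨g, rfl⟩⟩
    exact smul_zero (g : GQ)
  obtain ⟨v, hv, hne⟩ :=
    hpg.exists_fixed_point_of_prime_dvd_card_of_fixed_point V hdvd h0
  exact ⟨v, hne.symm, fun g hg => hv ⟨ρ ⟨g, hg⟩, ⟨g, hg⟩, rfl⟩⟩

/-- A line with trivial or cyclotomic action. -/
theorem exists_line [Finite V] [Nontrivial V] (hl : ∀ v : V, l • v = 0) {ζ : QBar}
    (hζ : IsPrimitiveRoot ζ l)
    (hd : GalRep.FrobeniusDense) (L : IntermediateField ℚ QBar) [FiniteDimensional ℚ L]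
    (hL : ∀ σ ∈ L.fixingSubgroup, ∀ v : V, σ • v = v) (S : Finset ℕ)
    (hfrob : ∀ q : ℕ, q.Prime → q ∉ S → ∀ A : ValuationSubring QBar, A.LiesOverPrime q →
      ∀ φ : GQ, A.IsFrobeniusAt φ q → ∀ v : V,
        φ • (φ • v - q • v) = φ • v - q • v) :
    ∃ w : V, w ≠ 0 ∧ ((∀ g : GQ, g • w = w) ∨ ∀ (g : GQ) (n : ℕ), g ζ = ζ ^ n → g • w = n • w) := by
  classical
  have hl' : l.Prime := Fact.out
  haveI : NeZero l := ⟨hl'.ne_zero⟩
  have hint : IsIntegral ℚ ζ :=
    ((AlgebraicClosure.isAlgebraic ℚ).isAlgebraic ζ).isIntegral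
  haveI : FiniteDimensional ℚ (IntermediateField.adjoin ℚ {ζ}) :=
    IntermediateField.adjoin.finiteDimensional hint
  let χ : GQ →* (ZMod l)ˣ := hζ.autToPow ℚ
  have hχ : ∀ (g : GQ) (n : ℕ), g ζ = ζ ^ n → (χ g : ZMod l) = n := by
    intro g n hn
    rw [← hζ.autToPow_spec ℚ g] at hn
    rw [pow_eq_pow_mod n hζ.pow_eq_one] at hn
    have h1 := hζ.pow_inj (ZMod.val_lt _) (Nat.mod_lt _ hl'.pos) hn
    rw [← ZMod.natCast_zmod_val (χ g : ZMod l), h1, ZMod.natCast_mod]
  -- the quadratic relation everywhere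
  have hrel : ∀ (g : GQ) (v : V), g • (g • v - ((χ g : ZMod l).val) • v) =
      g • v - ((χ g : ZMod l).val) • v := by
    intro g v
    let L' := L ⊔ IntermediateField.adjoin ℚ {ζ}
    obtain ⟨q, hq, hqS, A, hA, φ, hφ, heq⟩ := hd L' inferInstance g (insert l S)
    simp only [Finset.mem_insert, not_or] at hqS
    have hLfix : ∀ v : V, g • v = φ • v := by
      intro v
      have hmem : g⁻¹ * φ ∈ L.fixingSubgroup := by
        rw [IntermediateField.mem_fixingSubgroup_iff]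
        exact fun x hx => (GalRep.fixing_of_agree heq).1 x
          ((le_sup_left : L ≤ L') hx)
      calc g • v = g • ((g⁻¹ * φ) • v) := by rw [hL _ hmem]
        _ = φ • v := by rw [← mul_smul, mul_inv_cancel_left]
    have hgζ : g ζ = ζ ^ q := by
      rw [← heq ζ ((le_sup_right : _ ≤ L') (IntermediateField.mem_adjoin_simple_self ℚ ζ))]
      exact frobenius_apply_root hA hφ hl'.ne_zero
        ((Nat.coprime_primes hl' hq).2 (Ne.symm hqS.1)) hζ.pow_eq_one
    have hq' : ∀ u : V, ((χ g : ZMod l).val) • u = q • u := fun u => by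
      rw [← natCast_zsmul, ← natCast_zsmul]
      exact zsmul_eq_of_cast_eq (hl u) (by
        push_cast; rw [ZMod.natCast_zmod_val, hχ g q hgζ])
    rw [hq', hLfix, hLfix]
    exact hfrob q hq hqS.2 A hA φ hφ v
  have hker : ∀ g ∈ χ.ker, ∀ v : V, g • (g • v - v) = g • v - v := by
    intro g hg v
    have h := hrel g v
    rwa [MonoidHom.mem_ker.1 hg, Units.val_one, ZMod.val_one, one_nsmul] at h
  obtain ⟨w₀, hw₀, hfix₀⟩ := exists_fixed_ne_zero hl χ.ker hker
  obtain ⟨u₀, hu₀⟩ := IsCyclic.exists_generator (α := χ.range)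
  obtain ⟨g₀, hg₀⟩ := u₀.2
  set a := (χ g₀ : ZMod l).val
  -- decomposition `g = g₀^k h`
  have hdecomp : ∀ g : GQ, ∃ k : ℕ, ∃ h ∈ χ.ker, g = g₀ ^ k * h := by
    intro g
    obtain ⟨k, hk⟩ := (IsOfFinOrder.mem_powers_iff_mem_zpowers (isOfFinOrder_of_finite u₀)).2
      (hu₀ ⟨χ g, ⟨g, rfl⟩⟩)
    refine ⟨k, (g₀ ^ k)⁻¹ * g, ?_, (mul_inv_cancel_left _ _).symm⟩
    have hk' : (χ g₀) ^ k = χ g := by rw [hg₀]; exact congrArg Subtype.val hk
    rw [MonoidHom.mem_ker, map_mul, map_inv, map_pow, hk', inv_mul_cancel]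
  have hfixpow : ∀ (w : V) (μ : ℕ), (∀ h ∈ χ.ker, h • w = w) → g₀ • w = μ • w →
      ∀ g : GQ, ∃ k : ℕ, g • w = μ ^ k • w ∧ (χ g : ZMod l) = (χ g₀ : ZMod l) ^ k := by
    intro w μ hw hμ g
    obtain ⟨k, h, hh, rfl⟩ := hdecomp g
    refine ⟨k, ?_, by rw [map_mul, MonoidHom.mem_ker.1 hh, mul_one, map_pow, Units.val_pow_eq_pow_val]⟩
    rw [mul_smul, hw h hh]
    clear hh
    induction k with
    | zero => simp
    | succ k ih =>
      rw [pow_succ', mul_smul, ih, ← natCast_zsmul, smul_zsmul_comm, hμ, natCast_zsmul,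
        smul_smul, pow_succ]
  by_cases hcase : ∃ w : V, w ≠ 0 ∧ (∀ h ∈ χ.ker, h • w = w) ∧ g₀ • w = w
  · obtain ⟨w, hw, hwk, hw1⟩ := hcase
    refine ⟨w, hw, Or.inl fun g => ?_⟩
    obtain ⟨k, hk, -⟩ := hfixpow w 1 hwk (by rw [one_nsmul, hw1]) g
    rw [hk, one_pow, one_nsmul]
  · push Not at hcase
    refine ⟨w₀, hw₀, Or.inr fun g n hn => ?_⟩
    have hW : ∀ h ∈ χ.ker, h • (g₀ • w₀) = g₀ • w₀ := by
      intro h hh
      have hh' : g₀⁻¹ * h * g₀ ∈ χ.ker := by
        simpa using (MonoidHom.normal_ker χ).conj_mem h hh g₀⁻¹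
      calc h • (g₀ • w₀) = g₀ • ((g₀⁻¹ * h * g₀) • w₀) := by
            rw [← mul_smul, ← mul_smul]; congr 1; group
        _ = g₀ • w₀ := by rw [hfix₀ _ hh']
    have hμ : g₀ • w₀ = a • w₀ := by
      refine sub_eq_zero.1 (by_contra fun hne => hcase _ hne (fun h hh => ?_) (hrel g₀ w₀))
      rw [smul_sub, hW h hh, ← natCast_zsmul, smul_zsmul_comm, hfix₀ h hh]
    obtain ⟨k, hk, hχk⟩ := hfixpow w₀ a hfix₀ hμ g
    rw [hk, ← natCast_zsmul, ← natCast_zsmul]
    refine zsmul_eq_of_cast_eq (hl w₀) ?_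
    push_cast
    rw [ZMod.natCast_zmod_val, ← hχk, hχ g n hn]

end FLTAgent.Eisen
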