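import Fermat.Agent.Eisen.Descent

/-!
# Counting the minus part of conjugation

An operator which commutes with `R`, anticommutes with `κ` and has bounded kernel makes the minus
part of `κ` no larger, up to a constant, than the square root of the module.
-/

set_option autoImplicit false
set_option linter.style.haveILetI false
set_option linter.unusedSectionVars false

noncomputable section

namespace FLTAgent.Eisen

variable {R J : Type*} [CommRing R] [AddCommGroup J] [Module R J] [DistribMulAction GQ J]
  [SMulCommClass GQ R J]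

theorem exists_conj_bound {l : ℕ} {κ : GQ} (P : Ideal R) {d : ℕ} (hd : d ≠ 0)
    (hfin : ∀ n : ℕ, n ≠ 0 → {x : J | n • x = 0}.Finite)
    (hl : l ≠ 0)
    (h : ∀ r, ∃ a : torL R J l r →ₗ[R] torL R J l r,
      (∀ x y : torL R J l r, (y : J) = κ • (x : J) → (a y : J) = -(κ • (a x : J))) ∧
        ∀ x, a x = 0 → d • (x : J) = 0) :
    ∃ C : ℕ, ∀ r n : ℕ,
      Nat.card {m : primPart (J := J) P l r n // (m : J) + κ • (m : J) = 0} ^ 2 ≤
        C * Nat.card (primPart (J := J) P l r n) := by
  haveI : Finite {x : J // d • x = 0} := (hfin d hd).to_subtype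
  haveI : Finite {x : J // 2 • x = 0} := (hfin 2 two_ne_zero).to_subtype
  refine ⟨Nat.card {x : J // d • x = 0} * Nat.card {x : J // 2 • x = 0}, fun r n => ?_⟩
  obtain ⟨a, ha, hker⟩ := h r
  haveI : Finite (primPart (J := J) P l r n) :=
    Set.finite_coe_iff.2 ((hfin _ (pow_ne_zero r hl)).subset fun _ hx => hx.1)
  let k : J →+ J := DistribSMul.toAddMonoidHom J κ
  let mM : AddSubgroup (primPart (J := J) P l r n) :=
    ((AddMonoidHom.id J + k).comp (primPart (J := J) P l r n).subtype.toAddMonoidHom).ker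
  let pM : AddSubgroup (primPart (J := J) P l r n) :=
    ((AddMonoidHom.id J - k).comp (primPart (J := J) P l r n).subtype.toAddMonoidHom).ker
  have hm : ∀ x : primPart (J := J) P l r n, x ∈ mM ↔ (x : J) + κ • (x : J) = 0 := fun x =>
    AddMonoidHom.mem_ker
  have hp : ∀ x : primPart (J := J) P l r n, x ∈ pM ↔ (x : J) - κ • (x : J) = 0 := fun x =>
    AddMonoidHom.mem_ker
  change Nat.card mM ^ 2 ≤ _
  -- the operator restricted to the prime part
  have hmem : ∀ x : primPart (J := J) P l r n,
      (a ⟨x, x.2.1⟩ : J) ∈ primPart (J := J) P l r n := fun x => ⟨(a ⟨x, x.2.1⟩).2, fun s hs => by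
    have : (s • ⟨(x : J), x.2.1⟩ : torL R J l r) = 0 := Subtype.ext (x.2.2 s hs)
    rw [← SetLike.val_smul, ← map_smul, this, map_zero]; rfl⟩
  let a' : primPart (J := J) P l r n →+ primPart (J := J) P l r n :=
    AddMonoidHom.mk' (fun x => ⟨_, hmem x⟩) fun x y => Subtype.ext (by
      show (a ⟨(x : J) + y, (x + y).2.1⟩ : J) = _ + _
      rw [show (⟨(x : J) + y, (x + y).2.1⟩ : torL R J l r) = ⟨x, x.2.1⟩ + ⟨y, y.2.1⟩ from rfl,
        map_add]; rfl)
  have hmaps : ∀ x ∈ mM, a' x ∈ pM := fun x hx => by
    have e : κ • (x : J) = -(x : J) := eq_neg_of_add_eq_zero_right ((hm x).1 hx)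
    have h1 := ha ⟨x, x.2.1⟩ (-⟨x, x.2.1⟩) (by simpa using e.symm)
    rw [map_neg, Submodule.coe_neg, neg_inj] at h1
    rw [hp]
    exact sub_eq_zero.2 h1
  let f : mM →+ pM :=
    (a'.comp mM.subtype).codRestrict pM fun x => hmaps x x.2
  have h1 : Nat.card mM ≤ Nat.card {x : J // d • x = 0} * Nat.card pM := by
    have e : Nat.card mM = Nat.card f.range * Nat.card f.ker := by
      rw [← AddSubgroup.card_mul_index f.ker, AddSubgroup.index_ker, mul_comm]
    rw [e, mul_comm]
    refine Nat.mul_le_mul ?_ (Nat.card_le_card_of_injective _ Subtype.val_injective)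
    refine Nat.card_le_card_of_injective (fun x => ⟨((x.1.1 : primPart (J := J) P l r n) : J),
      hker ⟨_, x.1.1.2.1⟩ (Subtype.ext
        (congrArg (fun t : pM => ((t.1 : primPart (J := J) P l r n) : J)) x.2))⟩)
      fun x y hxy => Subtype.ext (Subtype.ext (Subtype.ext
        (congrArg (fun t : {x : J // d • x = 0} => (t : J)) hxy)))
  have h2 : Nat.card mM * Nat.card pM ≤
      Nat.card {x : J // 2 • x = 0} * Nat.card (primPart (J := J) P l r n) := by
    let g : mM × pM →+ primPart (J := J) P l r n := mM.subtype.coprod pM.subtype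
    have e : Nat.card g.range * Nat.card g.ker = Nat.card mM * Nat.card pM := by
      rw [← Nat.card_prod mM pM, ← AddSubgroup.card_mul_index g.ker, AddSubgroup.index_ker,
        mul_comm]
    rw [← e, mul_comm]
    refine Nat.mul_le_mul ?_ (Nat.card_le_card_of_injective _ Subtype.val_injective)
    have hval : ∀ x : g.ker, (x.1.2.1 : J) = -(x.1.1.1 : J) := fun x => by
      have := congrArg (fun t : primPart (J := J) P l r n => (t : J)) x.2
      exact eq_neg_of_add_eq_zero_right (by simpa [g] using this)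
    refine Nat.card_le_card_of_injective (fun x => ⟨(x.1.1.1 : J), ?_⟩) fun x y hxy => ?_
    · have e1 := (hm _).1 x.1.1.2
      have e2 := (hp _).1 x.1.2.2
      rw [hval x, smul_neg, sub_neg_eq_add, neg_add_eq_zero] at e2
      rw [← e2] at e1
      rw [two_nsmul]
      exact e1
    · have e1 : (x.1.1.1 : J) = y.1.1.1 := congrArg (fun t : {x : J // 2 • x = 0} => (t : J)) hxy
      refine Subtype.ext (Prod.ext (Subtype.ext (Subtype.ext e1)) (Subtype.ext (Subtype.ext ?_)))
      rw [hval x, hval y, e1]
  calc Nat.card mM ^ 2 ≤ Nat.card mM * (Nat.card {x : J // d • x = 0} * Nat.card pM) := by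
        rw [pow_two]; exact Nat.mul_le_mul_left _ h1
    _ = Nat.card {x : J // d • x = 0} * (Nat.card mM * Nat.card pM) := by ring
    _ ≤ _ := by rw [mul_assoc]; exact Nat.mul_le_mul_left _ h2

end FLTAgent.Eisen
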