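import Fermat.Agent.Eisen.HeckeRing
import Fermat.Agent.Eisen.AntiLattice
import Fermat.Agent.Eisen.ConjCount
import Fermat.Agent.JTors.Model

/-!
# The bound on the minus part of the torsion of `J₀(N)`
-/

set_option autoImplicit false
set_option linter.style.haveILetI false

noncomputable section

namespace FLTAgent.Eisen

open ModularCurve Periods JTors

/-- An additive map commuting with the variables commutes with all polynomials. -/
theorem map_mvPolynomial_smul {σ M : Type*} [AddCommGroup M] [Module (MvPolynomial σ ℤ) M]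
    (f : M →+ M) (hf : ∀ (i : σ) (x : M),
      f ((MvPolynomial.X i : MvPolynomial σ ℤ) • x) = (MvPolynomial.X i : MvPolynomial σ ℤ) • f x)
    (t : MvPolynomial σ ℤ) (x : M) : f (t • x) = t • f x := by
  induction t using MvPolynomial.induction_on generalizing x with
  | C z =>
    rw [← MvPolynomial.algebraMap_eq, eq_intCast]
    exact map_intCast_smul f _ _ z x
  | add s u hs hu => rw [add_smul, add_smul, map_add, hs, hu]
  | mul_X s q hs => rw [mul_smul, mul_smul, hs, hf]

set_option maxHeartbeats 1600000 in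
/-- An operator on the `l ^ r`-torsion commuting with `EisRing N`, anticommuting with conjugation,
with kernel killed by a fixed integer. -/
theorem exists_anti_torsion (N : ℕ) [NeZero N] (l : ℕ) [NeZero l] :
    ∃ d : ℕ, d ≠ 0 ∧ ∀ r, ∃ a : torL (EisRing N) (JZero N) l r →ₗ[EisRing N]
      torL (EisRing N) (JZero N) l r,
      (∀ x y : torL (EisRing N) (JZero N) l r, (y : JZero N) = complexConjugation • (x : JZero N) →
        (a y : JZero N) = -(complexConjugation • (a x : JZero N))) ∧
      ∀ x, a x = 0 → d • (x : JZero N) = 0 := by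
  obtain ⟨a, a', D, hD, haa, hι, hT⟩ := exists_anti_lattice N
  refine ⟨D.natAbs, Int.natAbs_ne_zero.2 hD, fun r => ?_⟩
  let π := torsionProj (N := N) l r
  have hmem : ∀ φ, π φ ∈ torL (EisRing N) (JZero N) l r := fun φ =>
    (isTorsChar_torsionProj l r φ).smul_eq_zero
  have hwell : ∀ φ ψ, π φ = π ψ → π (a φ) = π (a ψ) := fun φ ψ h => by
    rw [← sub_eq_zero, ← map_sub, torsionProj_eq_zero_iff] at h
    obtain ⟨χ, hχ⟩ := h
    rw [← sub_eq_zero, ← map_sub, torsionProj_eq_zero_iff, ← map_sub]
    exact ⟨a χ, by rw [hχ, map_nsmul]⟩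
  choose c hc using fun x : torL (EisRing N) (JZero N) l r => exists_torsionProj l r x.1 x.2
  obtain ⟨af, key⟩ : ∃ af : torL (EisRing N) (JZero N) l r →+ torL (EisRing N) (JZero N) l r,
      ∀ (x : torL (EisRing N) (JZero N) l r) φ, π φ = (x : JZero N) →
        (af x : JZero N) = π (a φ) :=
    ⟨AddMonoidHom.mk' (fun x => ⟨π (a (c x)), hmem _⟩) fun x y => Subtype.ext (by
      show π (a (c (x + y))) = π (a (c x)) + π (a (c y))
      rw [← map_add, ← map_add]
      refine hwell _ _ ?_
      rw [map_add, hc, hc, hc]; rfl),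
    fun x φ h => hwell _ _ ((hc x).trans h.symm)⟩
  have hgen : ∀ (q : GoodPrimes N) (x : torL (EisRing N) (JZero N) l r),
      af ((MvPolynomial.X q : EisRing N) • x) = (MvPolynomial.X q : EisRing N) • af x := by
    intro q x
    have hq : ∀ φ : ParQuot N →+ ℤ,
        π (latticeT q.1 q.2 φ) = (MvPolynomial.X q : EisRing N) • π φ := fun φ =>
      (torsionProj_heckeAct l r q.1.2 q.2 (Set.notMem_empty _) φ).trans (X_eis_smul q _).symm
    refine Subtype.ext ?_
    rw [SetLike.val_smul, key x _ (hc x), ← hq, ← hT]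
    exact key _ _ ((hq (c x)).trans (by rw [hc x, SetLike.val_smul]))
  have hlin := map_mvPolynomial_smul af hgen
  refine ⟨{ af with map_smul' := hlin }, fun x y hy => ?_, fun x hx => ?_⟩
  · show (af y : JZero N) = -(complexConjugation • (af x : JZero N))
    have hy' : π (iota N (c x)) = y := by
      rw [hy, ← hc x]; exact (complexConjugation_torsionProj l r (c x)).symm
    rw [key y _ hy', key x _ (hc x), hι, map_neg, complexConjugation_torsionProj]
  · have h0 : π (a (c x)) = 0 := (key x _ (hc x)).symm.trans (congrArg Subtype.val hx)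
    obtain ⟨χ, hχ⟩ := (torsionProj_eq_zero_iff l r _).1 h0
    have h1 : π (D • c x) = 0 :=
      (torsionProj_eq_zero_iff l r _).2 ⟨a' χ, by rw [← haa, hχ, map_nsmul]⟩
    rw [map_zsmul, hc] at h1
    rcases Int.natAbs_eq D with hD' | hD' <;> rw [hD'] at h1
    · rwa [natCast_zsmul] at h1
    · rwa [neg_zsmul, natCast_zsmul, neg_eq_zero] at h1

theorem conj_bound (N : ℕ) [NeZero N] (l : ℕ) [NeZero l] (P : Ideal (EisRing N)) :
    ∃ C : ℕ, ∀ r n : ℕ,
      Nat.card {m : primPart (J := JZero N) P l r n //
        (m : JZero N) + complexConjugation • (m : JZero N) = 0} ^ 2 ≤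
        C * Nat.card (primPart (J := JZero N) P l r n) := by
  obtain ⟨d, hd, h⟩ := exists_anti_torsion N l
  exact exists_conj_bound P hd (fun n hn => finite_jZero_torsion N hn) (NeZero.ne l) h

end FLTAgent.Eisen
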