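import Fermat.Agent.Periods.Injective
import Fermat.Agent.ModPoly.FunRing
import Fermat.Prelude.Def_ModularCurve_X0ModL

/-!
# Reflection and conjugation of functions on the upper half plane

For `g` on `ℍ` the function `z ↦ conj (g (-conj z))` is holomorphic when `g` is, and its expansion
at infinity is the expansion of `g` with conjugated coefficients.
-/

set_option autoImplicit false

noncomputable section

open Filter Function Complex ModularCurve
open UpperHalfPlane hiding I
open scoped MatrixGroups ComplexConjugate Topology Manifold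

namespace FLTAgent.Eisen

open ModPoly Periods

local notation "𝕢" => Periodic.qParam

/-- `z ↦ conj (g (-conj z))`. -/
def conjFun (g : ℍ → ℂ) : ℍ → ℂ := fun z => conj (g (negConj z))

@[simp]
theorem conjFun_apply (g : ℍ → ℂ) (z : ℍ) : conjFun g z = conj (g (negConj z)) := rfl

theorem negConj_negConj (z : ℍ) : negConj (negConj z) = z :=
  UpperHalfPlane.ext (by simp)

theorem tendsto_negConj : Tendsto negConj atImInfty atImInfty := by
  rw [atImInfty, tendsto_comap_iff]
  refine tendsto_comap.congr fun z => ?_
  show z.im = ((negConj z : ℍ) : ℂ).im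
  simp

theorem mdiff_conjFun {g : ℍ → ℂ} (hg : MDiff g) : MDiff (conjFun g) := by
  rw [UpperHalfPlane.mdifferentiable_iff] at hg ⊢
  intro z hz
  have hz' : 0 < (-conj z).im := by simpa using hz
  have h1 : DifferentiableAt ℂ (g ∘ ofComplex) (-conj z) :=
    (hg _ hz').differentiableAt (isOpen_upperHalfPlaneSet.mem_nhds hz')
  have h2 : DifferentiableAt ℂ (conj ∘ (g ∘ ofComplex) ∘ conj) (-z) := by
    simpa using h1.conj_conj
  refine DifferentiableAt.differentiableWithinAt ?_
  refine ((h2.comp z differentiableAt_id.neg).congr_of_eventuallyEq ?_)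
  filter_upwards [isOpen_upperHalfPlaneSet.mem_nhds hz] with w hw
  have hw' : 0 < (-conj w).im := by simpa using hw
  simp only [Function.comp_apply, conjFun_apply, map_neg, ofComplex_apply_of_im_pos hw]
  refine congrArg (fun t => conj (g t)) ?_
  rw [ofComplex_apply_of_im_pos hw']
  exact UpperHalfPlane.ext (by simp [negConj])

/-- Conjugating coefficients corresponds to reflecting the function. -/
theorem expands_conjFun {h : ℕ} {f : ℍ → ℂ} {x : LaurentSeries ℂ} (hf : Expands h f x) :
    Expands h (conjFun f) (coeffMap (starRingEnd ℂ) x) := by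
  obtain ⟨m, F, hF, rfl, hev⟩ := hf
  set F' : ℂ → ℂ := fun q => conj (F (conj q))
  have hsum : ∀ᶠ q in 𝓝 (0 : ℂ),
      HasSum (fun n => (PowerSeries.map (starRingEnd ℂ) (taylorPS F)).coeff n * q ^ n) (F' q) := by
    have hc : Tendsto (fun q : ℂ => conj q) (𝓝 0) (𝓝 0) := by
      simpa using Complex.continuous_conj.tendsto (0 : ℂ)
    filter_upwards [hc.eventually (eventually_hasSum_taylorPS hF)] with q hq
    have := Complex.hasSum_conj'.mpr hq
    simpa [F', PowerSeries.coeff_map] using this
  obtain ⟨hF', hT⟩ := taylorPS_eq_of_eventually_hasSum hsum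
  refine ⟨m, F', hF', ?_, ?_⟩
  · rw [hT, map_mul, coeffMap_single, map_one, coeffMap_ofPowerSeries]
  · filter_upwards [tendsto_negConj.eventually hev] with τ hτ
    rw [conjFun_apply, hτ, qParam_negConj, map_mul, map_zpow₀, Complex.conj_conj]

variable {N : ℕ} [NeZero N]

omit [NeZero N] in
theorem conjFun_mem_modFunRing {g : ℍ → ℂ} (hg : g ∈ modFunRing N) :
    conjFun g ∈ modFunRing N := by
  refine ⟨mdiff_conjFun hg.1, fun γ hγ τ => ?_, fun γ => ?_⟩
  · simp only [conjFun_apply, negConj_smul, smul_eq_of_mem hg (Period.jConjSL_mem_Gamma0 hγ)]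
  · obtain ⟨x, hx⟩ := comp_smul_mem_expRing hg (Period.jConjSL γ)
    refine ⟨_, (expands_conjFun hx).congr_fun' (Eventually.of_forall fun τ => ?_)⟩
    simp only [conjFun_apply, negConj_smul]

/-- The reflection of an element of `modFunRing N`. -/
def conjMod (g : modFunRing N) : modFunRing N := ⟨_, conjFun_mem_modFunRing g.2⟩

theorem qL_conjMod (g : modFunRing N) :
    qL N (conjMod g) = coeffMap (starRingEnd ℂ) (qL N g) :=
  qL_eq_of_expands (expands_conjFun (expands_qL g))

omit [NeZero N] in
theorem conjFun_eq_zero_iff {g : ℍ → ℂ} : conjFun g = 0 ↔ g = 0 := by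
  constructor
  · intro h
    funext z
    simpa [negConj_negConj] using congrFun h (negConj z)
  · rintro rfl
    funext z
    simp

end FLTAgent.Eisen
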