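import Mathlib.GroupTheory.Index
import Mathlib.GroupTheory.Torsion

/-!
Counting lemmas for the descent.
-/

set_option autoImplicit false

namespace FLTAgent.Eisen

variable {X Y Z : Type*} [AddCommGroup X] [AddCommGroup Y] [AddCommGroup Z]

/-- If `ψ` factors through `φ` and kills `M`, its image is small. -/
theorem card_range_le (φ : X →+ Y) (ψ : X →+ Z) [Finite φ.range] (M : AddSubgroup X) [Finite M]
    (hker : φ.ker ≤ ψ.ker) (hM : M ≤ ψ.ker) :
    Finite ψ.range ∧
      Nat.card ψ.range * Nat.card M ≤ Nat.card φ.range * Nat.card (φ.ker ⊓ M : AddSubgroup X) := by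
  have hne : φ.ker.index ≠ 0 := by
    rw [AddSubgroup.index_ker]; exact Nat.card_pos.ne'
  have hmul : φ.ker.relIndex ψ.ker * ψ.ker.index = φ.ker.index :=
    AddSubgroup.relIndex_mul_index hker
  have hψ : ψ.ker.index ≠ 0 := fun h => hne (by rw [← hmul, h, mul_zero])
  rw [AddSubgroup.index_ker ψ] at hψ hmul
  rw [AddSubgroup.index_ker φ] at hmul hne
  refine ⟨Nat.finite_of_card_ne_zero hψ, ?_⟩
  have hrel : φ.ker.relIndex ψ.ker ≠ 0 := fun h => hne (by rw [← hmul, h, zero_mul])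
  have hle : φ.ker.relIndex M ≤ φ.ker.relIndex ψ.ker :=
    AddSubgroup.relIndex_le_of_le_right hM hrel
  have hM' : Nat.card (φ.ker ⊓ M : AddSubgroup X) * φ.ker.relIndex M = Nat.card M := by
    rw [← AddSubgroup.inf_relIndex_right, ← AddSubgroup.relIndex_bot_left (φ.ker ⊓ M : AddSubgroup X),
      ← AddSubgroup.relIndex_bot_left M]
    exact AddSubgroup.relIndex_mul_relIndex _ _ _ bot_le inf_le_right
  rw [← hM', ← hmul]
  calc Nat.card ψ.range * (Nat.card (φ.ker ⊓ M : AddSubgroup X) * φ.ker.relIndex M)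
      ≤ Nat.card ψ.range * (Nat.card (φ.ker ⊓ M : AddSubgroup X) * φ.ker.relIndex ψ.ker) := by
        gcongr
    _ = _ := by ring

/-- `#M ≤ (#ker f)²` when `f² = 0`. -/
theorem card_le_card_ker_sq [Finite X] (f : X →+ X) (h : ∀ x, f (f x) = 0) :
    Nat.card X ≤ Nat.card f.ker ^ 2 := by
  have e := AddSubgroup.card_mul_index f.ker
  rw [AddSubgroup.index_ker] at e
  rw [← e, pow_two]
  refine Nat.mul_le_mul_left _ (Nat.card_le_card_of_injective
    (fun y : f.range => (⟨y.1, by obtain ⟨x, hx⟩ := y.2; rw [← hx]; exact h x⟩ : f.ker)) ?_)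
  intro a b hab
  exact Subtype.ext (congrArg (fun t : f.ker => (t : X)) hab)

/-- An element killed by a power of `l` with order at most `K` is killed by `l ^ K`. -/
theorem pow_smul_eq_zero_of_addOrder_le {l r K : ℕ} (hl : l.Prime) {z : X}
    (hz : l ^ r • z = 0) (hK : addOrderOf z ≤ K) : l ^ K • z = 0 := by
  obtain ⟨e, -, he⟩ := (Nat.dvd_prime_pow hl).1 (addOrderOf_dvd_of_nsmul_eq_zero hz)
  rw [← addOrderOf_dvd_iff_nsmul_eq_zero, he]
  refine pow_dvd_pow l ?_
  exact (Nat.lt_pow_self hl.one_lt).le.trans (he ▸ hK)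

end FLTAgent.Eisen
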