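import Fermat.Prelude.Def_ModularCurve_ArithmeticGalois
import Fermat.Agent.Genus.EmbPlace
import Fermat.Agent.Hecke.DegMaps
import Fermat.Agent.Genus.LaurentOps
import Fermat.Prelude.Thm_ModularCurve_coeff_jqModC_neg_one

/-!
# A place fixed by Galois: the cusp at infinity of any level
-/

set_option autoImplicit false
set_option linter.style.haveILetI false

noncomputable section

namespace FLTAgent.Eisen

open AlgebraicCurve ModularCurve

theorem order_coeffMap_equiv {K : Type*} [Field K] (σ : K ≃+* K) (x : LaurentSeries K) :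
    (coeffMap (σ : K →+* K) x).order = x.order := by
  rcases eq_or_ne x 0 with rfl | hx
  · simp
  have hne : coeffMap (σ : K →+* K) x ≠ 0 := (map_ne_zero _).mpr hx
  refine le_antisymm ?_ ?_
  · refine HahnSeries.order_le_of_coeff_ne_zero ?_
    rw [coeffMap_coeff]
    exact (map_ne_zero _).mpr (HahnSeries.coeff_order_eq_zero.not.mpr hx)
  · refine (HahnSeries.le_order_iff_forall hne).mpr fun k hk => ?_
    rw [coeffMap_coeff, HahnSeries.coeff_eq_zero_of_lt_order hk, map_zero]

local notation "Qbar" => AlgebraicClosure ℚ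

theorem exists_galois_fixed_place (N : ℕ) [NeZero N] :
    ∃ O : Place Qbar (modularFunctionFieldBar N),
      ∀ σ : Qbar ≃ₐ[ℚ] Qbar, arithmeticGalois (modularFunctionFieldFull N) σ • O = O := by
  let φ : modularFunctionFieldBar N →+* LaurentSeries Qbar :=
    (modularFunctionFieldBar N).val.toRingHom
  have hφ : Genus.Over (RingHom.id Qbar) φ := fun a =>
    algebraMap_laurentSeries_eq_single _ a
  have hx : ∃ f, 0 < (φ f).order := by
    have hj : jqModC Qbar ∈ modularFunctionFieldBar N := by
      have h := Hecke.jd_mem (d := 1) Qbar (one_dvd N)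
      rwa [Hecke.jd, qExpand_one_apply] at h
    have h1 : (jqModC Qbar).coeff (-1) = 1 := coeff_jqModC_neg_one _
    have hord : (jqModC Qbar).order ≤ -1 :=
      HahnSeries.order_le_of_coeff_ne_zero (by rw [h1]; exact one_ne_zero)
    refine ⟨(⟨_, hj⟩ : modularFunctionFieldBar N)⁻¹, ?_⟩
    rw [map_inv₀]
    show 0 < ((jqModC Qbar)⁻¹).order
    rw [Genus.order_inv']
    omega
  obtain ⟨k, hk0, hk⟩ := Genus.exists_induces_placeOfEmb φ hφ hx
  refine ⟨Genus.placeOfEmb φ hφ hx, fun σ => ?_⟩
  set g := arithmeticGalois (modularFunctionFieldFull N) σ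
  set O := Genus.placeOfEmb φ hφ hx
  refine Place.ext (SetLike.ext fun f => ?_)
  rw [SemilinearAut.smul_toValuationSubring, ValuationSubring.mem_pointwise_smul_iff_inv_smul_mem]
  show 0 ≤ (φ (g⁻¹ • f)).order ↔ 0 ≤ (φ f).order
  have e : φ f = coeffMap (σ : Qbar →+* Qbar) (φ (g⁻¹ • f)) := by
    conv_lhs => rw [← smul_inv_smul g f]
    exact coe_arithmeticGalois_smul (modularFunctionFieldFull N) σ _
  rw [e]
  exact Iff.of_eq (congrArg (0 ≤ ·) (order_coeffMap_equiv σ.toRingEquiv _).symm)

end FLTAgent.Eisen
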