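import Fermat.Agent.Eisen.RatVal
import Fermat.Agent.Frobenius.Lifting
import Mathlib.Algebra.Ring.GeomSum
import Mathlib.Algebra.CharP.Lemmas
import Mathlib.FieldTheory.Finite.Basic

/-!
The field cut out by a character of order `l` with non-trivial inertia at `l`: residue field
`𝔽_l`, a uniformiser, and the drop of valuation under `σ - 1`.
-/

set_option autoImplicit false
set_option linter.style.haveILetI false

noncomputable section

namespace FLTAgent.Eisen

open Pointwise

variable {l : ℕ} {A : ValuationSubring QBar}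

theorem valuation_sub_le {x y : QBar} {g : A.ValueGroup} (hx : A.valuation x ≤ g)
    (hy : A.valuation y ≤ g) : A.valuation (x - y) ≤ g :=
  (A.valuation.map_sub _ _).trans (max_le hx hy)

/-- An element of finite order on `x` in an inertia group preserves its valuation. -/
theorem valuation_apply_inertia {σ : GQ} (hσ : σ ∈ A.inertiaSubgroupIn ℚ) {x : QBar} {n : ℕ}
    (hn : 0 < n) (hx : (σ ^ n) x = x) : A.valuation (σ x) = A.valuation x := by
  have hd := (Frobenius.mem_inertiaSubgroupIn_iff.1 hσ).1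
  have hmem : ∀ y, σ y ∈ A ↔ y ∈ A := by
    intro y
    rw [← AlgEquiv.smul_def]
    conv_lhs => rw [← (MulAction.mem_stabilizer_iff.1 hd)]
    exact ValuationSubring.smul_mem_pointwise_smul_iff
  rcases eq_or_ne x 0 with rfl | hx0
  · rw [map_zero]
  have h1 : ∀ a b : QBar, a ≠ 0 → (A.valuation b ≤ A.valuation a ↔ b / a ∈ A) := fun a b ha => by
    rw [← A.valuation_le_one_iff, map_div₀, div_le_one₀ (zero_lt_iff.2
      ((Valuation.ne_zero_iff _).2 ha))]
  have key : ∀ a b : QBar, a ≠ 0 → (A.valuation (σ b) ≤ A.valuation (σ a) ↔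
      A.valuation b ≤ A.valuation a) := fun a b ha => by
    rw [h1 _ _ ((map_ne_zero_iff _ σ.injective).2 ha), h1 _ _ ha, ← map_div₀, hmem]
  have hne : ∀ k, (σ ^ k) x ≠ 0 := fun k => (map_ne_zero_iff _ (σ ^ k).injective).2 hx0
  have hs : ∀ k, (σ ^ (k + 1)) x = σ ((σ ^ k) x) := fun k => by rw [pow_succ']; rfl
  have step : ∀ k, (A.valuation ((σ ^ (k + 1)) x) ≤ A.valuation ((σ ^ k) x) ↔
      A.valuation (σ x) ≤ A.valuation x) ∧
      (A.valuation ((σ ^ k) x) ≤ A.valuation ((σ ^ (k + 1)) x) ↔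
      A.valuation x ≤ A.valuation (σ x)) := by
    intro k
    induction k with
    | zero => exact ⟨Iff.rfl, Iff.rfl⟩
    | succ k ih =>
      rw [hs (k + 1), hs k]
      rw [hs k] at ih
      exact ⟨(key _ _ (hne k)).trans ih.1, (key _ _ (by rw [← hs]; exact hne _)).trans ih.2⟩
  by_contra hne'
  rcases lt_or_gt_of_ne hne' with h | h
  · have : StrictAnti fun k => A.valuation ((σ ^ k) x) :=
      strictAnti_nat_of_succ_lt fun k => not_le.1 fun h' => not_le.2 h ((step k).2.1 h')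
    exact (this hn).ne (by simp [hx])
  · have : StrictMono fun k => A.valuation ((σ ^ k) x) :=
      strictMono_nat_of_lt_succ fun k => not_le.1 fun h' => not_le.2 h ((step k).1.1 h')
    exact (this hn).ne (by simp [hx])

theorem valuation_sub_pow_lt (hl : l.Prime) (hodd : Odd l) (hA : A.LiesOverPrime l) {x y : QBar}
    (hx : x ∈ A) (hy : y ∈ A) (h : A.valuation (x ^ l - y ^ l) < 1) :
    A.valuation (x - y) < 1 := by
  obtain ⟨r, hr⟩ :=
    (Commute.all (⟨x, hx⟩ : A) (-⟨y, hy⟩)).exists_add_pow_prime_eq hl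
  have he := congrArg (fun t : A => (t : QBar)) hr
  simp only [hodd.neg_pow] at he
  push_cast at he
  rw [← sub_eq_add_neg, ← sub_eq_add_neg] at he
  have hlt : A.valuation ((x - y) ^ l) < 1 := by
    rw [he]
    refine A.valuation.map_add_lt h ?_
    rw [map_mul, map_mul, map_mul, Valuation.map_neg]
    refine lt_of_le_of_lt (mul_le_of_le_one_right' ((A.valuation_le_one_iff _).2 r.2)) ?_
    refine lt_of_le_of_lt (mul_le_of_le_one_right' ((A.valuation_le_one_iff _).2 hy)) ?_
    exact lt_of_le_of_lt (mul_le_of_le_one_right' ((A.valuation_le_one_iff _).2 hx))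
      (GalChar.valuation_natCast_lt_one hA)
  rw [map_pow] at hlt
  by_contra hge
  exact not_le.2 hlt (one_le_pow₀ (not_lt.1 hge))

theorem valuation_prod_sub_pow_lt {f : ℕ → QBar} {x : QBar} (hx : x ∈ A)
    (hf : ∀ j, f j ∈ A) (h : ∀ j, A.valuation (f j - x) < 1) (n : ℕ) :
    A.valuation (∏ j ∈ Finset.range n, f j - x ^ n) < 1 := by
  induction n with
  | zero => simp
  | succ n ih =>
    rw [Finset.prod_range_succ, pow_succ,
      show (∏ j ∈ Finset.range n, f j) * f n - x ^ n * x =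
        (∏ j ∈ Finset.range n, f j - x ^ n) * f n + x ^ n * (f n - x) by ring]
    refine A.valuation.map_add_lt ?_ ?_
    · rw [map_mul]
      exact lt_of_le_of_lt (mul_le_of_le_one_right' ((A.valuation_le_one_iff _).2 (hf n))) ih
    · rw [map_mul]
      exact lt_of_le_of_lt
        (mul_le_of_le_one_left' ((A.valuation_le_one_iff _).2 (pow_mem hx n))) (h n)

/-- A rational number integral at `A` is congruent to an integer. -/
theorem exists_int_congr (hl : l.Prime) (hA : A.LiesOverPrime l) {a : ℚ} (ha : (a : QBar) ∈ A) :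
    ∃ r : ℤ, A.valuation ((a : QBar) - r) < 1 := by
  have hd : ¬ l ∣ a.den := by
    rw [← eq_ratCast (algebraMap ℚ QBar)] at ha
    exact (GalChar.rat_mem_iff hA hl a).1 ha
  obtain ⟨u, v, huv⟩ : IsCoprime (l : ℤ) (a.den : ℤ) :=
    (Prime.coprime_iff_not_dvd (Nat.prime_iff_prime_int.1 hl)).2
      fun h => hd (Int.natCast_dvd_natCast.1 h)
  refine ⟨a.num * v, ?_⟩
  have hq : (a : QBar) * (a.den : QBar) = (a.num : QBar) := by
    exact_mod_cast congrArg (fun t : ℚ => (t : QBar)) a.mul_den_eq_num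
  have hone : (u : QBar) * l + v * (a.den : QBar) = 1 := by exact_mod_cast huv
  have key : (a : QBar) - ((a.num * v : ℤ) : QBar) = (a : QBar) * u * l := by
    push_cast
    linear_combination (-(a : QBar)) * hone + (v : QBar) * hq
  rw [key, map_mul]
  exact lt_of_le_of_lt (mul_le_of_le_one_left'
    ((A.valuation_le_one_iff _).2 (mul_mem ha (intCast_mem A u))))
    (GalChar.valuation_natCast_lt_one hA)

theorem intCast_pow_sub_lt (hl : l.Prime) (hA : A.LiesOverPrime l) (r : ℤ) :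
    A.valuation ((r : QBar) ^ l - r) < 1 := by
  haveI := Fact.mk hl
  rw [← Int.cast_pow, ← Int.cast_sub]
  refine GalChar.valuation_intCast_lt_one_of_dvd hA ?_
  rw [← ZMod.intCast_zmod_eq_zero_iff_dvd]
  push_cast
  rw [ZMod.pow_card, sub_self]

/-- A field cut out by a character: `F x` means that `x` lies in it; `σ` generates the Galois
group and lies in the inertia group at `A`. -/
structure CyclicData (A : ValuationSubring QBar) (l : ℕ) (σ : GQ) (F : QBar → Prop) : Prop where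
  prime : l.Prime
  odd : Odd l
  over : A.LiesOverPrime l
  inertia : σ ∈ A.inertiaSubgroupIn ℚ
  pow_fix : ∀ x, F x → (σ ^ l) x = x
  orbit : ∀ x, F x → ∀ τ : GQ, ∃ j < l, τ x = (σ ^ j) x
  apply_mem : ∀ x, F x → F (σ x)
  rat_mem : ∀ a : ℚ, F (a : QBar)
  mul_mem : ∀ x y, F x → F y → F (x * y)
  sub_mem : ∀ x y, F x → F y → F (x - y)
  inv_mem : ∀ x, F x → F x⁻¹
  stab : ∀ x, F x → σ x ≠ x → ∀ y, F y → ∀ τ : GQ, τ x = x → τ y = y

namespace CyclicData

variable {σ : GQ} {F : QBar → Prop} (h : CyclicData A l σ F)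
include h

theorem v_apply {x : QBar} (hx : F x) : A.valuation (σ x) = A.valuation x :=
  valuation_apply_inertia h.inertia h.prime.pos (h.pow_fix x hx)

theorem pow_mem {x : QBar} (hx : F x) : ∀ j : ℕ, F ((σ ^ j) x)
  | 0 => hx
  | j + 1 => by
    rw [pow_succ']
    exact h.apply_mem _ (pow_mem hx j)

theorem v_pow_apply {x : QBar} (hx : F x) (j : ℕ) : A.valuation ((σ ^ j) x) = A.valuation x := by
  induction j with
  | zero => rfl
  | succ j ih => rw [pow_succ']; exact (h.v_apply (h.pow_mem hx j)).trans ih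

theorem norm_rat {x : QBar} (hx : F x) :
    ∃ a : ℚ, ∏ j ∈ Finset.range l, (σ ^ j) x = (a : QBar) := by
  refine mem_range_rat fun τ => ?_
  rw [map_prod]
  have hshift : ∏ j ∈ Finset.range l, (σ ^ (j + 1)) x = ∏ j ∈ Finset.range l, (σ ^ j) x := by
    obtain ⟨m, rfl⟩ := Nat.exists_eq_add_of_le h.prime.one_le
    rw [add_comm 1 m, Finset.prod_range_succ, Finset.prod_range_succ' (fun j => (σ ^ j) x),
      show m + 1 = 1 + m by ring, h.pow_fix x hx]
    rfl
  have hcyc : ∀ i, ∏ j ∈ Finset.range l, (σ ^ (i + j)) x = ∏ j ∈ Finset.range l, (σ ^ j) x := by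
    intro i
    induction i with
    | zero => simp
    | succ i ih =>
      have e := congrArg (⇑(σ ^ i)) hshift
      rw [map_prod, map_prod] at e
      simp only [← AlgEquiv.mul_apply, ← pow_add] at e
      rw [← ih, ← e]
      exact Finset.prod_congr rfl fun j _ => by rw [add_right_comm, add_assoc]
  obtain ⟨i, -, hi⟩ := h.orbit x hx τ
  rw [← hcyc i]
  refine Finset.prod_congr rfl fun j _ => ?_
  obtain ⟨k, -, hk⟩ := h.orbit _ (h.pow_mem hx j) τ
  rcases eq_or_ne (σ x) x with hfix | hmove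
  · have : ∀ n : ℕ, (σ ^ n) x = x := by
      intro n
      induction n with
      | zero => rfl
      | succ n ih => rw [pow_succ, AlgEquiv.mul_apply, hfix, ih]
    rw [this, this, hi, this]
  · have hcomm := h.stab x hx hmove _ (h.pow_mem hx j) ((σ ^ i)⁻¹ * τ)
      (by rw [AlgEquiv.mul_apply, hi, ← AlgEquiv.mul_apply, inv_mul_cancel]; rfl)
    have := congrArg (⇑(σ ^ i)) hcomm
    rw [AlgEquiv.mul_apply, ← AlgEquiv.mul_apply (σ ^ i) (σ ^ i)⁻¹, mul_inv_cancel,
      AlgEquiv.one_apply, ← AlgEquiv.mul_apply (σ ^ i) (σ ^ j), ← pow_add] at this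
    exact this

theorem residue {z : QBar} (hz : F z) (hzA : z ∈ A) : ∃ r : ℤ, A.valuation (z - r) < 1 := by
  have hmem : ∀ j, (σ ^ j) z ∈ A := fun j => by
    rw [← A.valuation_le_one_iff, h.v_pow_apply hz]
    exact (A.valuation_le_one_iff _).2 hzA
  have hcong : ∀ j, A.valuation ((σ ^ j) z - z) < 1 := fun j =>
    (ValuationSubring.mem_nonunits_iff _).1
      ((Frobenius.mem_inertiaSubgroupIn_iff.1 (Subgroup.pow_mem _ h.inertia j)).2 z hzA)
  have h1 := valuation_prod_sub_pow_lt hzA hmem hcong l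
  obtain ⟨a, ha⟩ := h.norm_rat hz
  rw [ha] at h1
  have haA : (a : QBar) ∈ A := ha ▸ _root_.prod_mem fun j _ => hmem j
  obtain ⟨r, hr⟩ := exists_int_congr h.prime h.over haA
  refine ⟨r, valuation_sub_pow_lt h.prime h.odd h.over hzA (intCast_mem A r) ?_⟩
  have e : z ^ l - (r : QBar) ^ l =
      ((a : QBar) - r) - ((a : QBar) - z ^ l) - ((r : QBar) ^ l - r) := by ring
  rw [e]
  exact lt_of_le_of_lt (A.valuation.map_sub _ _) (max_lt
    (lt_of_le_of_lt (A.valuation.map_sub _ _) (max_lt hr h1))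
    (intCast_pow_sub_lt h.prime h.over r))

theorem int_mem (r : ℤ) : F (r : QBar) := by simpa using h.rat_mem r

theorem natPow_mem {x : QBar} (hx : F x) : ∀ n : ℕ, F (x ^ n)
  | 0 => by simpa using h.rat_mem 1
  | n + 1 => by rw [pow_succ]; exact h.mul_mem _ _ (natPow_mem hx n) hx

theorem zpow_mem' {x : QBar} (hx : F x) : ∀ n : ℤ, F (x ^ n)
  | Int.ofNat n => by rw [Int.ofNat_eq_natCast, zpow_natCast]; exact h.natPow_mem hx n
  | Int.negSucc n => by rw [zpow_negSucc]; exact h.inv_mem _ (h.natPow_mem hx _)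

theorem natCast_mem' (n : ℕ) : F (n : QBar) := by simpa using h.rat_mem n

/-- If all values are powers of that of `l`, then `σ` fixes `F` pointwise. -/
theorem fixed_of_values (hval : ∀ x, F x → x ≠ 0 →
      ∃ k : ℤ, A.valuation x = A.valuation (l : QBar) ^ k) {x : QBar} (hx : F x) : σ x = x := by
  have hl0 : A.valuation (l : QBar) ≠ 0 :=
    (Valuation.ne_zero_iff _).2 (Nat.cast_ne_zero.2 h.prime.ne_zero)
  have hl1 := GalChar.valuation_natCast_lt_one h.over
  have hint : ∀ z, F z → z ∈ A → σ z = z := by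
    intro z hz hzA
    have step : ∀ n : ℕ, ∃ r : ℤ, A.valuation (z - r) ≤ A.valuation (l : QBar) ^ n := by
      intro n
      induction n with
      | zero => exact ⟨0, by simpa using (A.valuation_le_one_iff _).2 hzA⟩
      | succ n ih =>
        obtain ⟨r, hr⟩ := ih
        set w := (z - r) * ((l : QBar) ^ n)⁻¹ with hw
        have hwF : F w := h.mul_mem _ _ (h.sub_mem _ _ hz (h.int_mem r))
          (h.inv_mem _ (h.natPow_mem (h.natCast_mem' l) n))
        have hwA : w ∈ A := by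
          rw [← A.valuation_le_one_iff, hw, map_mul, map_inv₀, map_pow,
            mul_inv_le_iff₀ (zero_lt_iff.2 (pow_ne_zero n hl0)), one_mul]
          exact hr
        obtain ⟨r', hr'⟩ := h.residue hwF hwA
        refine ⟨r + r' * (l : ℤ) ^ n, ?_⟩
        have e : z - ((r + r' * (l : ℤ) ^ n : ℤ) : QBar) = (l : QBar) ^ n * (w - r') := by
          rw [hw, mul_sub, ← mul_assoc, mul_comm ((l : QBar) ^ n) (z - r),
            mul_inv_cancel_right₀ (pow_ne_zero n (Nat.cast_ne_zero.2 h.prime.ne_zero))]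
          push_cast; ring
        rw [e, map_mul, map_pow, pow_succ]
        refine mul_le_mul_right ?_ _
        rcases eq_or_ne (w - r') 0 with h0 | h0
        · rw [h0, map_zero]; exact zero_le
        obtain ⟨k, hk⟩ := hval _ (h.sub_mem _ _ hwF (h.int_mem r')) h0
        rw [hk] at hr' ⊢
        rw [zpow_lt_one_iff_right_of_lt_one₀ (zero_lt_iff.2 hl0) hl1] at hr'
        refine le_of_le_of_eq (zpow_le_zpow_right_of_le_one₀ (zero_lt_iff.2 hl0) hl1.le hr') ?_
        exact zpow_one _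
    by_contra hne
    have hd : σ z - z ≠ 0 := sub_ne_zero.2 hne
    obtain ⟨k, hk⟩ := hval _ (h.sub_mem _ _ (h.apply_mem _ hz) hz) hd
    obtain ⟨r, hr⟩ := step (k.toNat + 1)
    have hle : A.valuation (σ z - z) ≤ A.valuation (l : QBar) ^ (k.toNat + 1) := by
      have e : σ z - z = σ (z - r) - (z - r) := by rw [map_sub, map_intCast]; ring
      rw [e]
      exact valuation_sub_le ((h.v_apply (h.sub_mem _ _ hz (h.int_mem r))).le.trans hr) hr
    rw [hk, ← zpow_natCast,
      zpow_le_zpow_iff_right_of_lt_one₀ (zero_lt_iff.2 hl0) hl1] at hle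
    omega
  rcases A.mem_or_inv_mem x with hxA | hxA
  · exact hint x hx hxA
  · exact inv_injective (by rw [← map_inv₀, hint _ (h.inv_mem _ hx) hxA])

/-- If `σ` moves `F`, it has a uniformiser. -/
theorem exists_root {x₀ : QBar} (hx₀ : F x₀) (hmove : σ x₀ ≠ x₀) :
    ∃ ϖ, F ϖ ∧ IsRootOfL A l ϖ := by
  haveI : Fact l.Prime := ⟨h.prime⟩
  obtain ⟨w, hwF, hw0, hw⟩ : ∃ w, F w ∧ w ≠ 0 ∧
      ∀ k : ℤ, A.valuation w ≠ A.valuation (l : QBar) ^ k := by
    by_contra! hall
    exact hmove (h.fixed_of_values hall hx₀)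
  obtain ⟨a, ha⟩ := h.norm_rat hwF
  have hva : A.valuation (a : QBar) = A.valuation w ^ l := by
    rw [← ha, map_prod, Finset.prod_congr rfl fun j _ => h.v_pow_apply hwF j,
      Finset.prod_const, Finset.card_range]
  have ha0 : a ≠ 0 := fun e => by
    rw [e, Rat.cast_zero, map_zero, eq_comm, pow_eq_zero_iff h.prime.ne_zero,
      Valuation.zero_iff] at hva
    exact hw0 hva
  rw [valuation_rat h.prime h.over ha0] at hva
  set k := padicValRat l a with hk
  have hkl : ¬ (l : ℤ) ∣ k := by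
    rintro ⟨m, hm⟩
    refine hw m ((pow_left_inj₀ zero_le zero_le h.prime.ne_zero).1 ?_)
    rw [← hva, hm, mul_comm, zpow_mul, zpow_natCast]
  obtain ⟨i, j, hij⟩ : IsCoprime k (l : ℤ) :=
    ((Prime.coprime_iff_not_dvd (Nat.prime_iff_prime_int.1 h.prime)).2 hkl).symm
  refine ⟨w ^ i * (l : QBar) ^ j, h.mul_mem _ _ (h.zpow_mem' hwF i)
    (h.zpow_mem' (h.natCast_mem' l) j), h.prime, h.over, ?_⟩
  have hl0 : A.valuation (l : QBar) ≠ 0 :=
    (Valuation.ne_zero_iff _).2 (Nat.cast_ne_zero.2 h.prime.ne_zero)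
  rw [map_mul, map_zpow₀, map_zpow₀, mul_pow, ← zpow_natCast (_ ^ i), ← zpow_natCast (_ ^ j),
    ← zpow_mul, ← zpow_mul, mul_comm i, zpow_mul, zpow_natCast, ← hva, ← zpow_mul,
    ← zpow_add₀ hl0]
  conv_rhs => rw [← zpow_one (A.valuation (l : QBar))]
  congr 1
  linarith

section Uniformiser

variable {ϖ : QBar} (hF : F ϖ) (hR : IsRootOfL A l ϖ)
include hF hR

theorem root_moved : σ ϖ ≠ ϖ := by
  intro e
  have hall : ∀ n : ℕ, (σ ^ n) ϖ = ϖ := by
    intro n
    induction n with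
    | zero => rfl
    | succ n ih => rw [pow_succ, AlgEquiv.mul_apply, e, ih]
  obtain ⟨a, ha⟩ := mem_range_rat (x := ϖ) fun τ => by
    obtain ⟨j, -, hj⟩ := h.orbit ϖ hF τ
    rw [hj, hall]
  have ha0 : a ≠ 0 := fun e' => hR.ne_zero (by rw [ha, e', Rat.cast_zero, map_zero])
  have hv : A.valuation ϖ = A.valuation (l : QBar) ^ padicValRat l a := by
    rw [ha, valuation_rat h.prime h.over ha0]
  have := congrArg (fun g => g ^ (l : ℤ)) hv
  simp only [← zpow_mul] at this
  rw [zpow_natCast, hR.eq] at this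
  have h1 : (1 : ℤ) = padicValRat l a * l := zpow_val_inj h.prime h.over (by rw [zpow_one]; exact this)
  exact h.prime.one_lt.ne'
    (by exact_mod_cast Int.eq_one_of_dvd_one (by positivity) ⟨_, h1.trans (mul_comm _ _)⟩)

theorem expansion {y : QBar} (hy : F y) :
    ∃ c : Fin l → ℚ, y = ∑ k, (c k : QBar) * ϖ ^ (k : ℕ) := by
  classical
  refine exists_expansion ((Finset.range l).image fun j => (σ ^ j) ϖ)
    (Finset.card_image_le.trans (Finset.card_range l).le) (fun τ => ?_)
    fun τ hτ => h.stab ϖ hF (h.root_moved hF hR) y hy τ hτ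
  obtain ⟨j, hj, e⟩ := h.orbit ϖ hF τ
  exact Finset.mem_image.2 ⟨j, Finset.mem_range.2 hj, e.symm⟩

theorem le_of_lt {y : QBar} (hy : F y) {n : ℤ} (hlt : A.valuation y < A.valuation ϖ ^ n) :
    A.valuation y ≤ A.valuation ϖ ^ (n + 1) := by
  rcases eq_or_ne y 0 with rfl | hy0
  · rw [map_zero]; exact zero_le
  obtain ⟨c, rfl⟩ := h.expansion hF hR hy
  obtain ⟨m, hm⟩ := hR.exists_zpow hy0
  rw [hm, zpow_lt_zpow_iff_right_of_lt_one₀ (zero_lt_iff.2 hR.ne_zero) hR.lt_one] at hlt
  rw [hm, zpow_le_zpow_iff_right_of_lt_one₀ (zero_lt_iff.2 hR.ne_zero) hR.lt_one]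
  omega

theorem sub_root_le : A.valuation (σ ϖ - ϖ) ≤ A.valuation ϖ ^ 2 := by
  have hϖ0 : ϖ ≠ 0 := fun e => hR.ne_zero (by rw [e, map_zero])
  have hη : F (σ ϖ / ϖ) := by
    rw [div_eq_mul_inv]; exact h.mul_mem _ _ (h.apply_mem _ hF) (h.inv_mem _ hF)
  have hv : A.valuation (σ ϖ / ϖ) = 1 := by
    rw [map_div₀, h.v_apply hF, div_self hR.ne_zero]
  have hηA : σ ϖ / ϖ ∈ A := (A.valuation_le_one_iff _).1 hv.le
  have hprod : ∏ j ∈ Finset.range l, (σ ^ j) (σ ϖ / ϖ) = 1 := by
    have : ∀ j, (σ ^ j) (σ ϖ / ϖ) = (σ ^ (j + 1)) ϖ / (σ ^ j) ϖ := fun j => by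
      rw [map_div₀, pow_succ, AlgEquiv.mul_apply]
    rw [Finset.prod_congr rfl fun j _ => this j]
    have tel : ∀ n, ∏ j ∈ Finset.range n, (σ ^ (j + 1)) ϖ / (σ ^ j) ϖ = (σ ^ n) ϖ / ϖ := by
      intro n
      induction n with
      | zero => simp [hϖ0]
      | succ n ih =>
        rw [Finset.prod_range_succ, ih]
        have hne := (map_ne_zero_iff _ (σ ^ n).injective).2 hϖ0
        rw [div_mul_div_comm, mul_comm ϖ, mul_div_mul_left _ _ hne]
    rw [tel, h.pow_fix _ hF, div_self hϖ0]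
  have h1 := valuation_prod_sub_pow_lt (A := A) (f := fun j => (σ ^ j) (σ ϖ / ϖ)) hηA
    (fun j => (A.valuation_le_one_iff _).1 (by rw [h.v_pow_apply hη, hv]))
    (fun j => (ValuationSubring.mem_nonunits_iff _).1
      ((Frobenius.mem_inertiaSubgroupIn_iff.1 (Subgroup.pow_mem _ h.inertia j)).2 _ hηA)) l
  rw [hprod, Valuation.map_sub_swap, ← one_pow l] at h1
  have h2 := valuation_sub_pow_lt h.prime h.odd h.over hηA (one_mem A) h1
  have hlt : A.valuation (σ ϖ - ϖ) < A.valuation ϖ ^ (1 : ℤ) := by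
    rw [show σ ϖ - ϖ = (σ ϖ / ϖ - 1) * ϖ by field_simp, map_mul, zpow_one]
    exact mul_lt_of_lt_one_left (zero_lt_iff.2 hR.ne_zero) h2
  have := h.le_of_lt hF hR (h.sub_mem _ _ (h.apply_mem _ hF) hF) hlt
  rw [show (1 : ℤ) + 1 = ((2 : ℕ) : ℤ) by norm_num, zpow_natCast] at this
  exact this

theorem sub_pow_le (j : ℕ) :
    A.valuation (σ (ϖ ^ (j + 1)) - ϖ ^ (j + 1)) ≤ A.valuation ϖ ^ (j + 2) := by
  rw [map_pow, ← geom_sum₂_mul, map_mul, show j + 2 = j + 2 from rfl, pow_add]
  refine mul_le_mul' (A.valuation.map_sum_le fun i hi => ?_) (h.sub_root_le hF hR)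
  rw [map_mul, map_pow, map_pow, h.v_apply hF, ← pow_add]
  refine le_of_eq (congrArg _ ?_)
  have := Finset.mem_range.1 hi
  omega

/-- `σ - 1` lowers the valuation. -/
theorem drop {y : QBar} (hy : F y) {n : ℕ} (hn : A.valuation y ≤ A.valuation ϖ ^ n) :
    A.valuation (σ y - y) ≤ A.valuation ϖ ^ (n + 1) := by
  obtain ⟨c, rfl⟩ := h.expansion hF hR hy
  rw [map_sum, ← Finset.sum_sub_distrib]
  refine A.valuation.map_sum_le fun k _ => ?_
  rw [map_mul σ, map_ratCast, ← mul_sub, map_mul]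
  rcases hk : (k : ℕ) with _ | j
  · simp
  refine (mul_le_mul_right (h.sub_pow_le hF hR j) _).trans ?_
  have := (hR.term_le c k).trans hn
  rw [map_mul, map_pow, hk] at this
  rw [show j + 2 = j + 1 + 1 from rfl, pow_succ _ (j + 1), pow_succ _ n, ← mul_assoc]
  exact mul_le_mul_left this _

theorem drop_two {y : QBar} (hy : F y) (hyA : y ∈ A) :
    A.valuation (σ y - y) ≤ A.valuation ϖ ^ 2 := by
  obtain ⟨r, hr⟩ := h.residue hy hyA
  have hz := h.sub_mem _ _ hy (h.int_mem r)
  have h1 : A.valuation (y - r) ≤ A.valuation ϖ ^ 1 := by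
    have := h.le_of_lt hF hR hz (n := 0) (by rwa [zpow_zero])
    rwa [zero_add, zpow_one, ← pow_one (A.valuation ϖ)] at this
  have := h.drop hF hR hz h1
  have e : σ (y - r) - (y - r) = σ y - y := by rw [map_sub, map_intCast]; ring
  rwa [e] at this

theorem iterate_drop {y : QBar} (hy : F y) (hyA : y ∈ A) (k : ℕ) :
    F ((fun x => σ x - x)^[k + 1] y) ∧
      A.valuation ((fun x => σ x - x)^[k + 1] y) ≤ A.valuation ϖ ^ (k + 2) := by
  induction k with
  | zero => exact ⟨h.sub_mem _ _ (h.apply_mem _ hy) hy, h.drop_two hF hR hy hyA⟩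
  | succ k ih =>
    rw [Function.iterate_succ_apply']
    exact ⟨h.sub_mem _ _ (h.apply_mem _ ih.1) ih.1, h.drop hF hR ih.1 ih.2⟩

end Uniformiser

end CyclicData

end FLTAgent.Eisen
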