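import Fermat.Agent.Eisen.ChiAction
import Fermat.Agent.Eisen.TrivField
import Fermat.Agent.Char.Unramified
import Mathlib.NumberTheory.NumberField.Basic
import Mathlib.FieldTheory.Normal.Closure
import Mathlib.RingTheory.DedekindDomain.Ideal.Lemmas
import Mathlib.RingTheory.Filtration
import Mathlib.RingTheory.IntegralDomain

/-!
Inertia at `q` acts through a cyclic group on a finite module when its image has order prime to
`q`.
-/

set_option autoImplicit false
set_option linter.style.haveILetI false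

noncomputable section

namespace FLTAgent.Eisen

open scoped NumberField

/-- A uniformiser of a number field at a place of the algebraic closure. -/
theorem exists_uniformiser (L : IntermediateField ℚ QBar) [FiniteDimensional ℚ L] {q : ℕ}
    (hq : q.Prime) {A : ValuationSubring QBar} (hA : A.LiesOverPrime q) :
    ∃ ϖ : QBar, ϖ ∈ L ∧ ϖ ≠ 0 ∧ A.valuation ϖ < 1 ∧
      ∀ x ∈ L, x ≠ 0 → ∃ k : ℤ, A.valuation x = A.valuation ϖ ^ k := by
  have : NumberField L := { to_finiteDimensional := inferInstance }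
  let ι : 𝓞 L →+* integralClosure ℤ QBar :=
    { toFun := fun x => ⟨((x : L) : QBar), (NumberField.RingOfIntegers.isIntegral_coe x).map
        (L.val.restrictScalars ℤ)⟩
      map_one' := rfl
      map_mul' := fun _ _ => rfl
      map_zero' := rfl
      map_add' := fun _ _ => rfl }
  let P : Ideal (𝓞 L) := (GalChar.centreIdeal A).comap ι
  have hP : P.IsPrime := Ideal.comap_isPrime _ _
  have hqP : (q : 𝓞 L) ∈ P := by
    rw [Ideal.mem_comap, map_natCast, GalChar.mem_centreIdeal]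
    exact (ValuationSubring.mem_nonunits_iff _).1 hA
  have hP0 : P ≠ ⊥ := fun h => by
    rw [h, Ideal.mem_bot] at hqP
    exact hq.ne_zero (Nat.cast_eq_zero.1 hqP)
  obtain ⟨π, hπ1, hπ2⟩ : ∃ π ∈ P, π ∉ P ^ 2 := by
    have := Ideal.pow_succ_lt_pow hP0 1
    rw [pow_one] at this
    exact SetLike.exists_of_lt this
  have hπ0 : π ≠ 0 := fun h => hπ2 (h ▸ (P ^ 2).zero_mem)
  obtain ⟨J, hJ⟩ : P ∣ Ideal.span {π} :=
    Ideal.dvd_iff_le.2 ((Ideal.span_singleton_le_iff_mem _).2 hπ1)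
  obtain ⟨s, hsJ, hs⟩ : ∃ s ∈ J, s ∉ P := by
    refine SetLike.not_le_iff_exists.1 fun hle => hπ2 ?_
    have h1 : π ∈ P * J := hJ ▸ Ideal.mem_span_singleton_self π
    rw [pow_two]
    exact Ideal.mul_mono_right hle h1
  let v : 𝓞 L → A.ValueGroup := fun z => A.valuation ((z : L) : QBar)
  have hv1 : ∀ z, z ∉ P → v z = 1 := fun z hz =>
    le_antisymm (GalChar.valuation_le_one_of_isIntegral A (ι z).2) (not_lt.1 hz)
  have hint : ∀ z : 𝓞 L, z ≠ 0 → ∃ k : ℕ, v z = v π ^ k := by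
    intro z hz
    classical
    have hex : ∃ k, z ∉ P ^ k := by
      by_contra! h
      refine hz ?_
      rw [← Ideal.mem_bot, ← Ideal.iInf_pow_eq_bot_of_isDomain P hP.ne_top, Ideal.mem_iInf]
      exact h
    obtain ⟨k, hk⟩ : ∃ k, Nat.find hex = k + 1 :=
      Nat.exists_eq_succ_of_ne_zero fun h => by
        have := Nat.find_spec hex
        rw [h, pow_zero, Ideal.one_eq_top] at this
        exact this trivial
    have hin : z ∈ P ^ k := not_not.1 (Nat.find_min hex (hk ▸ Nat.lt_succ_self k))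
    have hout : z ∉ P ^ (k + 1) := hk ▸ Nat.find_spec hex
    refine ⟨k, ?_⟩
    have h1 : z * s ^ k ∈ Ideal.span {π ^ k} := by
      rw [← Ideal.span_singleton_pow, hJ, mul_pow]
      exact Ideal.mul_mem_mul hin (Ideal.pow_mem_pow hsJ k)
    obtain ⟨y, hy⟩ := Ideal.mem_span_singleton'.1 h1
    have hyP : y ∉ P := fun hyP => hout <| by
      refine (Ideal.IsPrime.mul_mem_pow P (a := s ^ k) ?_).resolve_left
        fun h => hs (hP.mem_of_pow_mem k h)
      rw [mul_comm, ← hy, pow_succ']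
      exact Ideal.mul_mem_mul hyP (Ideal.pow_mem_pow hπ1 k)
    have e : A.valuation (((z * s ^ k : 𝓞 L) : L) : QBar) =
        A.valuation (((y * π ^ k : 𝓞 L) : L) : QBar) := by rw [hy]
    simp only [map_mul, map_pow, MulMemClass.coe_mul, SubmonoidClass.coe_pow] at e
    rw [show A.valuation ((s : L) : QBar) = 1 from hv1 s hs,
      show A.valuation ((y : L) : QBar) = 1 from hv1 y hyP, one_pow, mul_one, one_mul] at e
    exact e
  have hπQ : ((π : L) : QBar) ≠ 0 := fun h =>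
    hπ0 (Subtype.ext (Subtype.ext h))
  refine ⟨((π : L) : QBar), (π : L).2, hπQ, hπ1, fun x hx hx0 => ?_⟩
  obtain ⟨a, b, hb, hab⟩ := IsFractionRing.div_surjective (𝓞 L) (⟨x, hx⟩ : L)
  have hxe : x = ((a : L) : QBar) / ((b : L) : QBar) :=
    (congrArg (fun t : L => (t : QBar)) hab).symm
  have ha0 : a ≠ 0 := fun h => hx0 (by rw [hxe, h]; simp)
  obtain ⟨k, hk⟩ := hint a ha0
  obtain ⟨m, hm⟩ := hint b (nonZeroDivisors.ne_zero hb)
  refine ⟨(k : ℤ) - m, ?_⟩
  rw [hxe, map_div₀, zpow_sub₀ ((Valuation.ne_zero_iff _).2 hπQ), zpow_natCast, zpow_natCast]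
  exact congrArg₂ (· / ·) hk hm

variable {q : ℕ} {A : ValuationSubring QBar} {L : IntermediateField ℚ QBar}

theorem exists_pow_mem_fixingSubgroup [FiniteDimensional ℚ L] [Normal ℚ L] (σ : GQ) :
    ∃ n, 0 < n ∧ σ ^ n ∈ L.fixingSubgroup := by
  refine ⟨orderOf (AlgEquiv.restrictNormalHom L σ), orderOf_pos _, ?_⟩
  rw [IntermediateField.mem_fixingSubgroup_iff]
  intro x hx
  have h := AlgEquiv.restrictNormal_commutes (σ ^ orderOf (AlgEquiv.restrictNormalHom L σ)) L ⟨x, hx⟩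
  have h1 : (σ ^ orderOf (AlgEquiv.restrictNormalHom L σ)).restrictNormal L = 1 :=
    (map_pow (AlgEquiv.restrictNormalHom L) σ _).trans (pow_orderOf_eq_one _)
  rw [h1] at h
  exact h.symm

theorem inertia_v_apply [FiniteDimensional ℚ L] [Normal ℚ L] {σ : GQ}
    (hσ : σ ∈ A.inertiaSubgroupIn ℚ) {x : QBar} (hx : x ∈ L) :
    A.valuation (σ x) = A.valuation x := by
  obtain ⟨n, hn, hmem⟩ := exists_pow_mem_fixingSubgroup (L := L) σ
  exact valuation_apply_inertia hσ hn ((IntermediateField.mem_fixingSubgroup_iff _ _).1 hmem x hx)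

/-- Wild inertia moves everything less than its own size. -/
theorem wild_sub_lt {ϖ : QBar} (hϖ : ϖ ≠ 0)
    (hval : ∀ x ∈ L, x ≠ 0 → ∃ k : ℤ, A.valuation x = A.valuation ϖ ^ k) {σ : GQ}
    (hσ : σ ∈ A.inertiaSubgroupIn ℚ) (hw : A.valuation (σ ϖ / ϖ - 1) < 1) {x : QBar}
    (hx : x ∈ L) (hx0 : x ≠ 0) : A.valuation (σ x - x) < A.valuation x := by
  obtain ⟨k, hk⟩ := hval x hx hx0
  set η := σ ϖ / ϖ
  have hη : A.valuation η = 1 := by
    have h := A.valuation.map_add_eq_of_lt_right (x := η - 1) (y := 1) (by rwa [map_one])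
    rwa [sub_add_cancel, map_one] at h
  have hηA : η ∈ A := (A.valuation_le_one_iff _).1 hη.le
  set u := x / ϖ ^ k
  have hϖk : ϖ ^ k ≠ 0 := zpow_ne_zero k hϖ
  have hu : A.valuation u = 1 := by
    rw [map_div₀, map_zpow₀, hk, div_self (zpow_ne_zero k ((Valuation.ne_zero_iff _).2 hϖ))]
  have huA : u ∈ A := (A.valuation_le_one_iff _).1 hu.le
  have hsu : A.valuation (σ u - u) < 1 :=
    (ValuationSubring.mem_nonunits_iff _).1 ((Frobenius.mem_inertiaSubgroupIn_iff.1 hσ).2 u huA)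
  have hηk : A.valuation (η ^ k - 1) < 1 := by
    have hnat : ∀ n : ℕ, A.valuation (η ^ n - 1) < 1 := fun n => by
      rw [← geom_sum_mul, map_mul]
      exact lt_of_le_of_lt (mul_le_of_le_one_left'
        ((A.valuation_le_one_iff _).2 (sum_mem fun i _ => _root_.pow_mem hηA i))) hw
    rcases k with n | n
    · simpa using hnat n
    · have h1 := hnat (n + 1)
      have hη0 : η ≠ 0 := (Valuation.ne_zero_iff _).1 (by rw [hη]; exact one_ne_zero)
      rw [zpow_negSucc, show (η ^ (n + 1))⁻¹ - 1 = -(η ^ (n + 1) - 1) * (η ^ (n + 1))⁻¹ by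
        field_simp; ring, map_mul, Valuation.map_neg, map_inv₀, map_pow, hη, one_pow, inv_one,
        mul_one]
      exact h1
  have e : σ x - x = ϖ ^ k * (η ^ k * (σ u - u) + (η ^ k - 1) * u) := by
    have h1 : x = ϖ ^ k * u := (mul_div_cancel₀ x hϖk).symm
    have h2 : σ x = ϖ ^ k * η ^ k * σ u := by
      rw [h1, map_mul, map_zpow₀, ← mul_zpow, mul_div_cancel₀ _ hϖ]
    rw [h2]
    conv_lhs => rw [h1]
    ring
  rw [e, map_mul, map_zpow₀, hk]
  refine mul_lt_of_lt_one_right (zpow_pos (zero_lt_iff.2 ((Valuation.ne_zero_iff _).2 hϖ)) k) ?_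
  refine A.valuation.map_add_lt ?_ ?_
  · rw [map_mul, map_zpow₀, hη, one_zpow, one_mul]; exact hsu
  · rw [map_mul, hu, mul_one]; exact hηk

/-- A wild element of order prime to `q` is trivial. -/
theorem wild_eq_one [FiniteDimensional ℚ L] [Normal ℚ L] (hA : A.LiesOverPrime q) (hq : q.Prime)
    {ϖ : QBar} (hϖ : ϖ ≠ 0)
    (hval : ∀ x ∈ L, x ≠ 0 → ∃ k : ℤ, A.valuation x = A.valuation ϖ ^ k) {σ : GQ}
    (hσ : σ ∈ A.inertiaSubgroupIn ℚ) (hw : A.valuation (σ ϖ / ϖ - 1) < 1) {m : ℕ}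
    (hm : ¬ q ∣ m) (hfix : σ ^ m ∈ L.fixingSubgroup) {x : QBar} (hx : x ∈ L) : σ x = x := by
  by_contra hne
  set d := σ x - x
  have hd0 : d ≠ 0 := sub_ne_zero.2 hne
  have hLmem : ∀ j : ℕ, (σ ^ j) x ∈ L := fun j => GalChar.apply_mem_of_normal L _ hx
  have hdL : d ∈ L := sub_mem (GalChar.apply_mem_of_normal L σ hx) hx
  have key : ∀ n : ℕ, A.valuation ((σ ^ n) x - x - (n : QBar) * d) < A.valuation d := by
    intro n
    induction n with
    | zero =>
      rw [show (σ ^ 0) x = x from rfl]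
      simpa using zero_lt_iff.2 ((Valuation.ne_zero_iff _).2 hd0)
    | succ n ih =>
      set w := (σ ^ n) x - x - (n : QBar) * d
      have hwL : w ∈ L := sub_mem (sub_mem (hLmem n) hx) (mul_mem (natCast_mem L n) hdL)
      have e : (σ ^ (n + 1)) x - x - ((n + 1 : ℕ) : QBar) * d =
          σ w + (n : QBar) * (σ d - d) := by
        rw [pow_succ', AlgEquiv.mul_apply]
        simp only [w, d, map_sub, map_mul, map_natCast, Nat.cast_add, Nat.cast_one]
        ring
      rw [e]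
      refine A.valuation.map_add_lt ?_ ?_
      · rw [inertia_v_apply hσ hwL]; exact ih
      · rw [map_mul]
        exact lt_of_le_of_lt (mul_le_of_le_one_left'
          ((A.valuation_le_one_iff _).2 (natCast_mem A n))) (wild_sub_lt hϖ hval hσ hw hdL hd0)
  have h := key m
  rw [(IntermediateField.mem_fixingSubgroup_iff _ _).1 hfix x hx, sub_self, zero_sub,
    Valuation.map_neg, map_mul] at h
  have hm1 : A.valuation (m : QBar) = 1 := by
    have := GalChar.valuation_intCast_eq_one hA hq (n := (m : ℤ))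
      fun hd' => hm (Int.natCast_dvd_natCast.1 hd')
    rwa [Int.cast_natCast] at this
  rw [hm1, one_mul] at h
  exact lt_irrefl _ h

/-- Inertia acts through a cyclic group. -/
theorem exists_inertia_generator (hq : q.Prime) (hA : A.LiesOverPrime q)
    (L₀ : IntermediateField ℚ QBar) [FiniteDimensional ℚ L₀] {M : Type*} [AddCommGroup M]
    [DistribMulAction GQ M] (hL : ∀ σ ∈ L₀.fixingSubgroup, ∀ m : M, σ • m = m) {e : ℕ}
    (he : ¬ q ∣ e) (hexp : ∀ σ ∈ A.inertiaSubgroupIn ℚ, ∀ m : M, (σ ^ e) • m = m) :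
    ∃ τ ∈ A.inertiaSubgroupIn ℚ, ∀ m : M, τ • m = m →
      ∀ σ ∈ A.inertiaSubgroupIn ℚ, σ • m = m := by
  have : IsAlgClosure ℚ QBar := ⟨inferInstance, AlgebraicClosure.isAlgebraic ℚ⟩
  have : Normal ℚ QBar := IsAlgClosure.normal ℚ QBar
  let L : IntermediateField ℚ QBar := IntermediateField.normalClosure ℚ L₀ QBar
  have : Normal ℚ L := normalClosure.normal ℚ L₀ QBar
  have : FiniteDimensional ℚ L := normalClosure.is_finiteDimensional ℚ L₀ QBar
  have hLfix : ∀ σ ∈ L.fixingSubgroup, ∀ m : M, σ • m = m := fun σ hσ =>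
    hL σ (IntermediateField.fixingSubgroup_le L₀.le_normalClosure hσ)
  obtain ⟨ϖ, hϖL, hϖ, -, hval⟩ := exists_uniformiser L hq hA
  let I := A.inertiaSubgroupIn ℚ
  have hvη : ∀ σ ∈ I, A.valuation (σ ϖ / ϖ) = 1 := fun σ hσ => by
    rw [map_div₀, inertia_v_apply hσ hϖL, div_self ((Valuation.ne_zero_iff _).2 hϖ)]
  have hmemA : ∀ σ ∈ I, σ ϖ / ϖ ∈ A := fun σ hσ => (A.valuation_le_one_iff _).1 (hvη σ hσ).le
  let θ : I →* IsLocalRing.ResidueField A :=
    { toFun := fun σ => IsLocalRing.residue A ⟨σ.1 ϖ / ϖ, hmemA σ.1 σ.2⟩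
      map_one' := by
        rw [← map_one (IsLocalRing.residue A)]
        exact congrArg _ (Subtype.ext (by simp [div_self hϖ]))
      map_mul' := fun a b => by
        rw [← map_mul, ← sub_eq_zero, ← map_sub, IsLocalRing.residue_eq_zero_iff,
          ← ValuationSubring.coe_mem_nonunits_iff]
        have h1 := (Frobenius.mem_inertiaSubgroupIn_iff.1 a.2).2 _ (hmemA b.1 b.2)
        show (a.1 * b.1) ϖ / ϖ - (a.1 ϖ / ϖ) * (b.1 ϖ / ϖ) ∈ A.nonunits
        have hsplit : (a.1 * b.1) ϖ / ϖ - (a.1 ϖ / ϖ) * (b.1 ϖ / ϖ) =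
            (a.1 (b.1 ϖ / ϖ) - b.1 ϖ / ϖ) * (a.1 ϖ / ϖ) := by
          rw [AlgEquiv.mul_apply, map_div₀, sub_mul, div_mul_div_cancel₀
            ((map_ne_zero_iff _ a.1.injective).2 hϖ), mul_comm (b.1 ϖ / ϖ)]
        rw [hsplit, ValuationSubring.mem_nonunits_iff, map_mul, hvη a.1 a.2, mul_one]
        exact (ValuationSubring.mem_nonunits_iff _).1 h1 }
  let Θ : I →* (IsLocalRing.ResidueField A)ˣ := θ.toHomUnits
  have hker : ∀ σ : I, θ σ = 1 → ∀ m : M, (σ : GQ) • m = m := by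
    intro σ h1 m
    have hw : A.valuation (σ.1 ϖ / ϖ - 1) < 1 := by
      change IsLocalRing.residue A ⟨σ.1 ϖ / ϖ, hmemA σ.1 σ.2⟩ = 1 at h1
      rw [← map_one (IsLocalRing.residue A), ← sub_eq_zero, ← map_sub,
        IsLocalRing.residue_eq_zero_iff, ← ValuationSubring.coe_mem_nonunits_iff,
        ValuationSubring.mem_nonunits_iff] at h1
      exact h1
    obtain ⟨n, hn, hfix⟩ := exists_pow_mem_fixingSubgroup (L := L) (σ : GQ)
    obtain ⟨a, b, hb, rfl⟩ := Nat.exists_eq_pow_mul_and_not_dvd hn.ne' q hq.ne_one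
    have hwpow : A.valuation ((σ.1 ^ q ^ a) ϖ / ϖ - 1) < 1 := by
      have h2 : θ (σ ^ q ^ a) = 1 := by
        have h1' : θ σ = 1 := by
          change IsLocalRing.residue A ⟨σ.1 ϖ / ϖ, hmemA σ.1 σ.2⟩ = 1
          rw [← map_one (IsLocalRing.residue A), ← sub_eq_zero, ← map_sub,
            IsLocalRing.residue_eq_zero_iff, ← ValuationSubring.coe_mem_nonunits_iff,
            ValuationSubring.mem_nonunits_iff]
          exact hw
        rw [map_pow, h1', one_pow]
      change IsLocalRing.residue A ⟨(σ.1 ^ q ^ a) ϖ / ϖ, _⟩ = 1 at h2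
      rw [← map_one (IsLocalRing.residue A), ← sub_eq_zero, ← map_sub,
        IsLocalRing.residue_eq_zero_iff, ← ValuationSubring.coe_mem_nonunits_iff,
        ValuationSubring.mem_nonunits_iff] at h2
      exact h2
    have hL' : σ.1 ^ q ^ a ∈ L.fixingSubgroup := by
      rw [IntermediateField.mem_fixingSubgroup_iff]
      exact fun x hx => wild_eq_one hA hq hϖ hval (Subgroup.pow_mem _ σ.2 _) hwpow hb
        (by rwa [← pow_mul]) hx
    have hcop : (q ^ a).Coprime e := Nat.Coprime.pow_left _ ((hq.coprime_iff_not_dvd).2 he)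
    have hmem : (σ : GQ) ∈ MulAction.stabilizer GQ m := by
      obtain ⟨u, v, huv⟩ := Nat.isCoprime_iff_coprime.2 hcop
      have e1 : (σ : GQ) = (σ.1 ^ q ^ a) ^ u * (σ.1 ^ e) ^ v := by
        rw [← zpow_natCast, ← zpow_natCast σ.1 e, ← zpow_mul, ← zpow_mul, ← zpow_add,
          mul_comm _ u, mul_comm _ v, huv, zpow_one]
      rw [e1]
      exact mul_mem (Subgroup.zpow_mem _ (hLfix _ hL' m) u)
        (Subgroup.zpow_mem _ (hexp σ.1 σ.2 m) v)
    exact hmem
  have hfinrange : (Set.range Θ).Finite := by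
    let Φ : I → Gal(L/ℚ) := fun σ => AlgEquiv.restrictNormalHom L σ.1
    have hfac : ∀ σ σ' : I, Φ σ = Φ σ' → Θ σ = Θ σ' := by
      intro σ σ' h
      refine Units.ext ?_
      show θ σ = θ σ'
      have h1 := AlgEquiv.restrictNormal_commutes σ.1 L ⟨ϖ, hϖL⟩
      have h2 := AlgEquiv.restrictNormal_commutes σ'.1 L ⟨ϖ, hϖL⟩
      change σ.1.restrictNormal L = σ'.1.restrictNormal L at h
      rw [h] at h1
      exact congrArg (IsLocalRing.residue A) (Subtype.ext
        (congrArg (· / ϖ) (h1.symm.trans h2)))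
    refine (Set.finite_range fun g : Set.range Φ => Θ g.2.choose).subset ?_
    rintro _ ⟨σ, rfl⟩
    let w : Set.range Φ := ⟨Φ σ, σ, rfl⟩
    exact ⟨w, hfac _ _ w.2.choose_spec⟩
  haveI : Finite Θ.range := hfinrange.to_subtype
  haveI : IsCyclic Θ.range := isCyclic_of_injective_ringHom
    ((Units.coeHom _).comp Θ.range.subtype) (Units.val_injective.comp Subtype.val_injective)
  obtain ⟨g, hg⟩ := IsCyclic.exists_generator (α := Θ.range)
  obtain ⟨τ, hτ⟩ := g.2
  refine ⟨τ, τ.2, fun m hm σ hσ => ?_⟩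
  obtain ⟨k, hk⟩ := Subgroup.mem_zpowers_iff.1 (hg ⟨Θ ⟨σ, hσ⟩, ⟨⟨σ, hσ⟩, rfl⟩⟩)
  have h1 : θ ((τ ^ k)⁻¹ * ⟨σ, hσ⟩) = 1 := by
    have : Θ ((τ ^ k)⁻¹ * ⟨σ, hσ⟩) = 1 := by
      rw [map_mul, map_inv, map_zpow, hτ]
      have hk' : (g : (IsLocalRing.ResidueField A)ˣ) ^ k = Θ ⟨σ, hσ⟩ := congrArg Subtype.val hk
      rw [hk', inv_mul_cancel]
    exact congrArg Units.val this
  have h2 := hker _ h1 m
  have hk2 : ((τ ^ k : I) : GQ) ∈ MulAction.stabilizer GQ m := by
    rw [SubgroupClass.coe_zpow]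
    exact Subgroup.zpow_mem _ hm k
  calc σ • m = ((τ ^ k : I) : GQ) • ((((τ ^ k)⁻¹ * ⟨σ, hσ⟩ : I) : GQ) • m) := by
        rw [← mul_smul]
        simp
    _ = m := by rw [h2]; exact hk2

end FLTAgent.Eisen
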