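import Fermat.Agent.Eisen.NoClass
import Fermat.Agent.Eisen.Tame
import Fermat.Agent.Eisen.Count
import Mathlib.GroupTheory.Finiteness
import Mathlib.RingTheory.Nakayama
import Mathlib.RingTheory.Ideal.Maximal
import Mathlib.RingTheory.Noetherian.Basic

/-!
The Eisenstein descent: an element prime to the Eisenstein ideal sends every fixed point to a
torsion point.
-/

set_option autoImplicit false
set_option linter.style.haveILetI false
set_option linter.unusedSectionVars false

noncomputable section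

namespace FLTAgent.Eisen

variable (R J : Type*) [CommRing R] [AddCommGroup J] [Module R J] [DistribMulAction GQ J]
  [SMulCommClass GQ R J]

/-- The fixed points. -/
def fixedSub : Submodule R J where
  carrier := {y | ∀ σ : GQ, σ • y = y}
  add_mem' ha hb σ := by rw [smul_add, ha σ, hb σ]
  zero_mem' σ := smul_zero σ
  smul_mem' r y hy σ := by rw [smul_comm σ r y, hy σ]

/-- The `l ^ r`-torsion. -/
def torL (l r : ℕ) : Submodule R J where
  carrier := {x | l ^ r • x = 0}
  add_mem' ha hb := by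
    simp only [Set.mem_setOf_eq, smul_add] at ha hb ⊢
    rw [ha, hb, add_zero]
  zero_mem' := smul_zero _
  smul_mem' s x hx := by
    simp only [Set.mem_setOf_eq] at hx ⊢
    rw [smul_comm, hx, smul_zero]

variable {R J}

theorem smul_nsmul_comm (σ : GQ) (n : ℕ) (x : J) : σ • (n • x) = n • (σ • x) :=
  map_nsmul (DistribSMul.toAddMonoidHom J σ) n x

theorem torL_stable (l r : ℕ) (σ : GQ) : ∀ x ∈ torL R J l r, σ • x ∈ torL R J l r := by
  intro x hx
  show l ^ r • σ • x = 0
  rw [← smul_nsmul_comm, show l ^ r • x = 0 from hx, smul_zero]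

/-- The `P ^ n`-killed part of the `l ^ r`-torsion. -/
def primPart (P : Ideal R) (l r n : ℕ) : Submodule R J where
  carrier := {x | l ^ r • x = 0 ∧ ∀ p ∈ P ^ n, p • x = 0}
  add_mem' ha hb := ⟨by rw [smul_add, ha.1, hb.1, add_zero],
    fun p hp => by rw [smul_add, ha.2 p hp, hb.2 p hp, add_zero]⟩
  zero_mem' := ⟨smul_zero _, fun p _ => smul_zero p⟩
  smul_mem' s x hx := ⟨by rw [smul_comm, hx.1, smul_zero],
    fun p hp => by rw [smul_comm, hx.2 p hp, smul_zero]⟩

theorem primPart_stable (P : Ideal R) (l r n : ℕ) (σ : GQ) :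
    ∀ x ∈ primPart (J := J) P l r n, σ • x ∈ primPart (J := J) P l r n := fun x hx =>
  ⟨torL_stable (R := R) l r σ x hx.1, fun p hp => by rw [← smul_comm σ p x, hx.2 p hp, smul_zero]⟩

/-- The inputs of the descent. -/
structure DescentData (l N : ℕ) (P : Ideal R) (κ : GQ) (A₀ : ValuationSubring QBar) : Prop where
  primeN : N.Prime
  ne : N ≠ l
  maximal : P.IsMaximal
  mem : (l : R) ∈ P
  residue : ∀ r : R, ∃ z : ℤ, r - z ∈ P
  kappa : ∀ (x : QBar) (n : ℕ), 0 < n → x ^ n = 1 → κ x = x⁻¹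
  kappaInv : κ * κ = 1
  overN : A₀.LiesOverPrime N
  fg : (fixedSub R J).toAddSubgroup.FG
  finTor : ∀ r, {x : J | l ^ r • x = 0}.Finite
  openStab : ∀ x : J, ∃ L : IntermediateField ℚ QBar, FiniteDimensional ℚ L ∧
    ∀ σ ∈ L.fixingSubgroup, σ • x = x
  frob : ∃ (S : Finset ℕ) (T : ℕ → R),
    (∀ q : ℕ, q.Prime → q ∉ S → T q - 1 - (q : R) ∈ P) ∧
    ∀ q : ℕ, q.Prime → q ∉ S → ∀ A : ValuationSubring QBar, A.LiesOverPrime q →
      ∀ φ : GQ, A.IsFrobeniusAt φ q → ∀ (r : ℕ) (x : J), l ^ r • x = 0 →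
        φ • φ • x - T q • φ • x + q • x = 0
  unr : ∀ q : ℕ, q.Prime → q ≠ l → q ≠ N → ∀ A : ValuationSubring QBar, A.LiesOverPrime q →
    ∀ σ ∈ A.inertiaSubgroupIn ℚ, ∀ (r : ℕ) (x : J), (∀ τ : GQ, τ • l ^ r • x = l ^ r • x) →
      σ • x = x
  unip : ∀ σ ∈ A₀.inertiaSubgroupIn ℚ, ∀ (r : ℕ) (x : J),
    (∀ τ : GQ, τ • l ^ r • x = l ^ r • x) → σ • (σ • x - x) = σ • x - x
  divisible : ∀ x : J, ∃ y : J, l • y = x
  conj : ∃ C : ℕ, ∀ r n : ℕ,
    Nat.card {m : primPart (J := J) P l r n // (m : J) + κ • (m : J) = 0} ^ 2 ≤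
      C * Nat.card (primPart (J := J) P l r n)
  flat : ∀ (r : ℕ) (x : J) (hx : ∀ σ : GQ, σ • x - x ∈ torL R J l r),
    letI := subAction (torL R J l r) (torL_stable l r)
    IsFlatTorsor l fun σ => (⟨σ • x - x, hx σ⟩ : torL R J l r)

theorem exists_level {ι : Type*} [Finite ι] (x : ι → J)
    (h : ∀ x : J, ∃ L : IntermediateField ℚ QBar, FiniteDimensional ℚ L ∧
      ∀ σ ∈ L.fixingSubgroup, σ • x = x) :
    ∃ L : IntermediateField ℚ QBar, FiniteDimensional ℚ L ∧
      ∀ σ ∈ L.fixingSubgroup, ∀ i, σ • x i = x i := by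
  choose L hL hfix using fun i => h (x i)
  haveI := fun i => hL i
  exact ⟨⨆ i, L i, IntermediateField.finiteDimensional_iSup_of_finite,
    fun σ hσ i => hfix i σ (IntermediateField.fixingSubgroup_le (le_iSup L i) hσ)⟩

theorem unip_pow {σ : GQ} {x : J} {e : ℕ} (he : e • (σ • x - x) = 0)
    (h : σ • (σ • x - x) = σ • x - x) : (σ ^ e) • x = x := by
  have key : ∀ k : ℕ, (σ ^ k) • x = x + k • (σ • x - x) := by
    intro k
    induction k with
    | zero => simp
    | succ k ih =>
      rw [pow_succ', mul_smul, ih, smul_add, smul_nsmul_comm, h, succ_nsmul]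
      abel
  rw [key, he, add_zero]

namespace DescentData

variable {l N : ℕ} [Fact l.Prime] {P : Ideal R} {κ : GQ} {A₀ : ValuationSubring QBar}
  (D : DescentData (J := J) l N P κ A₀)
include D

theorem finite_primPart (r n : ℕ) : Finite (primPart (J := J) P l r n) :=
  Set.finite_coe_iff.2 ((D.finTor r).subset fun _ h => h.1)

/-- A point killed into the fixed points, unramified at `A₀` and fixed by `κ`, is fixed. -/
theorem fixed_of_kappa (hd : GalRep.FrobeniusDense) {r n : ℕ} {x : J}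
    (hxΛ : ∀ τ : GQ, τ • l ^ r • x = l ^ r • x)
    (hxM : ∀ σ : GQ, σ • x - x ∈ primPart (J := J) P l r n)
    (hxI : ∀ σ ∈ A₀.inertiaSubgroupIn ℚ, σ • x = x) (hxκ : κ • x = x) (σ : GQ) : σ • x = x := by
  have hl : l.Prime := Fact.out
  haveI : NeZero l := ⟨hl.ne_zero⟩
  haveI : NeZero (l : QBar) := ⟨Nat.cast_ne_zero.2 hl.ne_zero⟩
  haveI := D.finite_primPart r n
  obtain ⟨ζ, hζ⟩ := HasEnoughRootsOfUnity.prim (M := QBar) (n := l)
  obtain ⟨S, T, hT, hfrob⟩ := D.frob
  obtain ⟨L, hLfin, hL⟩ := exists_level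
    (fun i : Option (primPart (J := J) P l r n) => i.elim x fun m => (m : J)) D.openStab
  letI := subAction (primPart (J := J) P l r n) (primPart_stable P l r n)
  haveI : SMulCommClass GQ R (primPart (J := J) P l r n) :=
    ⟨fun g s m => Subtype.ext (smul_comm g s (m : J))⟩
  have key := cocycle_eq_zero P hζ hd D.kappa D.mem D.residue S T hT (n := n) L
    (M := primPart (J := J) P l r n) (fun p hp m => Subtype.ext (m.2.2 p hp))
    (fun τ hτ m => Subtype.ext (hL τ hτ (some m)))
    (fun q hq hqS A hA φ hφ m => Subtype.ext (hfrob q hq hqS A hA φ hφ r m m.2.1))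
    (c := fun σ => ⟨σ • x - x, hxM σ⟩)
    (fun a b => Subtype.ext (by
      show (a * b) • x - x = (a • x - x) + a • (b • x - x)
      rw [smul_sub, mul_smul]; abel))
    (by
      letI := subAction (torL R J l r) (torL_stable l r)
      have hle : primPart (J := J) P l r n ≤ torL R J l r := fun m hm => hm.1
      exact (D.flat r x fun σ => (hxM σ).1).pull (Submodule.inclusion hle).toAddMonoidHom
        (Submodule.inclusion_injective hle) (fun _ _ => rfl) fun _ => rfl)
    (fun q hq hql => by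
      rcases eq_or_ne q N with rfl | hqN
      · exact ⟨A₀, D.overN, fun τ hτ => Subtype.ext (sub_eq_zero.2 (hxI τ hτ))⟩
      · obtain ⟨A, hA⟩ := GalChar.exists_valuationSubring_liesOverPrime hq
        exact ⟨A, hA, fun τ hτ => Subtype.ext (sub_eq_zero.2 (D.unr q hq hql hqN A hA τ hτ r x hxΛ))⟩)
    (Subtype.ext (sub_eq_zero.2 hxκ)) (fun τ hτ => Subtype.ext (sub_eq_zero.2 (hL τ hτ none))) σ
  exact sub_eq_zero.1 (congrArg Subtype.val key)

theorem exists_bound (hd : GalRep.FrobeniusDense) :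
    ∃ K : ℕ, ∀ (r n : ℕ) (x : J), (∀ τ : GQ, τ • l ^ r • x = l ^ r • x) →
      (∀ σ : GQ, σ • x - x ∈ primPart (J := J) P l r n) →
      ∃ w ∈ fixedSub R J, l ^ K • l ^ r • x = l ^ r • w := by
  classical
  have hl : l.Prime := Fact.out
  let Λ := (fixedSub R J).toAddSubgroup
  haveI : AddGroup.FG Λ := (AddGroup.fg_iff_addSubgroup_fg Λ).2 D.fg
  haveI : Module.Finite ℤ Λ := Module.Finite.iff_addGroup_fg.2 inferInstance
  haveI : IsNoetherian ℤ Λ := isNoetherian_of_isNoetherianRing_of_finite ℤ Λ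
  haveI : AddGroup.FG (AddCommGroup.torsion Λ) := by
    exact Module.Finite.iff_addGroup_fg.1
      (Module.Finite.of_injective (AddCommGroup.torsion Λ).subtype.toIntLinearMap
        Subtype.val_injective)
  haveI : Finite (AddCommGroup.torsion Λ) :=
    AddCommGroup.finite_of_fg_torsion _ AddCommMonoid.addTorsion.isTorsion
  obtain ⟨C, hC⟩ := D.conj
  set T := Nat.card (AddCommGroup.torsion Λ) with hT
  refine ⟨C * T ^ 2, fun r n x₀ hΛ₀ hM₀ => ?_⟩
  haveI := D.finite_primPart r n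
  let X : AddSubgroup J :=
    { carrier := {x | (∀ τ : GQ, τ • l ^ r • x = l ^ r • x) ∧
        ∀ σ : GQ, σ • x - x ∈ primPart (J := J) P l r n}
      add_mem' := fun {a b} ha hb => ⟨fun τ => by rw [smul_add, smul_add, ha.1, hb.1],
        fun σ => by
          rw [smul_add, add_sub_add_comm]; exact add_mem (ha.2 σ) (hb.2 σ)⟩
      zero_mem' := ⟨fun τ => by rw [smul_zero, smul_zero], fun σ => by
        rw [smul_zero, sub_zero]; exact zero_mem _⟩
      neg_mem' := fun {a} ha => ⟨fun τ => by rw [smul_neg, smul_neg, ha.1],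
        fun σ => by rw [smul_neg, neg_sub_neg, ← neg_sub]; exact neg_mem (ha.2 σ)⟩ }
  have hXsmul : ∀ (σ : GQ), ∀ x ∈ X, σ • x ∈ X := fun σ x hx =>
    ⟨fun τ => by rw [← smul_nsmul_comm, hx.1 σ, hx.1 τ], fun τ => by
      rw [← sub_sub_sub_cancel_right (τ • σ • x) (σ • x) x, ← mul_smul]
      exact sub_mem (hx.2 _) (hx.2 _)⟩
  letI : DistribMulAction GQ X :=
    { smul := fun σ x => ⟨σ • (x : J), hXsmul σ x x.2⟩
      one_smul := fun x => Subtype.ext (one_smul GQ (x : J))
      mul_smul := fun σ τ x => Subtype.ext (mul_smul σ τ (x : J))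
      smul_zero := fun σ => Subtype.ext (smul_zero σ)
      smul_add := fun σ x y => Subtype.ext (smul_add σ (x : J) (y : J)) }
  -- `X` is finitely generated, so inertia acts on it through a cyclic group
  let f : X →+ Λ := AddMonoidHom.mk' (fun x => ⟨l ^ r • (x : J), x.2.1⟩)
    fun a b => Subtype.ext (smul_add (l ^ r) (a : J) (b : J))
  have hfin : ((f.toIntLinearMap.ker : Submodule ℤ X) : Set X).Finite := by
    refine Set.Finite.of_finite_image (f := fun x : X => (x : J))
      ((D.finTor r).subset ?_) Subtype.val_injective.injOn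
    rintro _ ⟨x, hx, rfl⟩
    exact congrArg Subtype.val (LinearMap.mem_ker.1 hx)
  have hXfg : (⊤ : Submodule ℤ X).FG := Submodule.fg_of_fg_map_of_fg_inf_ker f.toIntLinearMap
    (IsNoetherian.noetherian _) (by
      rw [top_inf_eq]; exact ⟨hfin.toFinset, by rw [Set.Finite.coe_toFinset, Submodule.span_eq]⟩)
  obtain ⟨gen, hgen⟩ := hXfg
  obtain ⟨L, hLfin, hL⟩ := exists_level (fun g : gen => ((g : X) : J)) D.openStab
  have hLX : ∀ σ ∈ L.fixingSubgroup, ∀ x : X, σ • x = x := fun σ hσ x => by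
    induction (show x ∈ Submodule.span ℤ (gen : Set X) from hgen ▸ Submodule.mem_top) using
      Submodule.span_induction with
    | mem y hy => exact Subtype.ext (hL σ hσ ⟨y, hy⟩)
    | zero => exact smul_zero σ
    | add a b _ _ ha hb => rw [smul_add, ha, hb]
    | smul z a _ ha => exact (smul_zsmul_comm σ z a).trans (by rw [ha])
  obtain ⟨τ, hτ, hτgen⟩ := exists_inertia_generator (M := X) D.primeN D.overN L hLX (e := l ^ r)
    (fun h => D.ne ((Nat.prime_dvd_prime_iff_eq D.primeN hl).1 (D.primeN.dvd_of_dvd_pow h)))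
    fun σ hσ x => Subtype.ext (unip_pow (x.2.2 σ).1 (D.unip σ hσ r x x.2.1))
  have hMX : ∀ m ∈ primPart (J := J) P l r n, m ∈ X := fun m hm =>
    ⟨fun τ' => by rw [hm.1, smul_zero], fun σ => sub_mem (primPart_stable P l r n σ _ hm) hm⟩
  -- the part of the module fixed by inertia
  let MI : AddSubgroup (primPart (J := J) P l r n) :=
    { carrier := {m | ∀ σ ∈ A₀.inertiaSubgroupIn ℚ, σ • (m : J) = m}
      add_mem' := fun {a b} ha hb σ hσ => by
        rw [Submodule.coe_add, smul_add, ha σ hσ, hb σ hσ]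
      zero_mem' := fun σ _ => smul_zero σ
      neg_mem' := fun {a} ha σ hσ => by rw [Submodule.coe_neg, smul_neg, ha σ hσ] }
  let Minus := {m : primPart (J := J) P l r n // (m : J) + κ • (m : J) = 0}
  have hminus : ∀ x : J, κ • x - x + κ • (κ • x - x) = 0 := fun x => by
    rw [smul_sub, ← mul_smul, D.kappaInv, one_smul]; abel
  let φ : X →+ primPart (J := J) P l r n × primPart (J := J) P l r n :=
    AddMonoidHom.mk' (fun x => (⟨κ • (x : J) - x, x.2.2 κ⟩, ⟨τ • (x : J) - x, x.2.2 τ⟩))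
      fun a b => Prod.ext
        (Subtype.ext (by
          show κ • ((a : J) + b) - (a + b) = (κ • (a : J) - a) + (κ • (b : J) - b)
          rw [smul_add, add_sub_add_comm]))
        (Subtype.ext (by
          show τ • ((a : J) + b) - (a + b) = (τ • (a : J) - a) + (τ • (b : J) - b)
          rw [smul_add, add_sub_add_comm]))
  let LΛ : AddSubgroup J := Λ.map (nsmulAddMonoidHom (l ^ r))
  let ψ : X →+ J ⧸ LΛ :=
    (QuotientAddGroup.mk' LΛ).comp ((nsmulAddMonoidHom (l ^ r)).comp X.subtype)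
  have hkerfix : ∀ x : X, φ x = 0 → ∀ σ : GQ, σ • (x : J) = x := by
    intro x hx σ
    have hτx : τ • x = x :=
      Subtype.ext (sub_eq_zero.1 (congrArg Subtype.val (congrArg Prod.snd hx)))
    exact D.fixed_of_kappa hd x.2.1 x.2.2
      (fun σ' hσ' => congrArg Subtype.val (hτgen x hτx σ' hσ'))
      (sub_eq_zero.1 (congrArg Subtype.val (congrArg Prod.fst hx))) σ
  have hker : φ.ker ≤ ψ.ker := fun x hx =>
    (QuotientAddGroup.eq_zero_iff _).2 ⟨x, hkerfix x hx, rfl⟩
  let MX : AddSubgroup X := (primPart (J := J) P l r n).toAddSubgroup.comap X.subtype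
  haveI : Finite MX := Finite.of_injective
    (fun x : MX => (⟨((x : X) : J), x.2⟩ : primPart (J := J) P l r n))
    fun a b h => Subtype.ext (Subtype.ext
      (congrArg (fun t : primPart (J := J) P l r n => (t : J)) h))
  haveI : Finite φ.range := inferInstance
  have hMXker : MX ≤ ψ.ker := fun x hx => (QuotientAddGroup.eq_zero_iff _).2
    ⟨0, Λ.zero_mem, by rw [map_zero]; exact hx.1.symm⟩
  obtain ⟨hfinψ, hcount⟩ := card_range_le φ ψ MX hker hMXker
  have hMXcard : Nat.card (primPart (J := J) P l r n) ≤ Nat.card MX :=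
    Nat.card_le_card_of_injective
      (fun m : primPart (J := J) P l r n => (⟨⟨m, hMX m m.2⟩, m.2⟩ : MX))
      fun a b h => Subtype.ext (congrArg (fun t : MX => ((t : X) : J)) h)
  -- torsion
  have hinf : Nat.card (φ.ker ⊓ MX : AddSubgroup X) ≤ T := by
    refine Nat.card_le_card_of_injective (fun y : (φ.ker ⊓ MX : AddSubgroup X) =>
      (⟨⟨((y : X) : J), hkerfix (y : X) y.2.1⟩, ?_⟩ : AddCommGroup.torsion Λ))
      fun a b h => Subtype.ext (Subtype.ext (congrArg (fun t : AddCommGroup.torsion Λ =>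
        ((t : Λ) : J)) h))
    exact isOfFinAddOrder_iff_nsmul_eq_zero.2
      ⟨l ^ r, pow_pos hl.pos r, Subtype.ext y.2.2.1⟩
  -- conjugation bounds the inertia-fixed part
  have hMI : Nat.card MI ≤ T * Nat.card Minus := by
    let g : MI →+ primPart (J := J) P l r n := AddMonoidHom.mk'
      (fun m => ⟨κ • (m.1 : J) - m.1, (hMX _ m.1.2).2 κ⟩) fun a b => Subtype.ext (by
        show κ • ((a.1 : J) + b.1) - (a.1 + b.1) = (κ • (a.1 : J) - a.1) + (κ • (b.1 : J) - b.1)
        rw [smul_add, add_sub_add_comm])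
    rw [← AddSubgroup.card_mul_index g.ker, AddSubgroup.index_ker]
    refine Nat.mul_le_mul ?_ (Nat.card_le_card_of_injective (fun y : g.range =>
      (⟨y.1, by obtain ⟨m, hm⟩ := y.2; rw [← hm]; exact hminus _⟩ : Minus))
      fun a b h => Subtype.ext (congrArg (fun t : Minus => t.1) h))
    refine Nat.card_le_card_of_injective (fun y : g.ker =>
      (⟨⟨((y : MI) : primPart (J := J) P l r n), fun σ => D.fixed_of_kappa hd
        (hMX _ y.1.1.2).1 (hMX _ y.1.1.2).2 y.1.2
        (sub_eq_zero.1 (congrArg Subtype.val (AddMonoidHom.mem_ker.1 y.2))) σ⟩, ?_⟩ :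
          AddCommGroup.torsion Λ))
      fun a b h => Subtype.ext (Subtype.ext (Subtype.ext
        (congrArg (fun t : AddCommGroup.torsion Λ => ((t : Λ) : J)) h)))
    exact isOfFinAddOrder_iff_nsmul_eq_zero.2
      ⟨l ^ r, pow_pos hl.pos r, Subtype.ext y.1.1.2.1⟩
  -- the range of `φ`
  have hrange : Nat.card φ.range ≤ Nat.card Minus * Nat.card MI := by
    rw [← Nat.card_prod]
    refine Nat.card_le_card_of_injective (fun y : φ.range =>
      ((⟨y.1.1, ?_⟩ : Minus), (⟨y.1.2, ?_⟩ : MI))) fun a b h => Subtype.ext (Prod.ext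
        (congrArg (fun t : Minus × MI => t.1.1) h) (congrArg (fun t : Minus × MI => t.2.1) h))
    · obtain ⟨x, hx⟩ := y.2
      rw [← hx]
      exact hminus _
    · obtain ⟨x, hx⟩ := y.2
      rw [← hx]
      intro σ hσ
      exact congrArg Subtype.val (hτgen ⟨τ • (x : J) - x, hMX _ (x.2.2 τ)⟩
        (Subtype.ext (D.unip τ hτ r x x.2.1)) σ hσ)
  have hbound : Nat.card ψ.range ≤ C * T ^ 2 := by
    refine Nat.le_of_mul_le_mul_right ?_
      (Nat.card_pos (α := primPart (J := J) P l r n))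
    calc Nat.card ψ.range * Nat.card (primPart (J := J) P l r n)
        ≤ Nat.card φ.range * T := (Nat.mul_le_mul_left _ hMXcard).trans
          (hcount.trans (Nat.mul_le_mul_left _ hinf))
      _ ≤ Nat.card Minus * (T * Nat.card Minus) * T :=
          Nat.mul_le_mul_right _ (hrange.trans (Nat.mul_le_mul_left _ hMI))
      _ = T ^ 2 * Nat.card Minus ^ 2 := by ring
      _ ≤ T ^ 2 * (C * Nat.card (primPart (J := J) P l r n)) := Nat.mul_le_mul_left _ (hC r n)
      _ = _ := by ring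
  let x : X := ⟨x₀, hΛ₀, hM₀⟩
  let z : ψ.range := ⟨ψ x, x, rfl⟩
  have hz : l ^ r • z = 0 := Subtype.ext <| by
    show l ^ r • ψ x = 0
    rw [← map_nsmul]
    exact (QuotientAddGroup.eq_zero_iff _).2 ⟨l ^ r • x₀, hΛ₀, rfl⟩
  have h := congrArg Subtype.val
    (pow_smul_eq_zero_of_addOrder_le hl hz ((addOrderOf_le_card (x := z)).trans hbound))
  change l ^ _ • ψ x = 0 at h
  rw [← map_nsmul] at h
  obtain ⟨w, hw, hwe⟩ := (QuotientAddGroup.eq_zero_iff _).1 h
  refine ⟨w, hw, ?_⟩
  rw [smul_comm]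
  exact hwe.symm

/-- The descent. -/
theorem exists_torsion (hd : GalRep.FrobeniusDense) :
    ∃ s : R, s ∉ P ∧ ∀ y ∈ fixedSub R J, ∃ m : ℕ, m ≠ 0 ∧ m • s • y = 0 := by
  have hl : l.Prime := Fact.out
  haveI := D.maximal
  obtain ⟨K, hK⟩ := D.exists_bound hd
  have hroot : ∀ (i : ℕ) (y : J), ∃ x, l ^ i • x = y := by
    intro i
    induction i with
    | zero => exact fun y => ⟨y, by rw [pow_zero, one_smul]⟩
    | succ i ih =>
      intro y
      obtain ⟨a, ha⟩ := ih y
      obtain ⟨b, hb⟩ := D.divisible a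
      exact ⟨b, by rw [pow_succ, mul_smul, hb, ha]⟩
  -- projection to the `P`-part at level `r`
  set r := K + 1 with hr
  haveI : Finite (torL R J l r) := Set.finite_coe_iff.2 (D.finTor r)
  obtain ⟨i, j, hne, hij⟩ := Finite.exists_ne_map_eq_of_infinite
    fun n : ℕ => (P ^ n • (⊤ : Submodule R (torL R J l r)))
  obtain ⟨n, hn⟩ : ∃ n, P ^ n • (⊤ : Submodule R (torL R J l r)) ≤
      P ^ (n + 1) • (⊤ : Submodule R (torL R J l r)) := by
    rcases lt_or_gt_of_ne hne with h | h
    · exact ⟨i, hij.le.trans (Submodule.smul_mono_left (Ideal.pow_le_pow_right h))⟩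
    · exact ⟨j, hij.ge.trans (Submodule.smul_mono_left (Ideal.pow_le_pow_right h))⟩
  rw [pow_succ', Submodule.mul_smul] at hn
  haveI : Module.Finite R (torL R J l r) := Module.Finite.of_finite
  obtain ⟨s, hs1, hs0⟩ := Submodule.exists_sub_one_mem_and_smul_eq_zero_of_fg_of_le_smul P
    (P ^ n • (⊤ : Submodule R (torL R J l r))) (IsNoetherian.noetherian _) hn
  have hsP : s ∉ P := fun h => D.maximal.ne_top <| by
    rw [Ideal.eq_top_iff_one]
    simpa using sub_mem h hs1
  have hproj : ∀ m ∈ torL R J l r, s • m ∈ primPart (J := J) P l r n := fun m hm =>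
    ⟨(torL R J l r).smul_mem s hm, fun p hp => by
      rw [smul_comm]
      exact congrArg Subtype.val
        (hs0 (p • (⟨m, hm⟩ : torL R J l r)) (Submodule.smul_mem_smul hp Submodule.mem_top))⟩
  have hstep : ∀ y ∈ fixedSub R J, ∃ w ∈ fixedSub R J, l ^ K • (s • y - l • w) = 0 := by
    intro y hy
    obtain ⟨x, hxy⟩ := hroot r y
    have hdiff : ∀ σ : GQ, σ • x - x ∈ torL R J l r := fun σ => by
      show l ^ r • (σ • x - x) = 0
      rw [smul_sub, ← smul_nsmul_comm, hxy, hy σ, sub_self]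
    obtain ⟨w, hw, hwe⟩ := hK r n (s • x)
      (fun τ => by rw [smul_comm (l ^ r) s x, hxy, smul_comm τ s, hy τ])
      (fun σ => by rw [smul_comm σ s x, ← smul_sub]; exact hproj _ (hdiff σ))
    refine ⟨w, hw, ?_⟩
    rw [smul_comm (l ^ r) s x, hxy] at hwe
    rw [smul_sub, sub_eq_zero, smul_smul (l ^ K) l w, ← pow_succ, ← hr, ← hwe]
  -- Nakayama on the fixed points modulo torsion
  let Λ := fixedSub R J
  let Tor : Submodule R Λ :=
    { carrier := {y | ∃ m : ℕ, m ≠ 0 ∧ m • y = 0}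
      add_mem' := fun {a b} ⟨m, hm, ha⟩ ⟨m', hm', hb⟩ => ⟨m * m', mul_ne_zero hm hm', by
        rw [smul_add, mul_comm, mul_smul, ha, smul_zero, mul_comm, mul_smul, hb, smul_zero,
          add_zero]⟩
      zero_mem' := ⟨1, one_ne_zero, smul_zero _⟩
      smul_mem' := fun r a ⟨m, hm, ha⟩ => ⟨m, hm, by rw [smul_comm, ha, smul_zero]⟩ }
  haveI : AddGroup.FG Λ := (AddGroup.fg_iff_addSubgroup_fg Λ.toAddSubgroup).2 D.fg
  haveI : Module.Finite ℤ Λ := Module.Finite.iff_addGroup_fg.2 inferInstance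
  haveI : Module.Finite R Λ := Module.Finite.of_restrictScalars_finite ℤ R Λ
  obtain ⟨u, hu⟩ : ∃ u, u * s - 1 ∈ P := by
    obtain ⟨u, i, hi, hui⟩ := D.maximal.exists_inv hsP
    exact ⟨u, by rw [← hui, sub_add_cancel_left]; exact neg_mem hi⟩
  obtain ⟨s', hs'1, hs'0⟩ := Submodule.exists_sub_one_mem_and_smul_eq_zero_of_fg_of_le_smul P
    (⊤ : Submodule R (Λ ⧸ Tor)) Module.Finite.fg_top (by
      rintro z -
      obtain ⟨y, rfl⟩ := Submodule.Quotient.mk_surjective Tor z
      obtain ⟨w, hw, hwe⟩ := hstep y.1 y.2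
      have he : Submodule.Quotient.mk (p := Tor) (s • y) =
          (l : R) • Submodule.Quotient.mk (p := Tor) (⟨w, hw⟩ : Λ) := by
        rw [← Submodule.Quotient.mk_smul, Submodule.Quotient.eq]
        refine ⟨l ^ K, pow_ne_zero _ hl.ne_zero, Subtype.ext ?_⟩
        show l ^ K • (s • y.1 - (l : R) • w) = 0
        rw [Nat.cast_smul_eq_nsmul R, hwe]
      have : Submodule.Quotient.mk (p := Tor) y =
          u • Submodule.Quotient.mk (p := Tor) (s • y) -
            (u * s - 1) • Submodule.Quotient.mk (p := Tor) y := by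
        rw [Submodule.Quotient.mk_smul, smul_smul, sub_smul, one_smul, sub_sub_cancel]
      rw [this, he, smul_comm]
      exact sub_mem (Submodule.smul_mem_smul D.mem Submodule.mem_top)
        (Submodule.smul_mem_smul hu Submodule.mem_top))
  refine ⟨s', fun h => D.maximal.ne_top ((Ideal.eq_top_iff_one _).2 (by
    simpa using sub_mem h hs'1)), fun y hy => ?_⟩
  have h0 := hs'0 (Submodule.Quotient.mk (p := Tor) ⟨y, hy⟩) Submodule.mem_top
  rw [← Submodule.Quotient.mk_smul, Submodule.Quotient.mk_eq_zero] at h0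
  obtain ⟨m, hm, hme⟩ := h0
  exact ⟨m, hm, congrArg Subtype.val hme⟩

end DescentData

end FLTAgent.Eisen
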