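import Fermat.Agent.Eisen.Assembly
import Fermat.Agent.PicTorsion.Divisible
import Fermat.Agent.GoodRed.X0Good

/-!
# `J₀(N)` is divisible
-/

set_option autoImplicit false
set_option linter.style.haveILetI false

noncomputable section

namespace FLTAgent.Eisen

open ModularCurve AlgebraicCurve

theorem divisibleByPrime (N : ℕ) [NeZero N] (l : ℕ) (hl : l.Prime) : DivisibleByPrime N l := by
  haveI : Fact l.Prime := ⟨hl⟩
  exact fun x => PicTorsion.exists_nsmul_eq l x

end FLTAgent.Eisen
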