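import Fermat.Agent.MW.Galois

/-!
# A fixed representative of a fixed class of degree zero

When a place is fixed by a family of semilinear automorphisms, a class of degree zero fixed by
them has a fixed divisor.
-/

set_option autoImplicit false
set_option linter.unusedSectionVars false

noncomputable section

namespace FLTAgent.Eisen

open AlgebraicCurve FLTAgent.FunctionField FLTAgent.MW Module

variable {K F : Type*} [Field K] [Field F] [Algebra K F] [IsFunctionField K F] [IsAlgClosed K]

theorem exists_fixed_representative {Γ : Type*} (act : Γ → SemilinearAut K F) {O : Place K F}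
    (hO : ∀ γ, act γ • O = O) {D : Divisor K F} (hdeg : Divisor.degree D = 0)
    (hD : ∀ γ, ∃ h : F, h ≠ 0 ∧ act γ • D - D = divisorOf h) :
    ∃ f : F, f ≠ 0 ∧ ∀ γ, act γ • (D + divisorOf f) = D + divisorOf f := by
  classical
  have hdegO : ∀ r : ℤ, Divisor.degree (Finsupp.single O r : Divisor K F) = r := fun r => by
    rw [Divisor.degree_single, deg_eq_one]; simp
  have hex : ∃ r : ℕ, 0 < ell (D + Finsupp.single O (r : ℤ)) := ⟨genusFF K F, by
    have := riemann_inequality (D + Finsupp.single O (genusFF K F : ℤ))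
    rw [map_add, hdeg, hdegO] at this
    omega⟩
  set r := Nat.find hex
  have hr : 0 < ell (D + Finsupp.single O (r : ℤ)) := Nat.find_spec hex
  set Dr := D + Finsupp.single O (r : ℤ) with hDr
  have h1 : ell Dr ≤ 1 := by
    have h := ell_pred_le (Dr - Finsupp.single O 1) O
    rw [sub_add_cancel] at h
    suffices ell (Dr - Finsupp.single O 1) ≤ 0 by omega
    rcases Nat.eq_zero_or_pos r with h0 | h0
    · refine le_of_eq (ell_eq_zero_of_degree_neg ?_)
      rw [map_sub, hDr, map_add, hdeg, hdegO, hdegO, h0]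
      simp
    · have h2 := Nat.find_min hex (Nat.sub_lt h0 one_pos)
      rw [not_lt, Nat.cast_sub (by omega), Nat.cast_one, Finsupp.single_sub,
        add_sub_assoc'] at h2
      exact h2
  simp only [ell] at hr h1
  obtain ⟨⟨f, hf⟩, hne⟩ :=
    Module.finrank_pos_iff_exists_ne_zero.1 (show 0 < finrank K (riemannRochSpace Dr) by omega)
  have hf0 : f ≠ 0 := fun h => hne (Subtype.ext h)
  have h3 : finrank K (riemannRochSpace Dr) = 1 := by omega
  refine ⟨f, hf0, fun γ => ?_⟩
  obtain ⟨h, hh0, hdh⟩ := hD γ
  have hsf0 : act γ • f ≠ 0 := by rwa [smul_ne_zero_iff_ne]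
  have key : act γ • (D + divisorOf (K := K) f)
      = D + divisorOf (K := K) (h * (act γ • f)) := by
    rw [smul_add, smul_divisorOf, divisorOf_mul hh0 hsf0, ← hdh]
    abel
  have hmem : h * (act γ • f) ∈ riemannRochSpace Dr := by
    refine (mem_L_iff (mul_ne_zero hh0 hsf0)).2 fun R => ?_
    have h2 : (0 : ℤ) ≤ (act γ • (Dr + divisorOf (K := K) f)) R := by
      rw [SemilinearAut.divisor_smul_apply]
      exact effective_add_divisorOf hf hf0 _
    rw [show Dr + divisorOf (K := K) f = (D + divisorOf f) + Finsupp.single O (r : ℤ) by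
      rw [hDr]; abel, smul_add, key, SemilinearAut.smul_single, hO, Finsupp.add_apply,
      Finsupp.add_apply, divisorOf_apply] at h2
    rw [hDr, Finsupp.add_apply]
    omega
  obtain ⟨c, hc⟩ := (finrank_eq_one_iff_of_nonzero' (⟨f, hf⟩ : riemannRochSpace Dr)
    (fun h => hf0 (congrArg Subtype.val h))).1 h3 ⟨_, hmem⟩
  have hc' : c • f = h * (act γ • f) := congrArg Subtype.val hc
  have hc0 : c ≠ 0 := fun h2 => mul_ne_zero hh0 hsf0 (by rw [← hc', h2, zero_smul])
  rw [key, ← hc', FLTAgent.MW.divisorOf_smul hc0]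

end FLTAgent.Eisen
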