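import Fermat.Agent.Eisen.FlatPair
import Fermat.Agent.Char.Rational
import Mathlib.LinearAlgebra.FreeModule.PID
import Mathlib.LinearAlgebra.Matrix.NonsingularInverse
import Mathlib.LinearAlgebra.Dimension.Constructions
import Mathlib.LinearAlgebra.Matrix.Basis

/-!
`ℤ_(l)` is principal; the orders of a flat pair are free of rank `#M` with bases that are also
bases of all functions over the algebraic closure.
-/

set_option autoImplicit false
set_option linter.style.haveILetI false

noncomputable section

namespace FLTAgent.Eisen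

section Ring

variable {l : ℕ}

theorem intCast_mem_Zloc (n : ℤ) : (n : ℚ) ∈ Zloc l := intCast_mem _ n

theorem mem_Zloc_iff {r : ℚ} : r ∈ Zloc l ↔ r.den.Coprime l := Iff.rfl

/-- `k / r.den` for `r ∈ ℤ_(l)`. -/
def divDen {r : ℚ} (hr : r ∈ Zloc l) (k : ℤ) : Zloc l :=
  ⟨(k : ℚ) / r.den, by
    rw [mem_Zloc_iff]
    exact Nat.Coprime.coprime_dvd_left
      (by exact_mod_cast Rat.den_dvd k (r.den : ℤ)) hr⟩

instance isPrincipalIdealRing_Zloc : IsPrincipalIdealRing (Zloc l) := by
  refine ⟨fun I => ?_⟩
  obtain ⟨n₀, hn₀⟩ := (IsPrincipalIdealRing.principal (I.comap (Int.castRingHom (Zloc l)))).principal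
  refine ⟨⟨(n₀ : Zloc l), le_antisymm ?_ ?_⟩⟩
  · intro x hx
    have hnum : ((x.1.num : ℤ) : Zloc l) = x * ((x.1.den : ℤ) : Zloc l) := by
      refine Subtype.ext ?_
      push_cast
      exact (Rat.mul_den_eq_num x.1).symm
    have hmem : x.1.num ∈ I.comap (Int.castRingHom (Zloc l)) := by
      show ((x.1.num : ℤ) : Zloc l) ∈ I
      rw [hnum]
      exact I.mul_mem_right _ hx
    rw [hn₀] at hmem
    obtain ⟨k, hk⟩ := Submodule.mem_span_singleton.mp hmem
    refine Submodule.mem_span_singleton.mpr ⟨divDen x.2 k, Subtype.ext ?_⟩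
    show (k : ℚ) / x.1.den * ((n₀ : Zloc l) : ℚ) = x.1
    rw [smul_eq_mul] at hk
    push_cast
    rw [div_mul_eq_mul_div, ← Int.cast_mul, hk]
    exact Rat.num_div_den x.1
  · rw [Submodule.span_singleton_le_iff_mem]
    have : n₀ ∈ I.comap (Int.castRingHom (Zloc l)) := by
      rw [hn₀]; exact Submodule.mem_span_singleton_self n₀
    exact this

theorem Zloc_smul_def {X : Type*} (r : Zloc l) (f : X → QBar) (x : X) :
    (r • f) x = ((r : ℚ) : QBar) * f x := by
  show (r : ℚ) • f x = _
  rw [Rat.smul_def]

instance isTorsionFree_fun {X : Type*} : Module.IsTorsionFree (Zloc l) (X → QBar) := by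
  refine Module.isTorsionFree_iff_smul_eq_zero.mpr fun r f h => ?_
  refine or_iff_not_imp_left.mpr fun hr => funext fun x => ?_
  have h0 := congrFun h x
  rw [Zloc_smul_def, Pi.zero_apply, mul_eq_zero, Rat.cast_eq_zero] at h0
  exact h0.resolve_left fun e => hr (Subtype.ext e)

theorem mem_range_rat {x : QBar} (h : ∀ σ : GQ, σ x = x) : ∃ r : ℚ, x = (r : QBar) := by
  obtain ⟨r, hr⟩ := FLTAgent.GalChar.exists_rat_of_fixed h
  exact ⟨r, by rw [← hr]; exact eq_ratCast (algebraMap ℚ QBar) r⟩

end Ring

variable {l : ℕ} {M : Type*} [Fintype M]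

omit [Fintype M] in
/-- Equivariant functions independent over `ℤ_(l)` are independent over the algebraic closure. -/
theorem linearIndependent_qbar (act : GQ → M → M) {ι : Type*} {f : ι → M → QBar}
    (hf : ∀ i σ m, f i (act σ m) = σ (f i m)) (hli : LinearIndependent (Zloc l) f) :
    LinearIndependent QBar f := by
  classical
  rw [linearIndependent_iff']
  intro s
  induction s using Finset.strongInduction with
  | H s ih =>
  intro a hsum k hk
  by_contra hak
  have key : ∀ (b : ι → QBar) (σ : GQ), (∀ m, ∑ i ∈ s, b i * f i m = 0) →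
      ∀ m, ∑ i ∈ s, σ.symm (b i) * f i m = 0 := by
    intro b σ hb m
    apply σ.injective
    rw [map_zero, map_sum, ← hb (act σ m)]
    exact Finset.sum_congr rfl fun i _ => by rw [map_mul, hf, σ.apply_symm_apply]
  have hsum' : ∀ m, ∑ i ∈ s, (a i / a k) * f i m = 0 := by
    intro m
    have h0 := congrFun hsum m
    simp only [Finset.sum_apply, Pi.smul_apply, smul_eq_mul, Pi.zero_apply] at h0
    simp only [div_mul_eq_mul_div, ← Finset.sum_div, h0, zero_div]
  have hfix : ∀ i ∈ s, ∀ σ : GQ, σ.symm (a i / a k) = a i / a k := by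
    intro i hi σ
    rcases eq_or_ne i k with rfl | hne
    · simp [hak]
    refine sub_eq_zero.mp ?_
    refine ih (s.erase k) (Finset.erase_ssubset hk)
      (fun j => σ.symm (a j / a k) - a j / a k) (funext fun m => ?_) i
      (Finset.mem_erase.mpr ⟨hne, hi⟩)
    simp only [Finset.sum_apply, Pi.smul_apply, smul_eq_mul, Pi.zero_apply]
    rw [Finset.sum_erase _ (by simp [hak])]
    simp only [sub_mul, Finset.sum_sub_distrib, key _ σ hsum' m, hsum' m, sub_zero]
  have hrat : ∀ i ∈ s, ∃ r : ℚ, a i / a k = (r : QBar) := fun i hi =>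
    mem_range_rat fun σ => by simpa using hfix i hi σ.symm
  choose! r hr using hrat
  set D : ℕ := ∏ i ∈ s, (r i).den with hD
  have hint : ∀ i ∈ s, ∃ z : ℤ, (D : ℚ) * r i = z := by
    intro i hi
    obtain ⟨e, he⟩ : (r i).den ∣ D := Finset.dvd_prod_of_mem _ hi
    refine ⟨e * (r i).num, ?_⟩
    rw [he]; push_cast
    rw [mul_assoc, mul_left_comm, mul_comm ((r i).den : ℚ), Rat.mul_den_eq_num]
  choose! z hz using hint
  have hrel : ∑ i ∈ s, (z i : Zloc l) • f i = 0 := by
    funext m
    simp only [Finset.sum_apply, Zloc_smul_def, Pi.zero_apply]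
    have : ∑ i ∈ s, (D : QBar) * ((a i / a k) * f i m) = 0 := by
      rw [← Finset.mul_sum, hsum' m, mul_zero]
    rw [← this]
    refine Finset.sum_congr rfl fun i hi => ?_
    rw [hr i hi, ← mul_assoc]
    push_cast
    rw [← Rat.cast_intCast (z i), ← hz i hi]
    push_cast
    rfl
  have hzk := linearIndependent_iff'.mp hli s _ hrel k hk
  have hrk : r k = 1 := by
    have := hr k hk
    rw [div_self hak] at this
    exact_mod_cast this.symm
  have h1 := hz k hk
  rw [hrk, mul_one] at h1
  have hzk' : (z k : ℚ) = 0 := by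
    have := congrArg (fun t : Zloc l => (t : ℚ)) hzk
    simpa using this
  rw [hzk'] at h1
  exact Finset.prod_ne_zero_iff.mpr (fun i _ => (r i).den_nz) (by exact_mod_cast h1)

/-- An fg lattice of equivariant functions spanning all functions has a basis indexed by `M`,
which is a basis of all functions over the algebraic closure. -/
theorem exists_lattice_basis (act : GQ → M → M) (B : Submodule (Zloc l) (M → QBar)) (hfg : B.FG)
    (hequiv : ∀ f ∈ B, ∀ σ m, f (act σ m) = σ (f m))
    (hspan : Submodule.span QBar (B : Set (M → QBar)) = ⊤) :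
    ∃ b : M → M → QBar, LinearIndependent QBar b ∧
      Submodule.span (Zloc l) (Set.range b) = B := by
  classical
  haveI : Module.Finite (Zloc l) B := Module.Finite.iff_fg.mpr hfg
  obtain ⟨n, b⟩ := Module.basisOfFiniteTypeTorsionFree' (R := Zloc l) (M := B)
  let g : Fin n → M → QBar := fun i => (b i : M → QBar)
  have hspanO : Submodule.span (Zloc l) (Set.range g) = B := by
    have h := congrArg (Submodule.map B.subtype) b.span_eq
    rw [Submodule.map_span, Submodule.map_top, Submodule.range_subtype, ← Set.range_comp] at h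
    exact h
  have hliO : LinearIndependent (Zloc l) g :=
    b.linearIndependent.map' B.subtype (Submodule.ker_subtype B)
  have hli : LinearIndependent QBar g :=
    linearIndependent_qbar act (fun i σ m => hequiv _ (b i).2 σ m) hliO
  have htop : ⊤ ≤ Submodule.span QBar (Set.range g) := by
    rw [← hspan, Submodule.span_le]
    intro f hf
    rw [← hspanO] at hf
    exact Submodule.span_subset_span (Zloc l) QBar _ hf
  have hn : n = Fintype.card M := by
    have h1 := Module.finrank_eq_card_basis (Module.Basis.mk hli htop)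
    rw [Fintype.card_fin, Module.finrank_pi] at h1
    exact h1.symm
  let e : M ≃ Fin n := Fintype.equivFinOfCardEq hn.symm
  refine ⟨g ∘ e, hli.comp _ e.injective, ?_⟩
  rw [Set.range_comp, e.range_eq_univ, Set.image_univ]
  exact hspanO

theorem det_ne_zero_of_linearIndependent [DecidableEq M] {b : M → M → QBar}
    (h : LinearIndependent QBar b) : (Matrix.of b).det ≠ 0 := by
  have h' : IsUnit (Matrix.of b) := Matrix.linearIndependent_rows_iff_isUnit.mp h
  exact ((Matrix.isUnit_iff_isUnit_det _).mp h').ne_zero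

end FLTAgent.Eisen
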