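import Fermat.Agent.Eisen.FlatPair
import Fermat.Agent.FlatModel.CurveModel
import Fermat.Agent.GalRep.OpenStab

/-!
# Flat torsors from good reduction of a curve

For a finite Galois submodule `M` of the divisor classes and a class `x` with all `σ x - x` in `M`,
the rings of functions on `M` and on `x + M` form a flat pair.
-/

set_option autoImplicit false
set_option linter.unusedSectionVars false
set_option linter.style.haveILetI false

noncomputable section

open AlgebraicCurve ModularCurve

namespace FLTAgent.Eisen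

open FLTAgent.FlatModel FLTAgent.FunctionField FLTAgent.GoodRed

section Box

variable {l : ℕ} {X Y : Type}

/-- An element of a tensor product, seen as a function of two variables, is in the box product. -/
theorem mem_boxProd_of_mem_range (B : Subalgebra (Zloc l) (X → QBar))
    (H : Subalgebra (Zloc l) (Y → QBar)) {f : X × Y → QBar}
    (hf : f ∈ (prodFun B H.val).range) : f ∈ boxProd B.toSubmodule H.toSubmodule := by
  obtain ⟨t, rfl⟩ := hf
  show prodFun B H.val t ∈ boxProd B.toSubmodule H.toSubmodule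
  induction t using TensorProduct.induction_on with
  | zero => rw [map_zero]; exact zero_mem _
  | tmul b h =>
    have e : prodFun B H.val (b ⊗ₜ[Zloc l] h) = fun p : X × Y => b.1 p.1 * h.1 p.2 :=
      funext fun p => by
        obtain ⟨a, a'⟩ := p
        simp [prodFun_tmul]
    rw [e]
    exact mul_mem_boxProd b.2 h.2
  | add a b ha hb => rw [map_add]; exact add_mem ha hb

theorem span_toSubmodule_eq_top [Finite X] (B : Subalgebra (Zloc l) (X → QBar))
    (h : ∀ x y : X, (∀ f : B, f.1 x = f.1 y) → x = y) :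
    Submodule.span QBar (B.toSubmodule : Set (X → QBar)) = ⊤ := by
  rw [← span_eq_top_of_separates B h]
  refine congrArg _ (Set.ext fun f => ⟨fun hf => ⟨⟨f, hf⟩, rfl⟩, ?_⟩)
  rintro ⟨g, rfl⟩
  exact g.2

end Box

variable {F₀ : IntermediateField ℚ (LaurentSeries ℚ)}
  {A : ValuationSubring (AlgebraicClosure ℚ)}
  {Fb : IntermediateField (IsLocalRing.ResidueField A) (LaurentSeries (IsLocalRing.ResidueField A))}
  [IsFunctionField (AlgebraicClosure ℚ) ↥(FBar F₀)]
  [IsFunctionField (IsLocalRing.ResidueField A) ↥Fb]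
  [IsAlgClosed (IsLocalRing.ResidueField A)]

set_option quotPrecheck false in
local notation "Pic" => Pic0 (AlgebraicClosure ℚ) ↥(FBar F₀)

section Torsor

variable {M : Type} [AddCommGroup M] [DistribMulAction GQ M]

/-- The points of the torsor of a cocycle. -/
structure TorsPts (c : GQ → M) : Type where
  /-- the coordinate -/
  val : M

variable {c : GQ → M}

/-- The torsor action `m ↦ σ m + c σ`. -/
@[reducible] def torsAction (hc : ∀ σ τ : GQ, c (σ * τ) = c σ + σ • c τ) :
    MulAction GQ (TorsPts c) where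
  smul σ t := ⟨σ • t.val + c σ⟩
  one_smul t := by
    show (⟨(1 : GQ) • t.val + c 1⟩ : TorsPts c) = t
    have h := hc 1 1
    rw [one_mul, one_smul, left_eq_add] at h
    rw [one_smul, h, add_zero]
  mul_smul σ τ t := by
    show (⟨(σ * τ) • t.val + c (σ * τ)⟩ : TorsPts c) = ⟨σ • (τ • t.val + c τ) + c σ⟩
    rw [smul_add, hc, mul_smul]
    congr 1
    abel

end Torsor

/-- The flat pair of a finite submodule of classes and a class with differences in it. -/
theorem isFlatTorsor_of_curveDatum (C : CurveDatum F₀ A Fb) {l : ℕ} [Fact l.Prime]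
    (hA : A.LiesOverPrime l) {M : Type} [AddCommGroup M] [DistribMulAction GQ M] [Finite M]
    (j : M →+ Pic) (hj : Function.Injective j) (hjσ : ∀ (σ : GQ) (m : M), j (σ • m) = σ • j m)
    (hlevel : ∀ y : Pic, ∃ L : IntermediateField ℚ QBar, FiniteDimensional ℚ L ∧
      ∀ σ : GQ, (∀ a ∈ L, σ a = a) → σ • y = y)
    (x : Pic) (c : GQ → M) (hc : ∀ σ, j (c σ) = σ • x - x) : IsFlatTorsor l c := by
  have hcoc : ∀ σ τ : GQ, c (σ * τ) = c σ + σ • c τ := fun σ τ => hj (by
    rw [map_add, hjσ, hc, hc, hc, mul_smul, smul_sub]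
    abel)
  letI := torsAction hcoc
  let ι : Type := {y : Pic // y ∈ Set.range j ∪ Set.range fun m => x + j m}
  haveI : Finite ι := ((Set.finite_range j).union (Set.finite_range _)).to_subtype
  have hT : ∀ (σ : GQ) (t : TorsPts c), σ • (x + j t.val) = x + j (σ • t).val := fun σ t => by
    show σ • (x + j t.val) = x + j (σ • t.val + c σ)
    rw [smul_add, ← hjσ, map_add, hc]
    abel
  letI : MulAction GQ ι :=
    { smul := fun σ y => ⟨σ • y.1, by
        rcases y.2 with ⟨m, hm⟩ | ⟨m, hm⟩
        · exact Or.inl ⟨σ • m, by rw [hjσ, hm]⟩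
        · exact Or.inr ⟨(σ • (⟨m⟩ : TorsPts c)).val, by rw [← hm]; exact (hT σ ⟨m⟩).symm⟩⟩
      one_smul := fun y => Subtype.ext (one_smul GQ y.1)
      mul_smul := fun σ τ y => Subtype.ext (mul_smul σ τ y.1) }
  let φM : M → ι := fun m => ⟨j m, Or.inl ⟨m, rfl⟩⟩
  let φT : TorsPts c → ι := fun t => ⟨x + j t.val, Or.inr ⟨t.val, rfl⟩⟩
  have hφM : ∀ (σ : GQ) (m : M), φM (σ • m) = σ • φM m := fun σ m => Subtype.ext (hjσ σ m)
  have hφT : ∀ (σ : GQ) (t : TorsPts c), φT (σ • t) = σ • φT t := fun σ t =>
    Subtype.ext (hT σ t).symm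
  let cl : ι → Pic := Subtype.val
  have hcl : ∀ (σ : GQ) (y : ι), cl (σ • y) = σ • cl y := fun _ _ => rfl
  have hadd : ∀ m m', cl (φM (m + m')) = cl (φM m) + cl (φM m') := fun m m' => map_add j m m'
  haveI : Finite (TorsPts c) := Finite.of_injective TorsPts.val fun a b h => by
    cases a; cases b; exact congrArg TorsPts.mk h
  have hlevM : IsLevelled M := by
    obtain ⟨L, hL, h⟩ := GalRep.exists_common_level_set (S := Set.range fun m => j m)
      (Set.finite_range _) fun y _ => hlevel y
    exact ⟨L, hL, fun σ hσ m => hj (by rw [hjσ]; exact h σ hσ _ ⟨m, rfl⟩)⟩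
  have hlevT : IsLevelled (TorsPts c) := by
    obtain ⟨L, hL, h⟩ := GalRep.exists_common_level_set
      (S := Set.range fun t : TorsPts c => x + j t.val) (Set.finite_range _) fun y _ => hlevel y
    refine ⟨L, hL, fun σ hσ t => ?_⟩
    have h1 := h σ hσ _ ⟨t, rfl⟩
    rw [hT, add_right_inj] at h1
    obtain ⟨v⟩ := t
    exact congrArg TorsPts.mk (hj h1)
  obtain ⟨Bd⟩ := exists_goodBase C hA cl
  let HM := Bd.ring l φM
  let HT := Bd.ring l φT
  haveI : Finite (GoodBase.K Bd →ₐ[ℚ] QBar) := inferInstance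
  -- functions on the torsor pulled back to the module as a set
  let e : M → TorsPts c := TorsPts.mk
  let B : Subalgebra (Zloc l) (M → QBar) := HT.map (pullback l e)
  have hz : ∀ σ : GQ, σ • φM 0 = φM 0 := fun σ => by rw [← hφM, smul_zero]
  refine ⟨B.toSubmodule, HM.toSubmodule, ?_, ?_, fun f hf g hg => B.mul_mem hf hg,
    fun f hf g hg => HM.mul_mem hf hg, ?_, fun f hf σ m => (Bd.ring_le_intFun φM hf).1 σ m,
    ?_, span_toSubmodule_eq_top HM (Bd.separates_ring hA hcl hφM hj), ?_, ?_, ?_⟩
  · haveI := finite_of_le_intFun hlevT (Bd.ring_le_intFun (l := l) φT)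
    show (Subalgebra.toSubmodule (HT.map (pullback l e))).FG
    rw [Subalgebra.map_toSubmodule]
    exact (Module.Finite.iff_fg.1 (inferInstanceAs (Module.Finite (Zloc l) HT))).map _
  · haveI := finite_of_le_intFun hlevM (Bd.ring_le_intFun (l := l) φM)
    exact Module.Finite.iff_fg.1 (inferInstanceAs (Module.Finite (Zloc l) HM))
  · rintro _ ⟨f, hf, rfl⟩ σ m
    exact (Bd.ring_le_intFun φT hf).1 σ ⟨m⟩
  · refine span_toSubmodule_eq_top B fun a b h => congrArg TorsPts.val
      (Bd.separates_ring (l := l) hA hcl hφT (fun s t hst => ?_) ⟨a⟩ ⟨b⟩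
        fun f => h ⟨_, f, f.2, rfl⟩)
    obtain ⟨s⟩ := s
    obtain ⟨t⟩ := t
    exact congrArg TorsPts.mk (hj (add_left_cancel hst))
  · rintro _ ⟨f, hf, rfl⟩
    have h := Bd.mem_range_prodFun_ring (l := l) hA hcl hlevT hlevM hφT hφM
      (fun p : TorsPts c × M => (⟨p.1.val + p.2⟩ : TorsPts c)) (φT ∘ Prod.fst) (φM ∘ Prod.snd)
      (Function.const _ (φM 0)) ?_ (fun p => ?_) hf
    · refine mem_boxProd_of_mem_range B HM ?_
      obtain ⟨t, ht⟩ := h
      have key : ∀ (s : TensorProduct (Zloc l) HT HM),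
          ∃ s' : TensorProduct (Zloc l) B HM, ∀ a b : M,
            prodFun B HM.val s' (a, b) = prodFun HT HM.val s (e a, b) := by
        intro s
        induction s using TensorProduct.induction_on with
        | zero => exact ⟨0, fun a b => by simp⟩
        | tmul u v =>
          exact ⟨(⟨_, u, u.2, rfl⟩ : B) ⊗ₜ v, fun a b => by simp [prodFun_tmul]⟩
        | add u v hu hv =>
          obtain ⟨u', hu'⟩ := hu
          obtain ⟨v', hv'⟩ := hv
          exact ⟨u' + v', fun a b => by simp [map_add, hu', hv']⟩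
      obtain ⟨t', ht'⟩ := key t
      exact ⟨t', funext fun p => (ht' p.1 p.2).trans (congrFun ht (e p.1, p.2))⟩
    · rintro y (rfl | rfl | rfl)
      · exact Or.inl rfl
      · exact Or.inr (Or.inl rfl)
      · exact Or.inr (Or.inr ⟨_, hz, rfl⟩)
    · show x + j (p.1.val + p.2) + j 0 = x + j p.1.val + j p.2
      rw [map_add, map_zero, add_zero, add_assoc]
  · intro f hf
    have h := Bd.mem_range_prodFun_ring (l := l) hA hcl hlevT hlevT hφT hφT
      (fun p : TorsPts c × TorsPts c => p.2.val - p.1.val) (φT ∘ Prod.snd)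
      (Function.const _ (φM 0)) (φT ∘ Prod.fst) ?_ (fun p => ?_) hf
    · refine mem_boxProd_of_mem_range B B ?_
      obtain ⟨t, ht⟩ := h
      have key : ∀ (s : TensorProduct (Zloc l) HT HT),
          ∃ s' : TensorProduct (Zloc l) B B, ∀ a b : M,
            prodFun B B.val s' (a, b) = prodFun HT HT.val s (e a, e b) := by
        intro s
        induction s using TensorProduct.induction_on with
        | zero => exact ⟨0, fun a b => by simp⟩
        | tmul u v =>
          exact ⟨(⟨_, u, u.2, rfl⟩ : B) ⊗ₜ (⟨_, v, v.2, rfl⟩ : B),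
            fun a b => by simp [prodFun_tmul]⟩
        | add u v hu hv =>
          obtain ⟨u', hu'⟩ := hu
          obtain ⟨v', hv'⟩ := hv
          exact ⟨u' + v', fun a b => by simp [map_add, hu', hv']⟩
      obtain ⟨t', ht'⟩ := key t
      exact ⟨t', funext fun p => (ht' p.1 p.2).trans (congrFun ht (e p.1, e p.2))⟩
    · rintro y (rfl | rfl | rfl)
      · exact Or.inr (Or.inl rfl)
      · exact Or.inr (Or.inr ⟨_, hz, rfl⟩)
      · exact Or.inl rfl
    · show j (p.2.val - p.1.val) + (x + j p.1.val) = x + j p.2.val + j 0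
      rw [map_sub, map_zero]
      abel
  · intro f hf
    exact mem_boxProd_of_mem_range HM HM
      ((Bd.functionModel hA hcl hlevM φM hφM hadd hj).add_mem ⟨f, hf⟩)

end FLTAgent.Eisen
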