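import Fermat.Agent.Eisen.Lattice

/-!
Push-out of a finite flat torsor pair along an equivariant surjection, pull-back along an
equivariant injection.
-/

set_option autoImplicit false
set_option linter.style.haveILetI false
set_option linter.unusedSectionVars false

noncomputable section

namespace FLTAgent.Eisen

variable {l : ℕ} {M : Type*} [AddCommGroup M] [DistribMulAction GQ M]

theorem IsFlatPair.hasBasisB [Finite M] {c : GQ → M} {B H : Submodule (Zloc l) (M → QBar)}
    (h : IsFlatPair c B H) : HasBasis B := by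
  haveI := Fintype.ofFinite M
  exact hasBasis_of (fun σ m => σ • m + c σ) B h.fgB h.equivB h.spanB

theorem IsFlatPair.hasBasisH [Finite M] {c : GQ → M} {B H : Submodule (Zloc l) (M → QBar)}
    (h : IsFlatPair c B H) : HasBasis H := by
  haveI := Fintype.ofFinite M
  exact hasBasis_of (fun σ m => σ • m) H h.fgH h.equivH h.spanH

variable {M' : Type*} [AddCommGroup M'] [DistribMulAction GQ M']

/-- Functions on the quotient whose inflation lies in `B`. -/
def pushLat (B : Submodule (Zloc l) (M → QBar)) (π : M → M') :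
    Submodule (Zloc l) (M' → QBar) :=
  B.comap (LinearMap.funLeft (Zloc l) QBar π)

omit [AddCommGroup M] [DistribMulAction GQ M] [AddCommGroup M'] [DistribMulAction GQ M'] in
theorem mem_pushLat {B : Submodule (Zloc l) (M → QBar)} {π : M → M'} {f : M' → QBar} :
    f ∈ pushLat B π ↔ f ∘ π ∈ B := Iff.rfl

/-- Summation over the fibres. -/
def trSum [Fintype M] [DecidableEq M'] (π : M → M') : (M → QBar) →ₗ[QBar] (M' → QBar) where
  toFun f m' := ∑ m ∈ Finset.univ.filter (fun m => π m = m'), f m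
  map_add' f g := by funext m'; simp [Finset.sum_add_distrib]
  map_smul' a f := by funext m'; simp [Finset.mul_sum]

omit [DistribMulAction GQ M] [AddCommGroup M'] [DistribMulAction GQ M'] in
theorem trSum_single [Fintype M] [DecidableEq M] [DecidableEq M'] (π : M → M') (m : M) :
    trSum π (Pi.single m 1) = Pi.single (π m) 1 := by
  funext m'
  show ∑ x ∈ _, (Pi.single m 1 : M → QBar) x = _
  rw [Finset.sum_pi_single']
  simp [Pi.single_apply, eq_comm]

omit [DistribMulAction GQ M] [AddCommGroup M'] [DistribMulAction GQ M'] in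
theorem span_pushLat [Finite M] {B : Submodule (Zloc l) (M → QBar)} {π : M → M'}
    (hπ : Function.Surjective π) [Fintype M] [DecidableEq M']
    (hspan : Submodule.span QBar (B : Set (M → QBar)) = ⊤)
    (htr : ∀ f ∈ B, trSum π f ∈ pushLat B π) :
    Submodule.span QBar (pushLat B π : Set (M' → QBar)) = ⊤ := by
  classical
  haveI : Fintype M' := Fintype.ofSurjective π hπ
  rw [eq_top_iff]
  intro f _
  rw [pi_eq_sum_univ f]
  refine Submodule.sum_mem _ fun m' _ => Submodule.smul_mem _ _ ?_
  obtain ⟨m, rfl⟩ := hπ m'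
  have h1 : (Pi.single m 1 : M → QBar) ∈ Submodule.span QBar (B : Set (M → QBar)) := by
    rw [hspan]; exact Submodule.mem_top
  have h2 := Submodule.mem_map_of_mem (f := trSum π) h1
  rw [Submodule.map_span, trSum_single] at h2
  convert Submodule.span_mono ?_ h2 using 1
  · funext x; simp [Pi.single_apply, eq_comm]
  · rintro _ ⟨g, hg, rfl⟩; exact htr g hg

omit [DistribMulAction GQ M] [DistribMulAction GQ M'] in
theorem trSum_comp [Fintype M] [DecidableEq M'] (π : M →+ M') (f : M → QBar) (s : M) :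
    trSum π f (π s) = ∑ u ∈ Finset.univ.filter (fun u => π u = 0), f (s + u) := by
  show ∑ m ∈ _, f m = _
  refine Finset.sum_nbij' (fun m => m - s) (fun u => s + u) ?_ ?_ ?_ ?_ ?_
  · simp [sub_eq_zero]
  · simp +contextual
  · simp
  · simp
  · simp

/-- The fibre sum of a function of an equivariant lattice is again in it. -/
theorem trSum_mem_pushLat [Fintype M] [DecidableEq M'] (π : M →+ M')
    (hπσ : ∀ (σ : GQ) m, π (σ • m) = σ • π m) {B X H : Submodule (Zloc l) (M → QBar)}
    (hH : H.FG) (hmulH : ∀ f ∈ H, ∀ g ∈ H, f * g ∈ H)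
    (hequivH : ∀ f ∈ H, ∀ (σ : GQ) (m : M), f (σ • m) = σ (f m)) (hHb : HasBasis H)
    (htrans : ∀ f ∈ X, (fun p : M × M => f (p.1 + p.2)) ∈ boxProd B H)
    {f : M → QBar} (hf : f ∈ X) : trSum π f ∈ pushLat B π := by
  obtain ⟨n, h, -, hspan⟩ := hHb
  obtain ⟨g, hg, eg⟩ := exists_coeff hspan (htrans f hf)
  have hhH : ∀ j, h j ∈ H := fun j => hspan ▸ Submodule.subset_span ⟨j, rfl⟩
  set K := Finset.univ.filter (fun u : M => π u = 0) with hK
  have hfix : ∀ j (σ : GQ), σ (∑ u ∈ K, h j u) = ∑ u ∈ K, h j u := by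
    intro j σ
    rw [map_sum]
    refine Finset.sum_nbij' (fun u => σ • u) (fun u => σ⁻¹ • u) ?_ ?_ ?_ ?_ ?_
    · intro u hu; simp [hK, hπσ] at hu ⊢; simp [hu]
    · intro u hu; simp [hK, hπσ] at hu ⊢; simp [hu]
    · intro u _; simp
    · intro u _; simp
    · intro u _; rw [hequivH _ (hhH j)]
  choose r hr using fun j => mem_range_rat (hfix j)
  have hrint : ∀ j, r j ∈ Zloc l := fun j => rat_mem_of_isIntegral <| by
    rw [← hr j]; exact IsIntegral.sum _ fun u _ => isIntegral_apply hH hmulH (hhH j) u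
  rw [mem_pushLat]
  have : trSum π f ∘ π = ∑ j, (⟨r j, hrint j⟩ : Zloc l) • g j := by
    funext s
    rw [Function.comp_apply, trSum_comp, Finset.sum_congr rfl (fun u _ => eg s u),
      Finset.sum_comm, Finset.sum_apply]
    refine Finset.sum_congr rfl fun j _ => ?_
    rw [← Finset.mul_sum, Zloc_smul_def, ← hr j, mul_comm]
  rw [this]
  exact Submodule.sum_mem _ fun j _ => B.smul_mem _ (hg j)

/-- Push-out of a flat torsor along an equivariant surjection. -/
theorem IsFlatTorsor.push [Finite M] {c : GQ → M} (h : IsFlatTorsor l c) (π : M →+ M')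
    (hπ : Function.Surjective π) (hπσ : ∀ (σ : GQ) m, π (σ • m) = σ • π m) :
    IsFlatTorsor l (fun σ => π (c σ)) := by
  classical
  obtain ⟨B, H, h⟩ := h
  haveI := Fintype.ofFinite M
  haveI : Fintype M' := Fintype.ofSurjective π hπ
  have hfg : ∀ S : Submodule (Zloc l) (M → QBar), S.FG → (pushLat S π).FG := by
    intro S hS
    haveI : Module.Finite (Zloc l) S := Module.Finite.iff_fg.mpr hS
    exact Module.Finite.iff_fg.mp (Module.Finite.of_injective
      ((LinearMap.funLeft (Zloc l) QBar π).restrict (p := pushLat S π) (q := S) fun _ hf => hf)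
      fun f g e => Subtype.ext (funext fun m' => by
        obtain ⟨m, rfl⟩ := hπ m'
        exact congrFun (congrArg Subtype.val e) m))
  have hequivB : ∀ f ∈ pushLat B π, ∀ (σ : GQ) (m' : M'), f (σ • m' + π (c σ)) = σ (f m') := by
    intro f hf σ m'
    obtain ⟨m, rfl⟩ := hπ m'
    rw [← hπσ, ← map_add]; exact h.equivB _ hf σ m
  have hequivH : ∀ f ∈ pushLat H π, ∀ (σ : GQ) (m' : M'), f (σ • m') = σ (f m') := by
    intro f hf σ m'
    obtain ⟨m, rfl⟩ := hπ m'
    rw [← hπσ]; exact h.equivH _ hf σ m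
  have hspanB : Submodule.span QBar (pushLat B π : Set (M' → QBar)) = ⊤ :=
    span_pushLat hπ h.spanB fun f hf =>
      trSum_mem_pushLat π hπσ h.fgH h.mulH h.equivH h.hasBasisH h.translate hf
  have hspanH : Submodule.span QBar (pushLat H π : Set (M' → QBar)) = ⊤ :=
    span_pushLat hπ h.spanH fun f hf =>
      trSum_mem_pushLat π hπσ h.fgH h.mulH h.equivH h.hasBasisH h.addition hf
  have hBb : HasBasis (pushLat B π) :=
    hasBasis_of (fun σ m => σ • m + π (c σ)) _ (hfg B h.fgB) hequivB hspanB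
  have hHb : HasBasis (pushLat H π) :=
    hasBasis_of (fun σ m => σ • m) _ (hfg H h.fgH) hequivH hspanH
  refine ⟨pushLat B π, pushLat H π, hfg B h.fgB, hfg H h.fgH,
    fun f hf g hg => h.mulB _ hf _ hg, fun f hf g hg => h.mulH _ hf _ hg,
    hequivB, hequivH, hspanB, hspanH, fun f hf => ?_, fun f hf => ?_, fun f hf => ?_⟩
  · refine boxProd_descend (B := B) (H := H) hπ hπ (fun _ => Iff.rfl) (fun _ => Iff.rfl)
      h.hasBasisH hBb ?_
    convert h.translate _ hf using 2 with p
    simp
  · refine boxProd_descend (B := B) (H := B) hπ hπ (fun _ => Iff.rfl) (fun _ => Iff.rfl)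
      h.hasBasisB hBb ?_
    convert h.difference _ hf using 2 with p
    simp
  · refine boxProd_descend (B := H) (H := H) hπ hπ (fun _ => Iff.rfl) (fun _ => Iff.rfl)
      h.hasBasisH hHb ?_
    convert h.addition _ hf using 2 with p
    simp

/-- Pull-back of a flat torsor along an equivariant injection. -/
theorem IsFlatTorsor.pull {c : GQ → M} (h : IsFlatTorsor l c) (ι : M' →+ M)
    (hι : Function.Injective ι) (hισ : ∀ (σ : GQ) m, ι (σ • m) = σ • ι m) {c' : GQ → M'}
    (hc : ∀ σ, ι (c' σ) = c σ) : IsFlatTorsor l c' := by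
  obtain ⟨B, H, h⟩ := h
  set res := LinearMap.funLeft (Zloc l) QBar ι with hres
  have hspan : ∀ S : Submodule (Zloc l) (M → QBar), Submodule.span QBar (S : Set (M → QBar)) = ⊤ →
      Submodule.span QBar (S.map res : Set (M' → QBar)) = ⊤ := by
    intro S hS
    have := congrArg (Submodule.map (LinearMap.funLeft QBar QBar ι)) hS
    rw [Submodule.map_span, Submodule.map_top, LinearMap.range_eq_top.mpr
      (LinearMap.funLeft_surjective_of_injective QBar QBar ι hι)] at this
    rw [← this]
    rfl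
  have hbox : ∀ (S T : Submodule (Zloc l) (M → QBar)) (F : M × M → QBar), F ∈ boxProd S T →
      (fun p : M' × M' => F (ι p.1, ι p.2)) ∈ boxProd (S.map res) (T.map res) := by
    intro S T F hF
    have := Submodule.mem_map_of_mem
      (f := LinearMap.funLeft (Zloc l) QBar (fun p : M' × M' => (ι p.1, ι p.2))) hF
    rw [boxProd, Submodule.map_span] at this
    refine Submodule.span_mono ?_ this
    rintro _ ⟨_, ⟨b, hb, k, hk, rfl⟩, rfl⟩
    exact ⟨res b, ⟨b, hb, rfl⟩, res k, ⟨k, hk, rfl⟩, rfl⟩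
  refine ⟨B.map res, H.map res, h.fgB.map _, h.fgH.map _, ?_, ?_, ?_, ?_, hspan B h.spanB,
    hspan H h.spanH, ?_, ?_, ?_⟩
  · rintro _ ⟨f, hf, rfl⟩ _ ⟨g, hg, rfl⟩
    exact ⟨f * g, h.mulB f hf g hg, rfl⟩
  · rintro _ ⟨f, hf, rfl⟩ _ ⟨g, hg, rfl⟩
    exact ⟨f * g, h.mulH f hf g hg, rfl⟩
  · rintro _ ⟨f, hf, rfl⟩ σ m
    show f (ι (σ • m + c' σ)) = σ (f (ι m))
    rw [map_add, hισ, hc, h.equivB f hf]
  · rintro _ ⟨f, hf, rfl⟩ σ m
    show f (ι (σ • m)) = σ (f (ι m))
    rw [hισ, h.equivH f hf]
  · rintro _ ⟨f, hf, rfl⟩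
    have := hbox _ _ _ (h.translate f hf)
    simpa [hres, LinearMap.funLeft_apply] using this
  · rintro _ ⟨f, hf, rfl⟩
    have := hbox _ _ _ (h.difference f hf)
    simpa [hres, LinearMap.funLeft_apply] using this
  · rintro _ ⟨f, hf, rfl⟩
    have := hbox _ _ _ (h.addition f hf)
    simpa [hres, LinearMap.funLeft_apply] using this

/-- Transport of `IsFlatTorsor` along a change of cocycle by a Galois-fixed relabelling. -/
theorem IsFlatTorsor.congr {c c' : GQ → M} (h : IsFlatTorsor l c) (e : ∀ σ, c σ = c' σ) :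
    IsFlatTorsor l c' := (funext e : c = c') ▸ h

end FLTAgent.Eisen
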