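import Fermat.Agent.Eisen.Places
import Fermat.Agent.Eisen.FlatPush
import Mathlib.LinearAlgebra.Matrix.Kronecker
import Mathlib.NumberTheory.LegendreSymbol.AddCharacter
import Mathlib.RingTheory.RootsOfUnity.AlgebraicallyClosed

/-!
The discriminant bound for a finite flat torsor pair on a module of order `l`.
-/

set_option autoImplicit false
set_option linter.style.haveILetI false
set_option linter.unusedSectionVars false

noncomputable section

namespace FLTAgent.Eisen

open Kronecker

variable {l : ℕ} {A : ValuationSubring QBar}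

/-- Members of the lattice spanned by a family expand with coefficients in `A`. -/
theorem exists_expand (hl : l.Prime) (hA : A.LiesOverPrime l) {ι X : Type*} [Fintype ι]
    {b : ι → X → QBar} {f : X → QBar} (hf : f ∈ Submodule.span (Zloc l) (Set.range b)) :
    ∃ R : ι → QBar, (∀ j, R j ∈ A) ∧ ∀ x, f x = ∑ j, R j * b j x := by
  rw [Submodule.mem_span_range_iff_exists_fun] at hf
  obtain ⟨r, rfl⟩ := hf
  exact ⟨fun j => ((r j : ℚ) : QBar), fun j => coe_mem_of_mem_Zloc hl hA _, fun x => by
    simp [Finset.sum_apply, Zloc_smul_scalar]⟩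

variable {M : Type*} [AddCommGroup M] [DistribMulAction GQ M] [Fintype M] [DecidableEq M]

theorem IsFlatPair.valuation_det_eq (hl : l.Prime) (hA : A.LiesOverPrime l) {c : GQ → M}
    {B H : Submodule (Zloc l) (M → QBar)} (h : IsFlatPair c B H) {b k : M → M → QBar}
    (hb : LinearIndependent QBar b) (hbs : Submodule.span (Zloc l) (Set.range b) = B)
    (hks : Submodule.span (Zloc l) (Set.range k) = H) :
    A.valuation (Matrix.of b).det = A.valuation (Matrix.of k).det := by
  have hbB : ∀ i, b i ∈ B := fun i => hbs ▸ Submodule.subset_span ⟨i, rfl⟩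
  have hkH : ∀ i, k i ∈ H := fun i => hks ▸ Submodule.subset_span ⟨i, rfl⟩
  let σ : Equiv.Perm (M × M) :=
    { toFun := fun p => (p.1, p.1 + p.2)
      invFun := fun p => (p.1, p.2 - p.1)
      left_inv := fun p => by simp
      right_inv := fun p => by simp }
  set W1 : Matrix (M × M) (M × M) QBar := (Matrix.of b ⊗ₖ Matrix.of b).submatrix id σ with hW1
  set W2 : Matrix (M × M) (M × M) QBar := Matrix.of b ⊗ₖ Matrix.of k with hW2
  have hW1a : ∀ i p, W1 i p = b i.1 p.1 * b i.2 (p.1 + p.2) := fun i p => rfl
  have hW2a : ∀ i p, W2 i p = b i.1 p.1 * k i.2 p.2 := fun i p => rfl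
  -- an element of `boxProd B H'` times `b i` expands in products
  have key : ∀ (w : M → M → QBar) (S : Submodule (Zloc l) (M → QBar)),
      Submodule.span (Zloc l) (Set.range w) = S → ∀ (i : M) (F : M × M → QBar),
      F ∈ boxProd B S → ∃ R : M × M → QBar, (∀ q, R q ∈ A) ∧
        ∀ x y, b i x * F (x, y) = ∑ q, R q * (b q.1 x * w q.2 y) := by
    intro w S hw i F hF
    let e := (Fintype.equivFin M).symm
    obtain ⟨g, hg, eg⟩ := exists_coeff (h := w ∘ e)
      (by rw [Set.range_comp, e.range_eq_univ, Set.image_univ, hw]) hF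
    choose R hR hRe using fun j => exists_expand hl hA (b := b) (f := b i * g j)
      (hbs.symm ▸ h.mulB _ (hbB i) _ (hg j))
    refine ⟨fun q => R (e.symm q.2) q.1, fun q => hR _ _, fun x y => ?_⟩
    rw [eg, Finset.mul_sum, Fintype.sum_prod_type_right, ← e.sum_comp]
    refine Finset.sum_congr rfl fun j _ => ?_
    simp only [Equiv.symm_apply_apply, Function.comp_apply]
    rw [← mul_assoc, show b i x * g j x = (b i * g j) x from rfl, hRe, Finset.sum_mul]
    exact Finset.sum_congr rfl fun a _ => by ring
  have le1 : A.valuation W1.det ≤ A.valuation W2.det := by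
    choose R hR hRe using fun i : M × M => key k H hks i.1 _ (h.translate _ (hbB i.2))
    refine valuation_det_le W1 W2 R hR fun i p => ?_
    rw [hW1a]
    exact hRe i p.1 p.2
  have le2 : A.valuation W2.det ≤ A.valuation W1.det := by
    choose R hR hRe using fun i : M × M => key b B hbs i.1 _ (h.difference _ (hkH i.2))
    refine valuation_det_le W2 W1 R hR fun i p => ?_
    rw [hW2a]
    have := hRe i p.1 (p.1 + p.2)
    simp only [add_sub_cancel_left] at this
    exact this
  have e := le_antisymm le1 le2
  rw [hW1, hW2, Matrix.det_permute', map_mul, valuation_sign, one_mul, Matrix.det_kronecker,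
    Matrix.det_kronecker, map_mul, map_mul, map_pow, map_pow] at e
  have hne : A.valuation (Matrix.of b).det ^ Fintype.card M ≠ 0 :=
    pow_ne_zero _ ((Valuation.ne_zero_iff _).2 (det_ne_zero_of_linearIndependent hb))
  exact (pow_left_inj₀ zero_le zero_le Fintype.card_ne_zero).1 (mul_left_cancel₀ hne e)

omit [DistribMulAction GQ M] [DecidableEq M] in
/-- Coefficient of a two variable expansion. -/
theorem coeff_ext₂ {k : M → M → QBar} (hk : LinearIndependent QBar k) {a a' : M → M → QBar}
    (e : ∀ x y, ∑ i, ∑ j, a i j * (k i x * k j y) = ∑ i, ∑ j, a' i j * (k i x * k j y)) :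
    a = a' := by
  have h0 : ∀ u u' : M → QBar, (∀ y, ∑ j, u j * k j y = ∑ j, u' j * k j y) → u = u' := by
    intro u u' h
    funext j
    refine sub_eq_zero.mp (Fintype.linearIndependent_iff.mp hk (fun i => u i - u' i) ?_ j)
    funext y
    simp [sub_mul, Finset.sum_sub_distrib, h y]
  funext i
  refine h0 _ _ fun y => ?_
  refine congrFun (h0 (fun i => ∑ j, a i j * k j y) (fun i => ∑ j, a' i j * k j y) fun x => ?_) i
  simp only [Finset.sum_mul]
  refine Eq.trans (Eq.trans ?_ (e x y)) ?_ <;>
    exact Finset.sum_congr rfl fun i _ => Finset.sum_congr rfl fun j _ => by ring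

/-- Characters expand with integral coefficients. -/
theorem IsFlatPair.char_expand (hl : l.Prime) (hA : A.LiesOverPrime l) {c : GQ → M}
    {B H : Submodule (Zloc l) (M → QBar)} (h : IsFlatPair c B H) {k : M → M → QBar}
    (hk : LinearIndependent QBar k) (hks : Submodule.span (Zloc l) (Set.range k) = H)
    (ψ : M → QBar) (hψ : ∀ x y, ψ (x + y) = ψ x * ψ y) :
    ∃ a : M → QBar, (∀ j, a j ∈ A) ∧ ∀ x, ψ x = ∑ j, a j * k j x := by
  have htop : ψ ∈ Submodule.span QBar (Set.range k) := by
    rw [hk.span_eq_top_of_card_eq_finrank' (by rw [Module.finrank_pi])]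
    exact Submodule.mem_top
  rw [Submodule.mem_span_range_iff_exists_fun] at htop
  obtain ⟨a, ha⟩ := htop
  have hψa : ∀ x, ψ x = ∑ j, a j * k j x := fun x => by
    rw [← ha]; simp [Finset.sum_apply]
  refine ⟨a, fun j => mem_of_isIntegral hl hA ?_, hψa⟩
  let e := (Fintype.equivFin M).symm
  have hadd : ∀ j, ∃ r : M → M → Zloc l,
      ∀ x y, k j (x + y) = ∑ i, ∑ i', ((r i i' : ℚ) : QBar) * (k i x * k i' y) := by
    intro j
    have hkj : k j ∈ H := hks ▸ Submodule.subset_span ⟨j, rfl⟩
    obtain ⟨g, hg, eg⟩ := exists_coeff (h := k ∘ e)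
      (by rw [Set.range_comp, e.range_eq_univ, Set.image_univ, hks]) (h.addition _ hkj)
    have hg' : ∀ t, ∃ r : M → Zloc l, ∑ i, r i • k i = g t := fun t => by
      rw [← Submodule.mem_span_range_iff_exists_fun, hks]; exact hg t
    choose r hr using hg'
    refine ⟨fun i i' => r (e.symm i') i, fun x y => ?_⟩
    have hxy : k j (x + y) = ∑ t, g t x * (k ∘ e) t y := eg x y
    rw [hxy, Finset.sum_comm, ← e.sum_comp]
    refine Finset.sum_congr rfl fun t _ => ?_
    rw [← hr t, Finset.sum_apply, Finset.sum_mul]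
    simp only [Equiv.symm_apply_apply, Function.comp_apply, Zloc_smul_def, mul_assoc]
  choose r hr using hadd
  have hcl : ∀ i i', a i * a i' = ∑ j, ((r j i i' : ℚ) : QBar) * a j := by
    intro i i'
    refine congrFun (congrFun (coeff_ext₂ hk (a := fun i i' => a i * a i')
      (a' := fun i i' => ∑ j, ((r j i i' : ℚ) : QBar) * a j) fun x y => ?_) i) i'
    calc ∑ i, ∑ i', a i * a i' * (k i x * k i' y) = ψ x * ψ y := by
          rw [hψa x, hψa y, Finset.sum_mul_sum]
          exact Finset.sum_congr rfl fun i _ => Finset.sum_congr rfl fun i' _ => by ring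
      _ = ∑ j, a j * k j (x + y) := by rw [← hψ, hψa]
      _ = _ := by
          simp only [hr, Finset.mul_sum, Finset.sum_mul]
          rw [Finset.sum_comm]
          refine Finset.sum_congr rfl fun i _ => ?_
          rw [Finset.sum_comm]
          exact Finset.sum_congr rfl fun i' _ => Finset.sum_congr rfl fun j _ => by ring
  rcases eq_or_ne (a j) 0 with h0 | h0
  · rw [h0]; exact isIntegral_zero
  refine isIntegral_of_smul_mem_submodule (Submodule.span (Zloc l) (Set.range a)) ?_
    (Submodule.fg_span (Set.finite_range a)) (a j) ?_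
  · exact fun e0 => h0 (by
      simpa [e0] using (Submodule.subset_span ⟨j, rfl⟩ :
        a j ∈ Submodule.span (Zloc l) (Set.range a)))
  · intro n hn
    induction hn using Submodule.span_induction with
    | mem n hn =>
      obtain ⟨i, rfl⟩ := hn
      rw [smul_eq_mul, hcl]
      refine Submodule.sum_mem _ fun t _ => ?_
      rw [← Zloc_smul_scalar]
      exact Submodule.smul_mem _ _ (Submodule.subset_span ⟨t, rfl⟩)
    | zero => rw [smul_zero]; exact Submodule.zero_mem _
    | add x y _ _ hx hy => rw [smul_add]; exact Submodule.add_mem _ hx hy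
    | smul s x _ hx => rw [smul_comm]; exact Submodule.smul_mem _ s hx

omit [DistribMulAction GQ M] in
/-- The square of the determinant of the character table. -/
theorem valuation_det_charMatrix [Fact l.Prime] (e : ZMod l ≃+ M) {ζ : QBar}
    (hζ : IsPrimitiveRoot ζ l) :
    A.valuation (Matrix.of fun i m : M => AddChar.zmodChar l
      ((IsPrimitiveRoot.iff_def ζ l).mp hζ).left (e.symm i * e.symm m)).det ^ 2 =
      A.valuation (l : QBar) ^ l := by
  set ψ := AddChar.zmodChar l ((IsPrimitiveRoot.iff_def ζ l).mp hζ).left with hψdef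
  have hprim : ψ.IsPrimitive := AddChar.zmodChar_primitive_of_primitive_root l hζ
  let Ψ : Matrix M M QBar := Matrix.of fun i m => ψ (e.symm i * e.symm m)
  show A.valuation Ψ.det ^ 2 = _
  have hsq : Ψ * Ψ =
      (Matrix.diagonal fun _ => (l : QBar)).submatrix id (Equiv.neg M) := by
    ext i m
    rw [Matrix.mul_apply, Matrix.submatrix_apply, id, Matrix.diagonal_apply]
    simp only [Ψ, Matrix.of_apply, ← AddChar.map_add_eq_mul]
    have hcomm : ∀ x, e.symm i * e.symm x + e.symm x * e.symm m =
        e.symm x * (e.symm i + e.symm m) := fun x => by ring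
    simp only [hcomm]
    have hs : ∑ x, ψ (e.symm x * (e.symm i + e.symm m)) =
        ∑ z, ψ (z * (e.symm i + e.symm m)) :=
      Fintype.sum_equiv e.symm.toEquiv _ _ fun x => rfl
    rw [hs, AddChar.sum_mulShift _ hprim, ← map_add, ZMod.card]
    simp [← eq_neg_iff_add_eq_zero, ← map_neg]
  rw [← map_pow, ← map_pow, pow_two, ← Matrix.det_mul, hsq, Matrix.det_permute', map_mul,
    valuation_sign, one_mul, Matrix.det_diagonal, Finset.prod_const, Finset.card_univ,
    ← Fintype.card_congr e.toEquiv, ZMod.card]

omit [DecidableEq M] in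
/-- The discriminant bound. -/
theorem IsFlatPair.disc_bound [DecidableEq M] [Fact l.Prime] (hA : A.LiesOverPrime l)
    (e : ZMod l ≃+ M) {c : GQ → M} {B H : Submodule (Zloc l) (M → QBar)} (h : IsFlatPair c B H)
    {b : M → M → QBar} (hb : LinearIndependent QBar b)
    (hbs : Submodule.span (Zloc l) (Set.range b) = B) :
    A.valuation (l : QBar) ^ l ≤ A.valuation (Matrix.of b).det ^ 2 := by
  have hl : l.Prime := Fact.out
  obtain ⟨k, hk, hks⟩ :=
    exists_lattice_basis (fun (σ : GQ) (m : M) => σ • m) H h.fgH h.equivH h.spanH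
  rw [h.valuation_det_eq hl hA hb hbs hks]
  haveI : NeZero (l : QBar) := ⟨Nat.cast_ne_zero.2 hl.ne_zero⟩
  obtain ⟨ζ, hζ⟩ := HasEnoughRootsOfUnity.prim (M := QBar) (n := l)
  set ψ := AddChar.zmodChar l ((IsPrimitiveRoot.iff_def ζ l).mp hζ).left with hψdef
  have hprim : ψ.IsPrimitive := AddChar.zmodChar_primitive_of_primitive_root l hζ
  let Ψ : Matrix M M QBar := fun i m => ψ (e.symm i * e.symm m)
  choose R hR hRe using fun i : M => h.char_expand hl hA hk hks (Ψ i) fun x y => by
    simp only [Ψ, map_add, mul_add, AddChar.map_add_eq_mul]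
  have hle : A.valuation Ψ.det ≤ A.valuation (Matrix.of k).det :=
    valuation_det_le Ψ (Matrix.of k) R hR hRe
  exact (valuation_det_charMatrix e hζ).symm.trans_le (pow_le_pow_left₀ zero_le hle 2)

end FLTAgent.Eisen
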