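import Fermat.Agent.Eisen.FlatCurve
import Fermat.Agent.Eisen.Assembly

/-!
# Flatness of the torsion torsors of `J₀(N)` from good reduction at `l`
-/

set_option autoImplicit false
set_option linter.style.haveILetI false
set_option synthInstance.maxHeartbeats 400000

noncomputable section

namespace FLTAgent.Eisen

open AlgebraicCurve ModularCurve FLTAgent.FlatModel FLTAgent.FunctionField

/-- A curve datum with good reduction at some place above `l`. -/
def HasGoodDatum (F₀ : IntermediateField ℚ (LaurentSeries ℚ)) (l : ℕ) : Prop :=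
  ∃ (A : ValuationSubring (AlgebraicClosure ℚ)) (_ : A.LiesOverPrime l)
    (Fb : IntermediateField (IsLocalRing.ResidueField A)
      (LaurentSeries (IsLocalRing.ResidueField A)))
    (_ : IsFunctionField (AlgebraicClosure ℚ) ↥(FBar F₀))
    (_ : IsFunctionField (IsLocalRing.ResidueField A) ↥Fb)
    (_ : IsAlgClosed (IsLocalRing.ResidueField A)), Nonempty (CurveDatum F₀ A Fb)

theorem flatTorsion_of_goodDatum (N : ℕ) [NeZero N] (l : ℕ) [Fact l.Prime]
    (h : HasGoodDatum (modularFunctionFieldFull N) l) : FlatTorsion N l := by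
  obtain ⟨A, hA, Fb, _, _, _, ⟨C⟩⟩ := h
  intro r x hx
  letI := subAction (torL (EisRing N) (JZero N) l r) (torL_stable l r)
  haveI : Finite (torL (EisRing N) (JZero N) l r) :=
    (JTors.finite_jZero_torsion N (pow_ne_zero r (Fact.out : l.Prime).ne_zero)).to_subtype
  haveI := Hecke.hasPrincipalDivisors_level (AlgebraicClosure ℚ) N
  exact isFlatTorsor_of_curveDatum C hA
    (torL (EisRing N) (JZero N) l r).subtype.toAddMonoidHom Subtype.val_injective
    (fun _ _ => rfl) (fun y => GalRep.isFiniteLevel_jZero N y) x _ fun _ => rfl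

end FLTAgent.Eisen
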