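import Fermat.Prelude.Def_GaloisRep_Flat
import Mathlib.Algebra.Algebra.Rat
import Mathlib.RingTheory.Finiteness.Basic
import Mathlib.RingTheory.IntegralClosure.IsIntegral.Basic
import Mathlib.FieldTheory.IsAlgClosed.AlgebraicClosure

/-!
Finite flat models over `ℤ_(l)` of a finite Galois module `M` together with a torsor (given by a
cocycle `c`), in the elementary form of orders inside the rings of equivariant functions.
-/

set_option autoImplicit false

noncomputable section

namespace FLTAgent.Eisen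

/-- The absolute Galois group of `ℚ`. -/
abbrev GQ : Type := AlgebraicClosure ℚ ≃ₐ[ℚ] AlgebraicClosure ℚ

/-- The algebraic closure of `ℚ`. -/
abbrev QBar : Type := AlgebraicClosure ℚ

/-- `ℤ_(l)`. -/
abbrev Zloc (l : ℕ) : Subring ℚ := GaloisRep.ratLocalizedAt l

section Defs

variable {l : ℕ} {X Y : Type*}

/-- The functions `(x, y) ↦ Σ bᵢ(x) hᵢ(y)` with `bᵢ ∈ B`, `hᵢ ∈ H`. -/
def boxProd (B : Submodule (Zloc l) (X → QBar)) (H : Submodule (Zloc l) (Y → QBar)) :
    Submodule (Zloc l) (X × Y → QBar) :=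
  Submodule.span (Zloc l)
    (Set.image2 (fun b h (p : X × Y) => b p.1 * h p.2) (B : Set (X → QBar)) (H : Set (Y → QBar)))

theorem mul_mem_boxProd {B : Submodule (Zloc l) (X → QBar)} {H : Submodule (Zloc l) (Y → QBar)}
    {b : X → QBar} {h : Y → QBar} (hb : b ∈ B) (hh : h ∈ H) :
    (fun p : X × Y => b p.1 * h p.2) ∈ boxProd B H :=
  Submodule.subset_span ⟨b, hb, h, hh, rfl⟩

variable {M : Type*} [AddCommGroup M] [DistribMulAction GQ M]

/-- `B` is an order in the algebra of the torsor of `c`, `H` one in that of `M`, compatibly with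
translation, difference and addition. -/
structure IsFlatPair (c : GQ → M) (B H : Submodule (Zloc l) (M → QBar)) : Prop where
  fgB : B.FG
  fgH : H.FG
  mulB : ∀ f ∈ B, ∀ g ∈ B, f * g ∈ B
  mulH : ∀ f ∈ H, ∀ g ∈ H, f * g ∈ H
  equivB : ∀ f ∈ B, ∀ (σ : GQ) (m : M), f (σ • m + c σ) = σ (f m)
  equivH : ∀ f ∈ H, ∀ (σ : GQ) (m : M), f (σ • m) = σ (f m)
  spanB : Submodule.span QBar (B : Set (M → QBar)) = ⊤
  spanH : Submodule.span QBar (H : Set (M → QBar)) = ⊤
  translate : ∀ f ∈ B, (fun p : M × M => f (p.1 + p.2)) ∈ boxProd B H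
  difference : ∀ h ∈ H, (fun p : M × M => h (p.2 - p.1)) ∈ boxProd B B
  addition : ∀ h ∈ H, (fun p : M × M => h (p.1 + p.2)) ∈ boxProd H H

/-- The torsor of the cocycle `c` on the Galois module `M` is finite flat at `l`. -/
def IsFlatTorsor (l : ℕ) (c : GQ → M) : Prop :=
  ∃ B H : Submodule (Zloc l) (M → QBar), IsFlatPair c B H

end Defs

end FLTAgent.Eisen
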