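import Fermat.Agent.Eisen.Divisible
import Fermat.Agent.Eisen.FlatJZero
import Fermat.Agent.FlatModel.X0AllPrimes

/-!
# Flat torsors of `J₀(N)` at every prime not dividing `N`
-/

set_option autoImplicit false
set_option linter.style.haveILetI false
set_option synthInstance.maxHeartbeats 400000

noncomputable section

namespace FLTAgent.Eisen

open AlgebraicCurve ModularCurve FLTAgent.FunctionField

theorem hasGoodDatum_of_not_dvd (N : ℕ) [NeZero N] {l : ℕ} [Fact l.Prime] (h : ¬ l ∣ N) :
    HasGoodDatum (modularFunctionFieldFull N) l := by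
  obtain ⟨A, hA⟩ := GalChar.exists_valuationSubring_liesOverPrime (Fact.out : l.Prime)
  haveI := GoodRed.isFunctionField_fullC A hA N h
  haveI : IsFunctionField (AlgebraicClosure ℚ) ↥(FlatModel.FBar (modularFunctionFieldFull N)) :=
    GoodRed.isFunctionField_bar A hA N h
  haveI := GoodRed.isAlgClosed_residue A
  exact ⟨A, hA, _, inferInstance, inferInstance, inferInstance,
    FlatModel.exists_x0CurveDatum_of_not_dvd A hA N h⟩

theorem flatTorsion_of_not_dvd (N : ℕ) [NeZero N] {l : ℕ} [Fact l.Prime] (h : ¬ l ∣ N) :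
    FlatTorsion N l :=
  flatTorsion_of_goodDatum N l (hasGoodDatum_of_not_dvd N h)

/-- The shape of S17 as used by the descent. -/
theorem fixedFG_of_fixedPoints (N : ℕ) [NeZero N]
    (h : AddGroup.FG ↥(FixedPoints.addSubgroup GQ (JZero N))) : FixedFG N :=
  (AddGroup.fg_iff_addSubgroup_fg _).1 h

end FLTAgent.Eisen

namespace FLTAgent.Eisen

open ModularCurve

variable {p : ℕ} [NeZero p] [Fact p.Prime]

/-- The endomorphism of the third step from its remaining inputs. -/
theorem eisensteinEndExists_of_fixedPoints (hp : 5 ≤ p)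
    (hp' : p ∉ ({2, 3, 5, 7, 13} : Finset ℕ)) (hspec : GalRep.SpecializationsExist)
    (hstab : ReductionHeckeStable p)
    (hfg : AddGroup.FG ↥(FixedPoints.addSubgroup GQ (JZero p)))
    (hunip : ∀ l : ℕ, l.Prime → l ≠ p → l ∣ Mazur.half p → ∃ A₀ : ValuationSubring QBar,
      A₀.LiesOverPrime p ∧ UnipRoots p l A₀) :
    Mazur.EisensteinEndExists p hp :=
  eisensteinEndExists hp hp' hspec hstab (fixedFG_of_fixedPoints p hfg)
    (fun l hl hlp _ =>
      haveI : Fact l.Prime := ⟨hl⟩
      flatTorsion_of_not_dvd p fun h => hlp ((Nat.prime_dvd_prime_iff_eq hl Fact.out).1 h))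
    (fun l hl _ => divisibleByPrime p l hl) hunip

end FLTAgent.Eisen
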