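import Fermat.Agent.Hecke.Final
import Fermat.Agent.Hecke.Inputs
import Fermat.Agent.Eisen.Descent

/-!
# The Hecke operators of index prime to the level, and the Eisenstein ideal
-/

set_option autoImplicit false
set_option linter.style.haveILetI false

noncomputable section

namespace FLTAgent.Eisen

open AlgebraicCurve ModularCurve

/-- The indices of the good Hecke operators. -/
abbrev GoodPrimes (N : ℕ) : Type := {q : Nat.Primes // ¬ (q : ℕ) ∣ N}

/-- Polynomials in the good Hecke operators. -/
abbrev EisRing (N : ℕ) : Type := MvPolynomial (GoodPrimes N) ℤ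

/-- The good operators inside the polynomial Hecke algebra. -/
def eisEmb (N : ℕ) : EisRing N →+* HeckeAlg :=
  (MvPolynomial.rename (Subtype.val : GoodPrimes N → Nat.Primes)).toRingHom

theorem eisEmb_X {N : ℕ} (q : GoodPrimes N) : eisEmb N (MvPolynomial.X q) = heckeGen q.1 :=
  MvPolynomial.rename_X _ q

variable {N : ℕ} [NeZero N]

variable (N) in
/-- The action of the good operators on `JZero N`. -/
def eisEval : EisRing N →+* Module.End ℤ (JZero N) :=
  (heckeEvalBar (Hecke.heckeOperatorsCommuteBar N)).comp (eisEmb N)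

instance eisModule : Module (EisRing N) (JZero N) := Module.compHom (JZero N) (eisEval N)

theorem eis_smul_def (t : EisRing N) (x : JZero N) : t • x = eisEval N t x := rfl

theorem eis_smul_eq_heckeAlg (t : EisRing N) (x : JZero N) :
    t • x = (letI := heckeModuleBar N; eisEmb N t • x) := by
  rw [eis_smul_def, heckeModuleBar_smul_def (Hecke.heckeOperatorsCommuteBar N)]
  rfl

theorem X_eis_smul (q : GoodPrimes N) (x : JZero N) :
    (MvPolynomial.X q : EisRing N) • x = heckeOperatorBar N q.1 x := by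
  rw [eis_smul_def, eisEval, RingHom.comp_apply, eisEmb_X, heckeEvalBar_heckeGen]

theorem C_eis_smul (a : ℤ) (x : JZero N) : (MvPolynomial.C a : EisRing N) • x = a • x := by
  rw [← MvPolynomial.algebraMap_eq, eq_intCast, Int.cast_smul_eq_zsmul]

instance eisSMulComm : SMulCommClass GQ (EisRing N) (JZero N) where
  smul_comm σ t x := by
    rw [eis_smul_eq_heckeAlg, eis_smul_eq_heckeAlg]
    letI := heckeModuleBar N
    haveI := Hecke.smulCommClass_heckeModuleBar N
    exact smul_comm σ (eisEmb N t) x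

/-- `T q ↦ 1 + q`. -/
def eisChar (N : ℕ) : EisRing N →+* ℤ :=
  (MvPolynomial.aeval fun q : GoodPrimes N => (1 + (q.1 : ℕ) : ℤ)).toRingHom

omit [NeZero N] in
@[simp]
theorem eisChar_X (q : GoodPrimes N) : eisChar N (MvPolynomial.X q) = 1 + (q.1 : ℕ) :=
  MvPolynomial.aeval_X _ q

/-- The Eisenstein prime above `l`. -/
def eisIdeal (N l : ℕ) : Ideal (EisRing N) :=
  RingHom.ker ((Int.castRingHom (ZMod l)).comp (eisChar N))

omit [NeZero N] in
theorem mem_eisIdeal {l : ℕ} {t : EisRing N} : t ∈ eisIdeal N l ↔ (l : ℤ) ∣ eisChar N t := by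
  rw [eisIdeal, RingHom.mem_ker, RingHom.comp_apply]
  exact ZMod.intCast_zmod_eq_zero_iff_dvd _ _

omit [NeZero N] in
theorem eisIdeal_isMaximal (l : ℕ) [Fact l.Prime] : (eisIdeal N l).IsMaximal :=
  RingHom.ker_isMaximal_of_surjective _ fun z => by
    obtain ⟨a, rfl⟩ := ZMod.intCast_surjective z
    exact ⟨(a : EisRing N), by simp⟩

omit [NeZero N] in
theorem natCast_mem_eisIdeal (l : ℕ) : (l : EisRing N) ∈ eisIdeal N l := by
  rw [mem_eisIdeal, map_natCast]

omit [NeZero N] in
theorem exists_int_sub_mem_eisIdeal (l : ℕ) (t : EisRing N) :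
    ∃ z : ℤ, t - (z : EisRing N) ∈ eisIdeal N l :=
  ⟨eisChar N t, by rw [mem_eisIdeal, map_sub, map_intCast]; simp⟩

end FLTAgent.Eisen
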