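import Fermat.Agent.Eisen.FlatBasis
import Mathlib.RingTheory.IntegralClosure.Algebra.Basic
import Mathlib.RingTheory.IntegralClosure.IntegrallyClosed
import Mathlib.RingTheory.Localization.FractionRing
import Mathlib.RingTheory.UniqueFactorizationDomain.GCDMonoid
import Mathlib.RingTheory.PrincipalIdealDomain

/-!
Generalities on lattices of functions: normal form of `boxProd`, descent along surjections,
integrality of values.
-/

set_option autoImplicit false
set_option linter.style.haveILetI false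

noncomputable section

namespace FLTAgent.Eisen

section Ring

variable {l : ℕ}

instance isFractionRing_Zloc : IsFractionRing (Zloc l) ℚ :=
  IsFractionRing.of_field (Zloc l) ℚ fun z =>
    ⟨(z.num : Zloc l), (z.den : Zloc l), by
      rw [map_intCast, map_natCast, Rat.num_div_den]⟩

/-- A rational number integral over `ℤ_(l)` inside the algebraic closure lies in `ℤ_(l)`. -/
theorem rat_mem_of_isIntegral {r : ℚ} (h : IsIntegral (Zloc l) (r : QBar)) : r ∈ Zloc l := by
  have h' : IsIntegral (Zloc l) r :=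
    (isIntegral_algebraMap_iff (A := ℚ) (algebraMap ℚ QBar).injective).mp
      (by rwa [eq_ratCast (algebraMap ℚ QBar) r])
  obtain ⟨x, hx⟩ := IsIntegrallyClosed.isIntegral_iff.mp h'
  rw [← hx]
  exact x.2

/-- Values of a function in a finitely generated lattice closed under products are integral. -/
theorem isIntegral_apply {X : Type*} {H : Submodule (Zloc l) (X → QBar)} (hfg : H.FG)
    (hmul : ∀ f ∈ H, ∀ g ∈ H, f * g ∈ H) {h : X → QBar} (hh : h ∈ H) (x : X) :
    IsIntegral (Zloc l) (h x) := by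
  rcases eq_or_ne (h x) 0 with h0 | h0
  · rw [h0]; exact isIntegral_zero
  let ev : (X → QBar) →ₗ[Zloc l] QBar := LinearMap.proj x
  refine isIntegral_of_smul_mem_submodule (H.map ev) ?_ (hfg.map ev) (h x) ?_
  · exact fun e => h0 (by simpa [e, ev] using Submodule.mem_map_of_mem (f := ev) hh)
  · rintro n ⟨f, hf, rfl⟩
    exact ⟨h * f, hmul h hh f hf, rfl⟩

end Ring

variable {l : ℕ}

/-- A finite family that is independent over the algebraic closure and spans a lattice. -/
def HasBasis {X : Type*} (B : Submodule (Zloc l) (X → QBar)) : Prop :=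
  ∃ (n : ℕ) (b : Fin n → X → QBar), LinearIndependent QBar b ∧
    Submodule.span (Zloc l) (Set.range b) = B

theorem hasBasis_of {M : Type*} [Fintype M] (act : GQ → M → M)
    (B : Submodule (Zloc l) (M → QBar)) (hfg : B.FG)
    (hequiv : ∀ f ∈ B, ∀ σ m, f (act σ m) = σ (f m))
    (hspan : Submodule.span QBar (B : Set (M → QBar)) = ⊤) : HasBasis B := by
  obtain ⟨b, hli, hb⟩ := exists_lattice_basis act B hfg hequiv hspan
  refine ⟨Fintype.card M, b ∘ (Fintype.equivFin M).symm, hli.comp _ (Equiv.injective _), ?_⟩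
  rw [Set.range_comp, Equiv.range_eq_univ, Set.image_univ, hb]

variable {X Y : Type*}

/-- Normal form of an element of `boxProd`. -/
theorem exists_coeff {B : Submodule (Zloc l) (X → QBar)} {H : Submodule (Zloc l) (Y → QBar)}
    {n : ℕ} {h : Fin n → Y → QBar} (hh : Submodule.span (Zloc l) (Set.range h) = H)
    {F : X × Y → QBar} (hF : F ∈ boxProd B H) :
    ∃ g : Fin n → X → QBar, (∀ j, g j ∈ B) ∧ ∀ x y, F (x, y) = ∑ j, g j x * h j y := by
  induction hF using Submodule.span_induction with
  | mem F hF =>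
    obtain ⟨b, hb, k, hk, rfl⟩ := hF
    rw [SetLike.mem_coe, ← hh, Submodule.mem_span_range_iff_exists_fun] at hk
    obtain ⟨c, rfl⟩ := hk
    refine ⟨fun j => c j • b, fun j => B.smul_mem _ hb, fun x y => ?_⟩
    simp only [Finset.sum_apply, Finset.mul_sum, Zloc_smul_def]
    exact Finset.sum_congr rfl fun j _ => by ring
  | zero => exact ⟨0, fun _ => B.zero_mem, fun x y => by simp⟩
  | add F G _ _ h1 h2 =>
    obtain ⟨g1, hg1, e1⟩ := h1
    obtain ⟨g2, hg2, e2⟩ := h2
    refine ⟨g1 + g2, fun j => B.add_mem (hg1 j) (hg2 j), fun x y => ?_⟩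
    simp [e1, e2, add_mul, Finset.sum_add_distrib]
  | smul r F _ h1 =>
    obtain ⟨g, hg, e⟩ := h1
    refine ⟨r • g, fun j => B.smul_mem r (hg j), fun x y => ?_⟩
    simp only [Zloc_smul_def, e, Finset.mul_sum]
    refine Finset.sum_congr rfl fun j _ => ?_
    show _ = (r • g j) x * h j y
    rw [Zloc_smul_def, mul_assoc]

theorem mem_boxProd_of_sum {B : Submodule (Zloc l) (X → QBar)}
    {H : Submodule (Zloc l) (Y → QBar)} {n : ℕ} {g : Fin n → X → QBar} {h : Fin n → Y → QBar}
    (hg : ∀ j, g j ∈ B) (hh : ∀ j, h j ∈ H) {F : X × Y → QBar}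
    (hF : ∀ x y, F (x, y) = ∑ j, g j x * h j y) : F ∈ boxProd B H := by
  have : F = ∑ j, fun p : X × Y => g j p.1 * h j p.2 := by
    funext p; rw [Finset.sum_apply]; exact hF p.1 p.2
  rw [this]
  exact Submodule.sum_mem _ fun j _ => mul_mem_boxProd (hg j) (hh j)

theorem HasBasis.coeff_ext {n : ℕ} {h : Fin n → Y → QBar} (hli : LinearIndependent QBar h)
    {a a' : Fin n → QBar} (e : ∀ y, ∑ j, a j * h j y = ∑ j, a' j * h j y) : a = a' := by
  funext j
  refine sub_eq_zero.mp (Fintype.linearIndependent_iff.mp hli (fun i => a i - a' i) ?_ j)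
  funext y
  simp [sub_mul, Finset.sum_sub_distrib, e y]

/-- Descent of `boxProd` along surjections. -/
theorem boxProd_descend {X' Y' : Type*} {π : X → X'} {ρ : Y → Y'} (hπ : Function.Surjective π)
    (hρ : Function.Surjective ρ) {B : Submodule (Zloc l) (X → QBar)}
    {H : Submodule (Zloc l) (Y → QBar)} {B' : Submodule (Zloc l) (X' → QBar)}
    {H' : Submodule (Zloc l) (Y' → QBar)} (hB : ∀ f, f ∈ B' ↔ f ∘ π ∈ B)
    (hH : ∀ f, f ∈ H' ↔ f ∘ ρ ∈ H) (hHb : HasBasis H) (hBb : HasBasis B')
    {F : X' × Y' → QBar} (hF : (fun p : X × Y => F (π p.1, ρ p.2)) ∈ boxProd B H) :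
    F ∈ boxProd B' H' := by
  obtain ⟨n, h, hli, hspan⟩ := hHb
  obtain ⟨g, hg, eg⟩ := exists_coeff hspan hF
  have hconst : ∀ x₁ x₂, π x₁ = π x₂ → ∀ j, g j x₁ = g j x₂ := fun x₁ x₂ e j =>
    congrFun (HasBasis.coeff_ext hli (a := fun i => g i x₁) (a' := fun i => g i x₂)
      fun y => by rw [← eg, ← eg, e]) j
  obtain ⟨sec, hsec⟩ := hπ.hasRightInverse
  have hg' : ∀ j, (fun x' => g j (sec x')) ∈ B' := fun j => by
    rw [hB, show (fun x' => g j (sec x')) ∘ π = g j from
      funext fun x => hconst _ _ (hsec (π x)) j]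
    exact hg j
  obtain ⟨m, e, heli, hespan⟩ := hBb
  have hr : ∀ j, ∃ r : Fin m → Zloc l, ∑ k, r k • e k = fun x' => g j (sec x') := fun j => by
    have := hg' j
    rwa [← hespan, Submodule.mem_span_range_iff_exists_fun] at this
  choose r hr using hr
  let w : Fin m → Y → QBar := fun k => ∑ j, r j k • h j
  have hw : ∀ k, w k ∈ H := fun k =>
    Submodule.sum_mem _ fun j _ => H.smul_mem _ (hspan ▸ Submodule.subset_span ⟨j, rfl⟩)
  have key : ∀ x' y, F (x', ρ y) = ∑ k, w k y * e k x' := by
    intro x' y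
    calc F (x', ρ y) = F (π (sec x'), ρ y) := by rw [hsec x']
      _ = ∑ j, g j (sec x') * h j y := eg _ y
      _ = ∑ j, ∑ k, ((r j k : ℚ) : QBar) * e k x' * h j y := by
          refine Finset.sum_congr rfl fun j _ => ?_
          rw [← congrFun (hr j) x', Finset.sum_apply, Finset.sum_mul]
          simp only [Zloc_smul_def]
      _ = ∑ k, w k y * e k x' := by
          rw [Finset.sum_comm]
          refine Finset.sum_congr rfl fun k _ => ?_
          simp only [w, Finset.sum_apply, Zloc_smul_def, Finset.sum_mul]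
          exact Finset.sum_congr rfl fun j _ => by ring
  have hwc : ∀ y₁ y₂, ρ y₁ = ρ y₂ → ∀ k, w k y₁ = w k y₂ := fun y₁ y₂ e' k =>
    congrFun (HasBasis.coeff_ext heli (a := fun i => w i y₁) (a' := fun i => w i y₂)
      fun x' => by rw [← key, ← key, e']) k
  obtain ⟨sec', hsec'⟩ := hρ.hasRightInverse
  refine mem_boxProd_of_sum (g := e) (h := fun k y' => w k (sec' y'))
    (fun k => hespan ▸ Submodule.subset_span ⟨k, rfl⟩) (fun k => ?_) fun x' y' => ?_
  · rw [hH, show (fun y' => w k (sec' y')) ∘ ρ = w k from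
      funext fun y => hwc _ _ (hsec' (ρ y)) k]
    exact hw k
  · rw [← hsec' y', key]
    exact Finset.sum_congr rfl fun k _ => by rw [hsec' y', mul_comm]

end FLTAgent.Eisen
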