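import Fermat.Agent.Eisen.UnipDescend
import Fermat.Agent.GoodRed.X0Good
import Fermat.Agent.LevelSq.Push

/-!
# Pullback along the degeneracy map and descent of `UnipRoots` to a lower level
-/

set_option autoImplicit false
set_option linter.style.haveILetI false

noncomputable section

namespace FLTAgent.Eisen

open AlgebraicCurve ModularCurve FLTAgent.FunctionField

theorem pushforwardAlong_pullbackAlong {K F F' : Type*} [Field K] [Field F] [Field F']
    [Algebra K F] [Algebra K F'] [HasPrincipalDivisors K F'] (φ : F →ₐ[K] F')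
    (hφ : φ.toRingHom.IsIntegral) (hFI : FundamentalIdentityAlong K φ hφ)
    (hdeg : ∀ v : Place K F, v.deg = 1) (hdeg' : ∀ w : Place K F', w.deg = 1) (D : Divisor K F) :
    Divisor.pushforwardAlong φ hφ (Divisor.pullbackAlong φ hφ D) = finrankAlong K φ • D := by
  letI := algebraAlong φ
  haveI := isScalarTower_along φ
  haveI := isIntegral_along φ hφ
  haveI : FundamentalIdentity K F F' := hFI
  show Divisor.pushforward F (Divisor.pullback F' D) = Module.finrank F F' • D
  induction D using Finsupp.induction with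
  | zero => simp
  | single_add v n D _ _ ih =>
    rw [map_add, map_add, ih, nsmul_add, Divisor.pullback_single, map_sum]
    congr 1
    have hw : ∀ w ∈ v.fiber F', Divisor.pushforward F
        (Finsupp.single w (n * (w.ramificationIndex F : ℤ))) =
          Finsupp.singleAddHom v (n * (w.ramificationIndex F : ℤ)) := fun w hw => by
      have h1 := w.deg_restrict_mul_inertiaDeg (F := F)
      rw [Place.mem_fiber.1 hw, hdeg, hdeg', one_mul] at h1
      rw [Divisor.pushforward_single, Place.mem_fiber.1 hw, h1, Nat.cast_one, mul_one]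
      rfl
    have h := FundamentalIdentity.sum_ramificationIndex_mul_deg (K := K) (F := F) (F' := F') v
    simp only [hdeg, hdeg', Nat.cast_one, mul_one] at h
    rw [Finset.sum_congr rfl hw, ← map_sum, ← Finset.mul_sum, h, Finsupp.smul_single,
      nsmul_eq_mul, mul_comm]
    rfl

local notation "Qbar" => AlgebraicClosure ℚ

variable {M L : ℕ} [NeZero M] [NeZero L] (d : ℕ) [NeZero d] (h : L * d ∣ M)

/-- Pullback of divisors of degree zero along `x(q) ↦ x(q^d)`. -/
def pullDegZero : Divisor.degZero (K := Qbar) (F := Hecke.MF Qbar L) →+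
    Divisor.degZero (K := Qbar) (F := Hecke.MF Qbar M) :=
  haveI := (Hecke.levelFacts Qbar).principal M
  ((Divisor.pullbackAlong (Hecke.degMap Qbar d h)
      ((Hecke.levelFacts Qbar).integral d h)).domRestrict
    (Divisor.degZero (K := Qbar) (F := Hecke.MF Qbar L))).codRestrict _
      fun D => Divisor.pullbackAlong_mem_degZero (Hecke.degMap Qbar d h)
        ((Hecke.levelFacts Qbar).integral d h) ((Hecke.levelFacts Qbar).fundamental L M d h _) D.2

/-- Pullback of divisor classes along `x(q) ↦ x(q^d)`. -/
def pullPic : JZero L →+ JZero M :=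
  QuotientAddGroup.map _ _ (pullDegZero d h) (by
    rintro ⟨D, hD0⟩ hD
    simp only [AddSubgroup.mem_addSubgroupOf, AddSubgroup.mem_comap] at hD ⊢
    haveI := (Hecke.levelFacts Qbar).principal M
    exact Divisor.isPrincipal_pullbackAlong (Hecke.degMap Qbar d h)
      ((Hecke.levelFacts Qbar).integral d h) hD)

theorem pullPic_mk (D : Divisor.degZero (K := Qbar) (F := Hecke.MF Qbar L)) :
    pullPic d h (Pic0.mk D) = Pic0.mk (pullDegZero d h D) :=
  rfl

theorem pullPic_smul (σ : GQ) (x : JZero L) : pullPic d h (σ • x) = σ • pullPic d h x := by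
  obtain ⟨D, rfl⟩ := Pic0.mk_surjective x
  rw [galois_smul_pic0_def, SemilinearAut.pic0_smul_mk, pullPic_mk, pullPic_mk,
    galois_smul_pic0_def, SemilinearAut.pic0_smul_mk]
  refine congrArg Pic0.mk (Subtype.ext ?_)
  haveI := (Hecke.levelFacts Qbar).principal M
  exact Hecke.pullbackAlong_smul (Hecke.degMap Qbar d h) ((Hecke.levelFacts Qbar).integral d h)
    (Hecke.intertwines_degMap d h σ) (D : Divisor Qbar (Hecke.MF Qbar L))

theorem pushPic_pullPic (x : JZero L) :
    LevelSq.pushPic d h (pullPic d h x) =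
      finrankAlong Qbar (Hecke.degMap Qbar d h) • x := by
  obtain ⟨D, rfl⟩ := Pic0.mk_surjective x
  rw [pullPic_mk, LevelSq.pushPic_mk,
    show finrankAlong Qbar (Hecke.degMap Qbar d h) • Pic0.mk D =
      Pic0.mk (finrankAlong Qbar (Hecke.degMap Qbar d h) • D) from
      (map_nsmul (QuotientAddGroup.mk' _) _ _).symm]
  refine congrArg Pic0.mk (Subtype.ext ?_)
  haveI := (Hecke.levelFacts Qbar).principal M
  haveI : IsFunctionField Qbar (Hecke.MF Qbar L) := GoodRed.instIsFunctionFieldBar L
  haveI : IsFunctionField Qbar (Hecke.MF Qbar M) := GoodRed.instIsFunctionFieldBar M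
  exact pushforwardAlong_pullbackAlong (Hecke.degMap Qbar d h)
    ((Hecke.levelFacts Qbar).integral d h) ((Hecke.levelFacts Qbar).fundamental L M d h _)
    (fun v => deg_eq_one v) (fun w => deg_eq_one w) _

/-- `UnipRoots` at a multiple of the level gives it at the level. -/
theorem unipRoots_of_dvd {N N' l : ℕ} [NeZero N] [NeZero N'] (hl : l.Prime) (h : N ∣ N')
    {A₀ : ValuationSubring QBar} (hdiv : DivisibleByPrime N l) (hu : UnipRoots N' l A₀) :
    UnipRoots N l A₀ := by
  have h1 : N * 1 ∣ N' := by rwa [mul_one]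
  refine unipRoots_of_hom hl (d := finrankAlong Qbar (Hecke.degMap Qbar 1 h1)) ?_ hdiv
    (pullPic 1 h1) (LevelSq.pushPic 1 h1) (pushPic_pullPic 1 h1) (pullPic_smul 1 h1) hu
  letI := algebraAlong (Hecke.degMap Qbar 1 h1)
  haveI : Module.Finite (Hecke.MF Qbar N) (Hecke.MF Qbar N') :=
    (Hecke.levelFacts Qbar).finite N N' 1 h1
  exact Module.finrank_pos.ne'

end FLTAgent.Eisen
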