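import Mathlib.Data.Nat.Factorization.Basic
import Mathlib.NumberTheory.Padics.PadicVal.Basic

/-!
A rational number all of whose valuations are divisible by `l` is plus or minus an `l`-th power.
-/

set_option autoImplicit false

namespace FLTAgent.Eisen

theorem nat_exists_pow {n l : ℕ} (hn : n ≠ 0)
    (h : ∀ p, p.Prime → l ∣ n.factorization p) : ∃ m : ℕ, n = m ^ l := by
  refine ⟨∏ p ∈ n.factorization.support, p ^ (n.factorization p / l), ?_⟩
  rw [← Finset.prod_pow]
  conv_lhs => rw [← Nat.prod_factorization_pow_eq_self hn, Finsupp.prod]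
  refine Finset.prod_congr rfl fun p hp => ?_
  rw [← pow_mul, Nat.div_mul_cancel (h p (Nat.prime_of_mem_primeFactors hp))]

theorem rat_exists_pow {r : ℚ} {l : ℕ} (hr : r ≠ 0)
    (h : ∀ p : ℕ, p.Prime → (l : ℤ) ∣ padicValRat p r) :
    ∃ (b : ℚ) (s : ℚ), (s = 1 ∨ s = -1) ∧ r = s * b ^ l := by
  have key : ∀ p, p.Prime → l ∣ r.num.natAbs.factorization p ∧ l ∣ r.den.factorization p := by
    intro p hp
    have hh := h p hp
    rw [padicValRat_def, padicValInt] at hh
    rw [Nat.factorization_def _ hp, Nat.factorization_def _ hp]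
    rcases Nat.eq_zero_or_pos (padicValNat p r.den) with h0 | h0
    · rw [h0] at hh ⊢
      simp only [Nat.cast_zero, sub_zero, Int.natCast_dvd_natCast] at hh
      exact ⟨hh, dvd_zero l⟩
    · have hd : p ∣ r.den := dvd_of_one_le_padicValNat h0
      have hn : padicValNat p r.num.natAbs = 0 :=
        padicValNat.eq_zero_of_not_dvd fun hd' =>
          hp.one_lt.ne' (Nat.eq_one_of_dvd_coprimes r.reduced hd' hd)
      rw [hn] at hh ⊢
      simp only [Nat.cast_zero, zero_sub, dvd_neg, Int.natCast_dvd_natCast] at hh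
      exact ⟨dvd_zero l, hh⟩
  obtain ⟨a, ha⟩ := nat_exists_pow (Int.natAbs_ne_zero.2 (Rat.num_ne_zero.2 hr))
    fun p hp => (key p hp).1
  obtain ⟨d, hd⟩ := nat_exists_pow r.den_nz fun p hp => (key p hp).2
  refine ⟨(a : ℚ) / d, if 0 ≤ r.num then 1 else -1, by split_ifs <;> simp, ?_⟩
  rw [div_pow, ← Nat.cast_pow, ← Nat.cast_pow, ← ha, ← hd, ← mul_div_assoc]
  conv_lhs => rw [← r.num_div_den]
  congr 1
  rw [Nat.cast_natAbs]
  split_ifs with hs
  · rw [abs_of_nonneg hs, one_mul]
  · rw [abs_of_neg (not_le.1 hs), neg_one_mul, Int.cast_neg, neg_neg]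

end FLTAgent.Eisen
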