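import Fermat.Agent.Char.Unramified
import Fermat.Agent.Frobenius.Places
import Mathlib.FieldTheory.Normal.Closure
import Mathlib.RingTheory.DedekindDomain.Ideal.Lemmas
import Mathlib.RingTheory.Filtration
import Mathlib.RingTheory.RamificationInertia.Ramification

/-!
An algebraic number fixed by all inertia groups over `q` has, at each place over `q`, the
valuation of a power of `q`.
-/

set_option autoImplicit false
set_option linter.style.haveILetI false

namespace FLTAgent.Eisen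

open scoped NumberField Pointwise

local notation "ℚbar" => AlgebraicClosure ℚ

/-- In a finite Galois extension in which all inertia at `A` is trivial, valuations at `A` are
powers of the valuation of `q`. -/
theorem valuation_eq_zpow_of_inertia_le (K : IntermediateField ℚ ℚbar) [FiniteDimensional ℚ K]
    [IsGalois ℚ K] {q : ℕ} (hq : q.Prime) {A : ValuationSubring ℚbar} (hA : A.LiesOverPrime q)
    (hI : A.inertiaSubgroupIn ℚ ≤ K.fixingSubgroup) {x : ℚbar} (hx : x ∈ K) (hx0 : x ≠ 0) :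
    ∃ k : ℤ, A.valuation x = A.valuation (q : ℚbar) ^ k := by
  have : NumberField K := { to_finiteDimensional := inferInstance }
  have : IsAlgClosure ℚ ℚbar := ⟨inferInstance, AlgebraicClosure.isAlgebraic ℚ⟩
  have : Normal ℚ ℚbar := IsAlgClosure.normal ℚ ℚbar
  let ι : 𝓞 K →+* integralClosure ℤ ℚbar :=
    { toFun := fun x => ⟨((x : K) : ℚbar), (NumberField.RingOfIntegers.isIntegral_coe x).map
        (K.val.restrictScalars ℤ)⟩
      map_one' := rfl
      map_mul' := fun _ _ => rfl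
      map_zero' := rfl
      map_add' := fun _ _ => rfl }
  let P : Ideal (𝓞 K) := (GalChar.centreIdeal A).comap ι
  have hP : P.IsPrime := Ideal.comap_isPrime _ _
  have hqP : (q : 𝓞 K) ∈ P := by
    rw [Ideal.mem_comap, map_natCast, GalChar.mem_centreIdeal]
    exact (ValuationSubring.mem_nonunits_iff _).1 hA
  have hp0 : (Ideal.span {(q : ℤ)}).IsPrime :=
    (Ideal.span_singleton_prime (by exact_mod_cast hq.ne_zero)).2 (Nat.prime_iff_prime_int.1 hq)
  have hover : P.LiesOver (Ideal.span {(q : ℤ)}) := by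
    refine (Ideal.liesOver_span_iff hP.ne_top (Nat.prime_iff_prime_int.1 hq)).2 ?_
    rwa [map_natCast]
  let : MulSemiringAction Gal(K/ℚ) (𝓞 K) := IsIntegralClosure.MulSemiringAction ℤ ℚ K (𝓞 K)
  have := IsGaloisGroup.of_isFractionRing Gal(K/ℚ) ℤ (𝓞 K) ℚ K
  have hcard : Nat.card (P.inertia Gal(K/ℚ)) = 1 := by
    rw [Subgroup.card_eq_one]
    refine (Subgroup.eq_bot_iff_forall _).2 fun g hg => ?_
    obtain ⟨σ₀, hσ₀⟩ := AlgEquiv.restrictNormalHom_surjective (F := ℚ) (K₁ := K) ℚbar g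
    have hg' : ∀ x : K, σ₀ (x : ℚbar) = ((g x : K) : ℚbar) := fun x => by
      rw [← hσ₀]
      exact (AlgEquiv.restrictNormal_commutes σ₀ K x).symm
    obtain ⟨σ, hσ, hσK⟩ := GalChar.exists_mem_inertiaSubgroupIn_eq_on A K σ₀ fun x hx hxi => by
      have hxi' : IsIntegral ℤ (⟨x, hx⟩ : K) :=
        (isIntegral_algHom_iff (K.val.restrictScalars ℤ) Subtype.val_injective).1 hxi
      obtain ⟨z, hz⟩ : ∃ z : 𝓞 K, (z : K) = ⟨x, hx⟩ := ⟨⟨⟨x, hx⟩, hxi'⟩, rfl⟩
      have h := hg z
      rw [Submodule.mem_toAddSubgroup, Ideal.mem_comap, GalChar.mem_centreIdeal] at h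
      have hsmul : (((g • z : 𝓞 K) : K)) = g ⟨x, hx⟩ :=
        hz ▸ algebraMap_galRestrict_apply (B := 𝓞 K) ℤ (g : K ≃ₐ[ℚ] K) z
      rw [hg' ⟨x, hx⟩]
      change A.valuation ((((g • z - z : 𝓞 K) : K) : ℚbar)) < 1 at h
      rw [show ((g • z - z : 𝓞 K) : K) = ((g • z : 𝓞 K) : K) - (z : K) from rfl,
        AddSubgroupClass.coe_sub, hsmul, hz] at h
      exact h
    refine AlgEquiv.ext fun x => Subtype.ext ?_
    rw [← hg' x, ← hσK x x.2]
    exact (IntermediateField.mem_fixingSubgroup_iff K σ).1 (hI hσ) x x.2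
  have : PerfectField (Ideal.span {(q : ℤ)}).ResidueField := inferInstance
  rw [Ideal.card_inertia_eq_ramificationIdxIn (Ideal.span {(q : ℤ)}) P,
    Ideal.ramificationIdxIn_eq_ramificationIdx _ P Gal(K/ℚ)] at hcard
  have hunr : Algebra.IsUnramifiedAt ℤ P := by
    rw [← Ideal.ramificationIdx_eq_one_iff]
    exact hcard
  let := Localization.AtPrime.algebraOfLiesOver (Ideal.span {(q : ℤ)}) P
  have hmap := ((Algebra.isUnramifiedAt_iff_map_eq ℤ (Ideal.span {(q : ℤ)}) P).mp hunr).2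
  have hP0 : P ≠ ⊥ := fun h => by
    rw [h, Ideal.mem_bot] at hqP
    exact hq.ne_zero (Nat.cast_eq_zero.1 hqP)
  let v : 𝓞 K → A.ValueGroup := fun z => A.valuation ((z : K) : ℚbar)
  have hv1 : ∀ z, z ∉ P → v z = 1 := fun z hz =>
    le_antisymm (GalChar.valuation_le_one_of_isIntegral A (ι z).2) (not_lt.1 hz)
  have hint : ∀ z : 𝓞 K, z ≠ 0 → ∃ k : ℕ, v z = A.valuation (q : ℚbar) ^ k := by
    intro z hz
    classical
    have hex : ∃ k, z ∉ P ^ k := by
      by_contra! h
      refine hz ?_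
      rw [← Ideal.mem_bot, ← Ideal.iInf_pow_eq_bot_of_isDomain P hP.ne_top, Ideal.mem_iInf]
      exact h
    obtain ⟨k, hk⟩ : ∃ k, Nat.find hex = k + 1 :=
      Nat.exists_eq_succ_of_ne_zero fun h => by
        have := Nat.find_spec hex
        rw [h, pow_zero, Ideal.one_eq_top] at this
        exact this trivial
    have hin : z ∈ P ^ k := not_not.1 (Nat.find_min hex (hk ▸ Nat.lt_succ_self k))
    have hout : z ∉ P ^ (k + 1) := hk ▸ Nat.find_spec hex
    refine ⟨k, ?_⟩
    have hloc : algebraMap (𝓞 K) (Localization.AtPrime P) z ∈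
        Ideal.map (algebraMap (𝓞 K) (Localization.AtPrime P))
          (Ideal.span {(q : 𝓞 K) ^ k}) := by
      have h1 := Ideal.mem_map_of_mem (algebraMap (𝓞 K) (Localization.AtPrime P)) hin
      rw [Ideal.map_pow, Localization.AtPrime.map_eq_maximalIdeal, ← hmap,
        Ideal.map_span, Set.image_singleton, Ideal.span_singleton_pow, map_natCast] at h1
      rwa [Ideal.map_span, Set.image_singleton, map_pow, map_natCast]
    obtain ⟨s, hs, hsz⟩ :=
      (IsLocalization.algebraMap_mem_map_algebraMap_iff P.primeCompl _ _ z).1 hloc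
    obtain ⟨y, hy⟩ := Ideal.mem_span_singleton'.1 hsz
    have hyP : y ∉ P := fun hyP => hout <| by
      refine (Ideal.IsPrime.mul_mem_pow P (a := s) ?_).resolve_left hs
      rw [← hy, pow_succ']
      exact Ideal.mul_mem_mul hyP (Ideal.pow_mem_pow hqP k)
    have e : A.valuation (((s * z : 𝓞 K) : K) : ℚbar) =
        A.valuation (((y * (q : 𝓞 K) ^ k : 𝓞 K) : K) : ℚbar) := by rw [hy]
    simp only [map_mul, map_pow, map_natCast, MulMemClass.coe_mul, SubmonoidClass.coe_pow] at e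
    rw [show A.valuation ((s : K) : ℚbar) = 1 from hv1 s hs,
      show A.valuation ((y : K) : ℚbar) = 1 from hv1 y hyP, one_mul, one_mul] at e
    exact e
  obtain ⟨a, b, hb, hab⟩ := IsFractionRing.div_surjective (𝓞 K) (⟨x, hx⟩ : K)
  have hxe : x = ((a : K) : ℚbar) / ((b : K) : ℚbar) := by
    have := congrArg (fun t : K => (t : ℚbar)) hab
    exact this.symm
  have ha0 : a ≠ 0 := fun h => hx0 (by rw [hxe, h]; simp)
  obtain ⟨k, hk⟩ := hint a ha0
  obtain ⟨m, hm⟩ := hint b (nonZeroDivisors.ne_zero hb)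
  refine ⟨(k : ℤ) - m, ?_⟩
  rw [hxe, map_div₀, zpow_sub₀, zpow_natCast, zpow_natCast, ← hk, ← hm]
  exact (Valuation.ne_zero_iff _).2 (Nat.cast_ne_zero.2 hq.ne_zero)

/-- An algebraic number fixed by every inertia group over `q`. -/
theorem valuation_eq_zpow_of_inertia_fixed {q : ℕ} (hq : q.Prime) {β : ℚbar} (hβ : β ≠ 0)
    (h : ∀ A : ValuationSubring ℚbar, A.LiesOverPrime q →
      ∀ σ ∈ A.inertiaSubgroupIn ℚ, σ β = β)
    {A : ValuationSubring ℚbar} (hA : A.LiesOverPrime q) :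
    ∃ k : ℤ, A.valuation β = A.valuation (q : ℚbar) ^ k := by
  have : IsAlgClosure ℚ ℚbar := ⟨inferInstance, AlgebraicClosure.isAlgebraic ℚ⟩
  have : Normal ℚ ℚbar := IsAlgClosure.normal ℚ ℚbar
  let E : IntermediateField ℚ ℚbar := IntermediateField.adjoin ℚ {β}
  have : FiniteDimensional ℚ E :=
    IntermediateField.adjoin.finiteDimensional (Algebra.IsIntegral.isIntegral β)
  let K : IntermediateField ℚ ℚbar := IntermediateField.normalClosure ℚ E ℚbar
  have : Normal ℚ K := normalClosure.normal ℚ E ℚbar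
  have : FiniteDimensional ℚ K := normalClosure.is_finiteDimensional ℚ E ℚbar
  have : IsGalois ℚ K := ⟨⟩
  refine valuation_eq_zpow_of_inertia_le K hq hA ?_
    (E.le_normalClosure (IntermediateField.mem_adjoin_simple_self ℚ β)) hβ
  intro σ hσ
  rw [← Subgroup.zpowers_le]
  refine (IntermediateField.le_iff_le _ _).1 ?_
  refine normalClosure_le_iff.2 fun f => ?_
  rintro _ ⟨z, rfl⟩
  let τ : ℚbar ≃ₐ[ℚ] ℚbar :=
    AlgEquiv.ofBijective (f.liftNormal ℚbar) (Algebra.IsAlgebraic.algHom_bijective _)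
  have hfz : f z = τ (z : ℚbar) := (f.liftNormal_commutes ℚbar z).symm
  rw [IntermediateField.mem_fixedField_iff]
  intro g hg
  rw [show f.toRingHom z = τ (z : ℚbar) from hfz]
  obtain ⟨n, rfl⟩ := Subgroup.mem_zpowers_iff.1 hg
  have hfix : ∀ e ∈ E, (τ⁻¹ * σ * τ) e = e := by
    intro e he
    have hmem : (τ⁻¹ * σ * τ) ∈ E.fixingSubgroup := by
      have hc : (τ⁻¹ * σ * τ) ∈ (τ⁻¹ • A).inertiaSubgroupIn ℚ := by
        simpa using Frobenius.inertiaSubgroupIn_conj hσ τ⁻¹
      have hβfix := h _ (Frobenius.liesOverPrime_smul hA τ⁻¹) _ hc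
      rw [← Subgroup.zpowers_le]
      refine (IntermediateField.le_iff_le _ _).1 (IntermediateField.adjoin_simple_le_iff.2 ?_)
      rw [IntermediateField.mem_fixedField_iff]
      intro g' hg'
      obtain ⟨m, rfl⟩ := Subgroup.mem_zpowers_iff.1 hg'
      exact Subgroup.zpow_mem (MulAction.stabilizer (ℚbar ≃ₐ[ℚ] ℚbar) β) hβfix m
    exact (IntermediateField.mem_fixingSubgroup_iff _ _).1 hmem e he
  have hστ : σ (τ (z : ℚbar)) = τ (z : ℚbar) := by
    have := congrArg τ (hfix z z.2)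
    simpa using this
  have : σ ∈ MulAction.stabilizer (ℚbar ≃ₐ[ℚ] ℚbar) (τ (z : ℚbar)) := hστ
  exact Subgroup.zpow_mem _ this n

end FLTAgent.Eisen
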