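import Fermat.Agent.Eisen.RatVal
import Fermat.Agent.Eisen.FlatDisc
import Fermat.Agent.Eisen.UnramValue
import Fermat.Agent.Eisen.PowerRat

/-!
Flat torsors of `μ_l` over `ℤ_(l)` that are unramified away from `l` and trivial at infinity are
trivial.
-/

set_option autoImplicit false
set_option linter.style.haveILetI false
set_option linter.unusedSectionVars false

noncomputable section

namespace FLTAgent.Eisen

variable {l : ℕ} [Fact l.Prime] {M : Type*} [AddCommGroup M] [DistribMulAction GQ M]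

/-- The root of unity attached to an element of `M`. -/
def muMap (e : ZMod l ≃+ M) {ζ : QBar} (hζ : IsPrimitiveRoot ζ l) (m : M) : QBar :=
  AddChar.zmodChar l ((IsPrimitiveRoot.iff_def ζ l).mp hζ).left (e.symm m)

variable {e : ZMod l ≃+ M} {ζ : QBar} {hζ : IsPrimitiveRoot ζ l}

theorem muMap_add (x y : M) : muMap e hζ (x + y) = muMap e hζ x * muMap e hζ y := by
  simp [muMap, AddChar.map_add_eq_mul]

theorem muMap_zero : muMap e hζ (0 : M) = 1 := by simp [muMap]

theorem muMap_nsmul (n : ℕ) (x : M) : muMap e hζ (n • x) = muMap e hζ x ^ n := by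
  simp only [muMap, map_nsmul, AddChar.map_nsmul_eq_pow]

theorem muMap_pow_card (x : M) : muMap e hζ x ^ l = 1 := by
  rw [← muMap_nsmul]
  have : l • x = 0 := e.symm.injective (by
    rw [map_nsmul, map_zero, nsmul_eq_mul, ZMod.natCast_self, zero_mul])
  rw [this, muMap_zero]

theorem muMap_ne_zero (x : M) : muMap e hζ x ≠ 0 := fun h => by
  have := muMap_pow_card (e := e) (hζ := hζ) x
  rw [h, zero_pow (Fact.out : l.Prime).ne_zero] at this
  exact zero_ne_one this

theorem muMap_injective : Function.Injective (muMap e hζ) := fun x y h => by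
  have hl : NeZero l := ⟨(Fact.out : l.Prime).ne_zero⟩
  simp only [muMap, AddChar.zmodChar_apply] at h
  exact e.symm.injective (ZMod.val_injective l
    (IsPrimitiveRoot.pow_inj hζ (ZMod.val_lt _) (ZMod.val_lt _) h))

theorem exists_muMap_eq (x : QBar) (hx : x ^ l = 1) : ∃ m, muMap e hζ m = x := by
  have hl : NeZero l := ⟨(Fact.out : l.Prime).ne_zero⟩
  obtain ⟨i, hi, rfl⟩ := hζ.eq_pow_of_pow_eq_one hx
  exact ⟨e i, by rw [muMap, AddEquiv.symm_apply_apply, AddChar.zmodChar_apply']⟩

variable {A : ValuationSubring QBar} [Fintype M]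

/-- A flat torsor of `μ_l` cannot be a totally ramified radical. -/
theorem mu_radical_false (hact : ∀ (σ : GQ) m, σ (muMap e hζ m) = muMap e hζ (σ • m))
    (hA : A.LiesOverPrime l) {c : GQ → M} (hflat : IsFlatTorsor l c) {i : ℕ}
    (hi : i.Coprime l) {β : QBar} (hβ : ∀ σ, σ β = muMap e hζ (i • c σ) * β)
    (hval : A.valuation β ^ l = A.valuation (l : QBar)) : False := by
  classical
  have hl : l.Prime := Fact.out
  haveI : NeZero l := ⟨hl.ne_zero⟩
  have hR : IsRootOfL A l β := ⟨hl, hA, hval⟩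
  obtain ⟨B, H, hFP⟩ := hflat
  have hiinj : ∀ x y : M, i • x = i • y → x = y := by
    intro x y h
    have h' := congrArg e.symm h
    rw [map_nsmul, map_nsmul, nsmul_eq_mul, nsmul_eq_mul] at h'
    exact e.symm.injective ((ZMod.isUnit_iff_coprime i l).2 hi |>.mul_left_cancel h')
  -- the cocycle is surjective
  have hsurj : ∀ m : M, ∃ σ, c σ = m := by
    by_contra! hm
    obtain ⟨m₀, hm₀⟩ := hm
    let S := ((Finset.univ : Finset M).erase m₀).image fun m => muMap e hζ (i • m) * β
    have hS : S.card ≤ l - 1 := by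
      refine Finset.card_image_le.trans ?_
      rw [Finset.card_erase_of_mem (Finset.mem_univ _), Finset.card_univ,
        ← Fintype.card_congr e.toEquiv, ZMod.card]
    obtain ⟨d, hd⟩ := exists_expansion (y := β ^ (l - 1)) S hS
      (fun σ => Finset.mem_image.2 ⟨c σ, Finset.mem_erase.2 ⟨hm₀ σ, Finset.mem_univ _⟩,
        (hβ σ).symm⟩)
      fun σ hσ => by rw [map_pow, hσ]
    let d' : Fin l → ℚ := fun k => if h : (k : ℕ) < l - 1 then d ⟨k, h⟩ else -1
    have hz : ∑ k, (d' k : QBar) * β ^ (k : ℕ) = 0 := by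
      have h1 : ∀ f : ℕ → QBar, ∑ k : Fin l, f k = ∑ k : Fin (l - 1), f k + f (l - 1) := by
        intro f
        rw [← Finset.sum_range, ← Finset.sum_range, ← Finset.sum_range_succ,
          Nat.sub_add_cancel hl.one_le]
      have := h1 fun k => ((if h : k < l - 1 then d ⟨k, h⟩ else -1 : ℚ) : QBar) * β ^ k
      rw [this, dif_neg (lt_irrefl _)]
      simp only [Fin.is_lt, dif_pos, Fin.eta, ← hd]
      simp
    have := hR.coeff_eq_zero hz ⟨l - 1, Nat.sub_lt hl.pos one_pos⟩
    simp [d'] at this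
  obtain ⟨b, hb, hbs⟩ :=
    exists_lattice_basis (fun σ m => σ • m + c σ) B hFP.fgB hFP.equivB hFP.spanB
  have hbB : ∀ r, b r ∈ B := fun r => hbs ▸ Submodule.subset_span ⟨r, rfl⟩
  let S := (Finset.univ : Finset M).image fun m => muMap e hζ (i • m) * β
  have hS : S.card ≤ l := by
    refine Finset.card_image_le.trans ?_
    rw [Finset.card_univ, ← Fintype.card_congr e.toEquiv, ZMod.card]
  choose C hC using fun r => exists_expansion (x := β) (y := b r 0) S hS
    (fun σ => Finset.mem_image.2 ⟨c σ, Finset.mem_univ _, (hβ σ).symm⟩) fun σ hσ => by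
      have h0 : c σ = 0 := hiinj _ _ <| muMap_injective (e := e) (hζ := hζ) <| by
        rw [smul_zero, muMap_zero]
        exact mul_right_cancel₀ (b := β) (fun h => hR.ne_zero (by rw [h, map_zero]))
          (by rw [one_mul, ← hβ σ, hσ])
      rw [← hFP.equivB _ (hbB r) σ 0, smul_zero, zero_add, h0]
  have hCA : ∀ r k, ((C r k : ℚ) : QBar) ∈ A := fun r k =>
    hR.coeff_mem (hC r ▸ mem_of_isIntegral hl hA (isIntegral_apply hFP.fgB hFP.mulB (hbB r) 0)) k
  let κ : M ≃ Fin l := e.symm.toEquiv.trans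
    { toFun := fun x => ⟨x.val, ZMod.val_lt x⟩
      invFun := fun k => ((k : ℕ) : ZMod l)
      left_inv := fun x => ZMod.natCast_zmod_val x
      right_inv := fun k => Fin.ext (ZMod.val_cast_of_lt k.2) }
  let W : Matrix M M QBar := Matrix.of fun k m => muMap e hζ (i • m) ^ (κ k : ℕ) * β ^ (κ k : ℕ)
  have hbW : A.valuation (Matrix.of b).det ≤ A.valuation W.det := by
    refine valuation_det_le (Matrix.of b) W (fun r k => ((C r (κ k) : ℚ) : QBar))
      (fun r k => hCA r _) fun r m => ?_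
    obtain ⟨σ, rfl⟩ := hsurj m
    have h1 : b r (c σ) = σ (b r 0) := by
      rw [← hFP.equivB _ (hbB r), smul_zero, zero_add]
    rw [Matrix.of_apply, h1, hC r, map_sum]
    refine (Fintype.sum_equiv κ _ _ fun k => ?_).symm
    rw [map_mul, map_ratCast, map_pow, hβ, mul_pow]
    rfl
  have hζ' : IsPrimitiveRoot (ζ ^ i) l := hζ.pow_of_coprime i hi
  have hW : W = Matrix.diagonal (fun k => β ^ (κ k : ℕ)) * Matrix.of fun k m : M =>
      AddChar.zmodChar l ((IsPrimitiveRoot.iff_def (ζ ^ i) l).mp hζ').left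
        (e.symm k * e.symm m) := by
    ext k m
    rw [Matrix.diagonal_mul]
    show muMap e hζ (i • m) ^ (κ k : ℕ) * β ^ (κ k : ℕ) = _
    rw [Matrix.of_apply, mul_comm]
    congr 1
    rw [← muMap_nsmul, AddChar.zmodChar_apply, ← pow_mul, mul_comm i, pow_mul,
      ← AddChar.zmodChar_apply ((IsPrimitiveRoot.iff_def ζ l).mp hζ).left,
      ← AddChar.map_nsmul_eq_pow, muMap, map_nsmul e.symm, map_nsmul e.symm]
    congr 1
    simp only [nsmul_eq_mul]
    rw [show (((κ k : ℕ)) : ZMod l) = e.symm k from ZMod.natCast_zmod_val _]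
    ring
  have hdisc := hFP.disc_bound hA e hb hbs
  have hlt : A.valuation W.det ^ 2 < A.valuation (l : QBar) ^ l := by
    rw [hW, Matrix.det_mul, map_mul, mul_pow, valuation_det_charMatrix e hζ',
      Matrix.det_diagonal, map_prod]
    refine mul_lt_of_lt_one_left (pow_pos (zero_lt_iff.2 ?_) l) ?_
    · exact (Valuation.ne_zero_iff _).2 (Nat.cast_ne_zero.2 hl.ne_zero)
    simp only [map_pow, Finset.prod_pow_eq_pow_sum, ← pow_mul]
    refine pow_lt_one₀ zero_le hR.lt_one ?_
    refine Nat.mul_ne_zero (fun h0 => ?_) two_ne_zero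
    have := (Finset.sum_eq_zero_iff.1 h0) (κ.symm ⟨1, hl.one_lt⟩) (Finset.mem_univ _)
    simp at this
  exact not_lt.2 (hdisc.trans (pow_le_pow_left₀ zero_le hbW 2)) hlt

/-- A flat torsor of `μ_l` which is unramified away from `l` and trivial at infinity is
trivial. -/
theorem mu_cocycle_eq_zero (hact : ∀ (σ : GQ) m, σ (muMap e hζ m) = muMap e hζ (σ • m))
    {c : GQ → M} (hcoc : ∀ σ τ, c (σ * τ) = c σ + σ • c τ) (hflat : IsFlatTorsor l c)
    (hunr : ∀ q : ℕ, q.Prime → q ≠ l → ∀ A : ValuationSubring QBar, A.LiesOverPrime q →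
      ∀ σ ∈ A.inertiaSubgroupIn ℚ, c σ = 0)
    {κ : GQ} (hκ : ∀ (x : QBar) (n : ℕ), 0 < n → x ^ n = 1 → κ x = x⁻¹) (hcκ : c κ = 0)
    (σ : GQ) : c σ = 0 := by
  classical
  have hl : l.Prime := Fact.out
  obtain ⟨B, H, hFP⟩ := id hflat
  -- a Kummer generator
  obtain ⟨f, hf, hf0⟩ : ∃ f ∈ B, ∑ m, muMap e hζ m * f m ≠ 0 := by
    by_contra! h
    let φ : (M → QBar) →ₗ[QBar] QBar := ∑ m, muMap e hζ m • LinearMap.proj m
    have hφ : ∀ f, φ f = ∑ m, muMap e hζ m * f m := fun f => by
      simp [φ, LinearMap.sum_apply]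
    have hle : Submodule.span QBar (B : Set (M → QBar)) ≤ LinearMap.ker φ :=
      Submodule.span_le.2 fun f hf => (hφ f).trans (h f hf)
    rw [hFP.spanB] at hle
    have := hle (Submodule.mem_top (x := Pi.single (0 : M) 1))
    rw [LinearMap.mem_ker, hφ] at this
    simp [Pi.single_apply, muMap_zero] at this
  set γ := (∑ m, muMap e hζ m * f m)⁻¹
  have hγ0 : γ ≠ 0 := inv_ne_zero hf0
  have hγ : ∀ τ, τ γ = muMap e hζ (c τ) * γ := by
    intro τ
    have : τ (∑ m, muMap e hζ m * f m) * muMap e hζ (c τ) = ∑ m, muMap e hζ m * f m := by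
      rw [map_sum, Finset.sum_mul]
      refine Finset.sum_bij' (fun m _ => τ • m + c τ) (fun m _ => τ⁻¹ • (m - c τ))
        (fun _ _ => Finset.mem_univ _) (fun _ _ => Finset.mem_univ _)
        (fun m _ => by simp) (fun m _ => by simp) fun m _ => ?_
      rw [map_mul, hact, muMap_add, hFP.equivB f hf]
      ring
    rw [map_inv₀]
    show _ = _ * (∑ m, muMap e hζ m * f m)⁻¹
    conv_rhs => rw [← this]
    rw [mul_inv, mul_comm (τ _)⁻¹, mul_inv_cancel_left₀ (muMap_ne_zero _)]
  obtain ⟨a, ha⟩ := mem_range_rat (x := γ ^ l) fun τ => by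
    rw [map_pow, hγ, mul_pow, muMap_pow_card, one_mul]
  have ha0 : a ≠ 0 := fun h => pow_ne_zero l hγ0 (by rw [ha, h, Rat.cast_zero])
  have hdiv : ∀ q : ℕ, q.Prime → (l : ℤ) ∣ padicValRat q a := by
    intro q hq
    obtain ⟨A, hA⟩ := GalChar.exists_valuationSubring_liesOverPrime hq
    rcases eq_or_ne q l with rfl | hql
    · by_contra hk
      set k := padicValRat q a with hkdef
      haveI : NeZero q := ⟨hl.ne_zero⟩
      have hk0 : (k : ZMod q) ≠ 0 := fun h => hk ((ZMod.intCast_zmod_eq_zero_iff_dvd _ _).1 h)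
      set i := ((k : ZMod q)⁻¹).val
      have hik : ((i * k - 1 : ℤ) : ZMod q) = 0 := by
        push_cast
        rw [ZMod.natCast_zmod_val, inv_mul_cancel₀ hk0, sub_self]
      obtain ⟨j, hj⟩ := (ZMod.intCast_zmod_eq_zero_iff_dvd _ _).1 hik
      have hicop : i.Coprime q := by
        refine ((Nat.Prime.coprime_iff_not_dvd hl).2 fun hd => ?_).symm
        have : (q : ℤ) ∣ 1 := by
          have h1 : (q : ℤ) ∣ (i : ℤ) * k := dvd_mul_of_dvd_left (Int.natCast_dvd_natCast.2 hd) k
          have := dvd_sub h1 ⟨j, hj⟩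
          rwa [sub_sub_cancel] at this
        exact hl.one_lt.ne' (by exact_mod_cast Int.eq_one_of_dvd_one (by positivity) this)
      have hq0 : A.valuation (q : QBar) ≠ 0 :=
        (Valuation.ne_zero_iff _).2 (Nat.cast_ne_zero.2 hl.ne_zero)
      refine mu_radical_false hact hA hflat hicop (β := γ ^ i * (q : QBar) ^ (-j))
        (fun τ => ?_) ?_
      · rw [map_mul, map_pow, map_zpow₀, map_natCast, hγ, mul_pow, muMap_nsmul, mul_assoc]
      · rw [map_mul, map_zpow₀, mul_pow, map_pow, ← pow_mul, mul_comm i, pow_mul, ← map_pow, ha,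
          valuation_rat hl hA ha0, ← zpow_natCast, ← zpow_natCast (_ ^ (-j)), ← zpow_mul,
          ← zpow_mul, ← zpow_add₀ hq0, ← hkdef]
        conv_rhs => rw [← zpow_one (A.valuation (q : QBar))]
        congr 1
        linarith
    · obtain ⟨k, hk⟩ := valuation_eq_zpow_of_inertia_fixed hq hγ0
        (fun A' hA' τ hτ => by rw [hγ, hunr q hq hql A' hA' τ hτ, muMap_zero, one_mul]) hA
      refine ⟨k, zpow_val_inj hq hA ?_⟩
      rw [← valuation_rat hq hA ha0, ← ha, map_pow, hk, mul_comm, zpow_mul, zpow_natCast]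
  obtain ⟨b, s, hs, hab⟩ := rat_exists_pow ha0 hdiv
  have hb0 : b ≠ 0 := fun h => ha0 (by rw [hab, h, zero_pow hl.ne_zero, mul_zero])
  have hbQ : (b : QBar) ≠ 0 := by exact_mod_cast hb0
  have huniv : ∀ m : M, ∀ τ : GQ, ∀ t : ℚ, t ≠ 0 → γ = (t : QBar) * muMap e hζ m →
      c τ = τ • m - m := by
    intro m τ t ht h
    have h1 := hγ τ
    rw [h, map_mul, map_ratCast, hact] at h1
    refine eq_sub_of_add_eq (muMap_injective (e := e) (hζ := hζ) ?_)
    rw [muMap_add]
    refine mul_left_cancel₀ (Rat.cast_ne_zero.2 ht : (t : QBar) ≠ 0) ?_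
    rw [h1]; ring
  by_cases hl2 : l = 2
  · subst hl2
    rcases hs with rfl | rfl
    · obtain ⟨m, hm⟩ := exists_muMap_eq (e := e) (hζ := hζ) (γ / b) (by
        rw [div_pow, ha, hab]; push_cast; rw [one_mul, div_self (pow_ne_zero _ hbQ)])
      rw [huniv m σ b hb0 (by rw [hm, mul_div_cancel₀ _ hbQ])]
      refine sub_eq_zero.2 (muMap_injective (e := e) (hζ := hζ) ?_)
      rw [← hact]
      rcases sq_eq_one_iff.1 (muMap_pow_card (e := e) (hζ := hζ) m) with h | h <;> simp [h]
    · exfalso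
      have hsq : (γ / b) ^ 2 = -1 := by
        rw [div_pow, ha, hab]; push_cast
        field_simp
      have h4 : (γ / b) ^ 4 = 1 := by
        rw [show 4 = 2 * 2 from rfl, pow_mul, hsq]; norm_num
      have h2 := hκ _ 4 (by norm_num) h4
      rw [map_div₀, map_ratCast, hγ, hcκ, muMap_zero, one_mul] at h2
      have hne : γ / b ≠ 0 := div_ne_zero hγ0 hbQ
      have : (γ / b) ^ 2 = 1 := by
        rw [pow_two]
        nth_rw 2 [h2]
        exact mul_inv_cancel₀ hne
      rw [hsq] at this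
      norm_num at this
  · have hodd : Odd l := hl.odd_of_ne_two hl2
    have hsl : s ^ l = s := by rcases hs with rfl | rfl <;> simp [hodd.neg_one_pow]
    have hs0 : s ≠ 0 := by rcases hs with rfl | rfl <;> norm_num
    have hsb : s * b ≠ 0 := mul_ne_zero hs0 hb0
    have hsbQ : ((s * b : ℚ) : QBar) ≠ 0 := Rat.cast_ne_zero.2 hsb
    obtain ⟨m, hm⟩ := exists_muMap_eq (e := e) (hζ := hζ) (γ / ((s * b : ℚ) : QBar)) (by
      rw [div_pow, ha, hab, ← Rat.cast_pow, mul_pow, hsl, div_self]
      exact Rat.cast_ne_zero.2 (mul_ne_zero hs0 (pow_ne_zero _ hb0)))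
    have hcm := fun τ => huniv m τ (s * b) hsb (by rw [hm, mul_div_cancel₀ _ hsbQ])
    have hm0 : m = 0 := by
      have h1 : κ • m = m := sub_eq_zero.1 ((hcm κ).symm.trans hcκ)
      have h2 := hact κ m
      rw [h1, hκ _ l hl.pos (muMap_pow_card m)] at h2
      have h3 : muMap e hζ (m + m) = 1 := by
        rw [muMap_add]; nth_rw 1 [← h2]; exact inv_mul_cancel₀ (muMap_ne_zero m)
      rw [← muMap_zero (e := e) (hζ := hζ)] at h3
      have h4 : e.symm m + e.symm m = 0 := by rw [← map_add, muMap_injective h3, map_zero]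
      rw [← two_mul, mul_eq_zero] at h4
      refine e.symm.injective ((h4.resolve_left fun h => hl2 ?_).trans (map_zero _).symm)
      have : l ∣ 2 := (ZMod.natCast_eq_zero_iff 2 l).1 (by exact_mod_cast h)
      exact (Nat.prime_dvd_prime_iff_eq hl Nat.prime_two).1 this
    rw [hcm σ, hm0, smul_zero, sub_zero]

end FLTAgent.Eisen
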