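import Fermat.Agent.Eisen.TrivField
import Fermat.Agent.Eisen.FlatDisc
import Fermat.Agent.Char.Unramified
import Mathlib.LinearAlgebra.Pi
import Mathlib.Algebra.Module.LinearMap.End
import Mathlib.Algebra.BigOperators.Intervals

/-!
Flat torsors of `ℤ/l` over `ℤ_(l)` that are unramified away from `l` are trivial, for odd `l`.
-/

set_option autoImplicit false
set_option linter.style.haveILetI false
set_option linter.unusedSectionVars false

noncomputable section

namespace FLTAgent.Eisen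

variable {l : ℕ} [Fact l.Prime] {M : Type*} [AddCommGroup M] [DistribMulAction GQ M] [Fintype M]

/-- `σ ^ j` through the iterates of `σ - 1`. -/
theorem pow_apply_eq_sum (σ : GQ) (x : QBar) (j n : ℕ) (hj : j < n) :
    (σ ^ j) x = ∑ k ∈ Finset.range n, (j.choose k : QBar) * (fun y => σ y - y)^[k] x := by
  rw [← Finset.sum_subset (Finset.range_mono (Nat.succ_le_of_lt hj)) fun k _ hk => by
    rw [Nat.choose_eq_zero_of_lt (by simp at hk; omega), Nat.cast_zero, zero_mul]]
  clear hj
  let S : Module.End ℚ QBar := σ.toLinearMap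
  have hS : ∀ m, (S ^ m) x = (σ ^ m) x := by
    intro m
    induction m with
    | zero => rfl
    | succ m ih => rw [pow_succ', pow_succ', Module.End.mul_apply, ih]; rfl
  have hD : ∀ m, ((S - 1) ^ m) x = (fun y => σ y - y)^[m] x := by
    intro m
    induction m with
    | zero => rfl
    | succ m ih => rw [pow_succ', Function.iterate_succ_apply', Module.End.mul_apply, ih]; rfl
  have e := congrArg (fun T : Module.End ℚ QBar => T x) ((Commute.one_right (S - 1)).add_pow j)
  simp only [sub_add_cancel, one_pow, mul_one, LinearMap.sum_apply, ← nsmul_eq_mul',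
    LinearMap.smul_apply, hD, hS] at e
  rw [e]
  exact Finset.sum_congr rfl fun k _ => by rw [nsmul_eq_mul]

theorem exponent_gt (hl : 3 ≤ l) :
    l * l < (∑ k ∈ Finset.range l, if k = 0 then 0 else k + 1) * 2 := by
  obtain ⟨m, rfl⟩ : ∃ m, l = m + 1 := ⟨l - 1, by omega⟩
  have h : (∑ k ∈ Finset.range (m + 1), if k = 0 then 0 else k + 1) * 2 = m * (m + 3) := by
    clear hl ‹Fact (Nat.Prime (m + 1))›
    induction m with
    | zero => simp
    | succ m ih => rw [Finset.sum_range_succ, add_mul, ih, if_neg (Nat.succ_ne_zero _)]; ring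
  rw [h]
  nlinarith

/-- A flat torsor of `ℤ/l` is trivial on inertia at `l`, for odd `l`. -/
theorem triv_cocycle_inertia (htriv : ∀ (σ : GQ) (m : M), σ • m = m) (e : ZMod l ≃+ M)
    (hodd : Odd l) {c : GQ → M} (hc : ∀ σ τ, c (σ * τ) = c σ + c τ) (hflat : IsFlatTorsor l c)
    {A : ValuationSubring QBar} (hA : A.LiesOverPrime l) {σ : GQ}
    (hσ : σ ∈ A.inertiaSubgroupIn ℚ) : c σ = 0 := by
  classical
  by_contra hne
  have hl : l.Prime := Fact.out
  haveI : NeZero l := ⟨hl.ne_zero⟩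
  obtain ⟨B, H, hFP⟩ := hflat
  obtain ⟨b, hb, hbs⟩ :=
    exists_lattice_basis (fun τ m => τ • m + c τ) B hFP.fgB hFP.equivB hFP.spanB
  have hbB : ∀ r, b r ∈ B := fun r => hbs ▸ Submodule.subset_span ⟨r, rfl⟩
  let χ : GQ →* Multiplicative M :=
    MonoidHom.mk' (fun τ => Multiplicative.ofAdd (c τ)) fun a b => by rw [hc]; rfl
  have hc1 : c 1 = 0 := congrArg Multiplicative.toAdd χ.map_one
  have hcpow : ∀ (τ : GQ) (j : ℕ), c (τ ^ j) = j • c τ := fun τ j =>
    congrArg Multiplicative.toAdd (χ.map_pow τ j)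
  have hcinv : ∀ τ : GQ, c τ⁻¹ = -c τ := fun τ => congrArg Multiplicative.toAdd (χ.map_inv τ)
  have hlM : ∀ m : M, l • m = 0 := fun m => e.symm.injective (by
    rw [map_nsmul, map_zero, nsmul_eq_mul, ZMod.natCast_self, zero_mul])
  have hne' : e.symm (c σ) ≠ 0 := fun h => hne (e.symm.injective (h.trans (map_zero _).symm))
  let idx : M → ℕ := fun m => (e.symm m * (e.symm (c σ))⁻¹).val
  have hidx : ∀ m, idx m • c σ = m := fun m => e.symm.injective (by
    rw [map_nsmul, nsmul_eq_mul, ZMod.natCast_zmod_val, mul_assoc, inv_mul_cancel₀ hne', mul_one])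
  let F : QBar → Prop := fun x => ∀ τ, c τ = 0 → τ x = x
  have horb : ∀ x, F x → ∀ τ : GQ, τ x = (σ ^ idx (c τ)) x := by
    intro x hx τ
    have h0 : c ((σ ^ idx (c τ))⁻¹ * τ) = 0 := by
      rw [hc, hcinv, hcpow, hidx, neg_add_cancel]
    have h1 := congrArg (⇑(σ ^ idx (c τ))) (hx _ h0)
    rwa [← AlgEquiv.mul_apply, mul_inv_cancel_left] at h1
  have hF : CyclicData A l σ F :=
    { prime := hl
      odd := hodd
      over := hA
      inertia := hσ
      pow_fix := fun x hx => hx _ (by rw [hcpow, hlM])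
      orbit := fun x hx τ => ⟨idx (c τ), ZMod.val_lt _, horb x hx τ⟩
      apply_mem := fun x hx τ hτ => by
        have h1 := congrArg (⇑σ) (hx (σ⁻¹ * τ * σ) (by rw [hc, hc, hcinv, hτ, add_zero,
          neg_add_cancel]))
        rwa [mul_assoc, AlgEquiv.mul_apply σ⁻¹, ← AlgEquiv.mul_apply σ σ⁻¹, mul_inv_cancel,
          AlgEquiv.one_apply, AlgEquiv.mul_apply] at h1
      rat_mem := fun a τ _ => map_ratCast τ a
      mul_mem := fun x y hx hy τ hτ => by rw [map_mul, hx τ hτ, hy τ hτ]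
      sub_mem := fun x y hx hy τ hτ => by rw [map_sub, hx τ hτ, hy τ hτ]
      inv_mem := fun x hx τ hτ => by rw [map_inv₀, hx τ hτ]
      stab := fun x hx hmove y hy τ hτ => by
        refine hy τ ?_
        by_contra hτ0
        have hfix : (σ ^ idx (c τ)) x = x := (horb x hx τ).symm.trans hτ
        have hcop : (idx (c τ)).Coprime l := by
          refine ((Nat.Prime.coprime_iff_not_dvd hl).2 fun hd => hτ0 ?_).symm
          rw [← hidx (c τ)]
          obtain ⟨t, ht⟩ := hd
          rw [ht, mul_comm, mul_smul, hlM, smul_zero]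
        have hmem : σ ∈ MulAction.stabilizer GQ x := by
          obtain ⟨u, v, huv⟩ := Nat.isCoprime_iff_coprime.2 hcop
          have e1 : σ = (σ ^ idx (c τ)) ^ u * (σ ^ l) ^ v := by
            rw [← zpow_natCast, ← zpow_natCast σ l, ← zpow_mul, ← zpow_mul, ← zpow_add,
              mul_comm _ u, mul_comm _ v, huv, zpow_one]
          rw [e1]
          exact mul_mem (Subgroup.zpow_mem _ hfix u)
            (Subgroup.zpow_mem _ (hx _ (by rw [hcpow, hlM])) v)
        exact hmove hmem }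
  have hb0F : ∀ r, F (b r 0) := fun r τ hτ => by
    rw [← hFP.equivB _ (hbB r) τ 0, smul_zero, zero_add, hτ]
  have hbval : ∀ r m, b r m = (σ ^ idx m) (b r 0) := fun r m => by
    rw [← hFP.equivB _ (hbB r) (σ ^ idx m) 0, smul_zero, zero_add, hcpow, hidx]
  obtain ⟨r₀, hr₀⟩ : ∃ r, σ (b r 0) ≠ b r 0 := by
    by_contra! hall
    refine det_ne_zero_of_linearIndependent hb (Matrix.det_zero_of_column_eq hne fun r => ?_)
    show b r (c σ) = b r 0
    rw [show b r (c σ) = σ (b r 0) by
      rw [← hFP.equivB _ (hbB r) σ 0, smul_zero, zero_add], hall r]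
  obtain ⟨ϖ, hϖF, hR⟩ := hF.exists_root (hb0F r₀) hr₀
  have hzA : ∀ r, b r 0 ∈ A := fun r =>
    mem_of_isIntegral hl hA (isIntegral_apply hFP.fgB hFP.mulB (hbB r) 0)
  let κ : M ≃ Fin l := e.symm.toEquiv.trans
    { toFun := fun x => ⟨x.val, ZMod.val_lt x⟩
      invFun := fun k => ((k : ℕ) : ZMod l)
      left_inv := fun x => ZMod.natCast_zmod_val x
      right_inv := fun k => Fin.ext (ZMod.val_cast_of_lt k.2) }
  let ε : ℕ → ℕ := fun k => if k = 0 then 0 else k + 1
  let W : Matrix M M QBar := Matrix.of fun k r => (fun y => σ y - y)^[κ k] (b r 0)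
  have hbW : A.valuation (Matrix.of b).det ≤ A.valuation W.det := by
    rw [← Matrix.det_transpose (Matrix.of b)]
    refine valuation_det_le _ W (fun m k => ((idx m).choose (κ k : ℕ) : QBar))
      (fun m k => natCast_mem A _) fun m r => ?_
    rw [Matrix.transpose_apply, Matrix.of_apply, hbval r m,
      pow_apply_eq_sum σ (b r 0) (idx m) l (ZMod.val_lt _), Finset.sum_range]
    exact (Fintype.sum_equiv κ _ _ fun k => rfl).symm
  have hϖ0 : ϖ ≠ 0 := fun h => hR.ne_zero (by rw [h, map_zero])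
  have hrow : ∀ k r, A.valuation (W k r / ϖ ^ ε (κ k)) ≤ 1 := by
    intro k r
    rw [map_div₀, map_pow, div_le_one₀ (pow_pos (zero_lt_iff.2 hR.ne_zero) _)]
    show A.valuation ((fun y => σ y - y)^[κ k] (b r 0)) ≤ A.valuation ϖ ^ ε (κ k)
    rcases hk : (κ k : ℕ) with _ | j
    · simpa [ε] using (A.valuation_le_one_iff _).2 (hzA r)
    · simpa [ε] using (hF.iterate_drop hϖF hR (hb0F r) (hzA r) j).2
  have hWfac : W = Matrix.diagonal (fun k => ϖ ^ ε (κ k)) *
      Matrix.of fun k r => W k r / ϖ ^ ε (κ k) := by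
    ext k r
    rw [Matrix.diagonal_mul, Matrix.of_apply, mul_div_cancel₀ _ (pow_ne_zero _ hϖ0)]
  have hWle : A.valuation W.det ≤ A.valuation ϖ ^ ∑ k ∈ Finset.range l, ε k := by
    rw [hWfac, Matrix.det_mul, Matrix.det_diagonal, map_mul, map_prod]
    refine (mul_le_of_le_one_right' ((A.valuation_le_one_iff _).2
      (det_mem _ fun k r => (A.valuation_le_one_iff _).1 (hrow k r)))).trans_eq ?_
    simp only [map_pow]
    rw [Finset.prod_pow_eq_pow_sum, Finset.sum_range]
    exact congrArg _ (Fintype.sum_equiv κ _ _ fun k => rfl)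
  have hl3 : 3 ≤ l := by
    rcases hl.eq_two_or_odd' with h | _
    · exact absurd (h ▸ hodd) (by decide)
    · have := hl.two_le
      rcases eq_or_lt_of_le this with h | h
      · exact absurd (h ▸ hodd) (by decide)
      · exact h
  have hdisc := hFP.disc_bound hA e hb hbs
  have : A.valuation (l : QBar) ^ l ≤ A.valuation ϖ ^ ((∑ k ∈ Finset.range l, ε k) * 2) := by
    rw [pow_mul]
    exact hdisc.trans (pow_le_pow_left₀ zero_le (hbW.trans hWle) 2)
  rw [← hR.eq, ← pow_mul,
    pow_le_pow_iff_right_of_lt_one₀ (zero_lt_iff.2 hR.ne_zero) hR.lt_one] at this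
  exact not_le.2 (exponent_gt hl3) this

/-- A flat torsor of `ℤ/l`, `l` odd, unramified away from `l`, is trivial. -/
theorem triv_cocycle_eq_zero (htriv : ∀ (σ : GQ) (m : M), σ • m = m) (e : ZMod l ≃+ M)
    (hodd : Odd l) {c : GQ → M} (hcoc : ∀ σ τ, c (σ * τ) = c σ + σ • c τ)
    (hflat : IsFlatTorsor l c)
    (hunr : ∀ q : ℕ, q.Prime → q ≠ l → ∀ A : ValuationSubring QBar, A.LiesOverPrime q →
      ∀ σ ∈ A.inertiaSubgroupIn ℚ, c σ = 0)
    (L : IntermediateField ℚ QBar) [FiniteDimensional ℚ L]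
    (hL : ∀ σ ∈ L.fixingSubgroup, c σ = 0) (σ : GQ) : c σ = 0 := by
  have hc : ∀ σ τ, c (σ * τ) = c σ + c τ := fun σ τ => by rw [hcoc, htriv]
  let χ : GQ →* Multiplicative M :=
    MonoidHom.mk' (fun τ => Multiplicative.ofAdd (c τ)) fun a b => by rw [hc]; rfl
  have hker : ∀ τ, τ ∈ χ.ker ↔ c τ = 0 := fun τ => by
    rw [MonoidHom.mem_ker]; exact ⟨fun h => congrArg Multiplicative.toAdd h, fun h => by
      show Multiplicative.ofAdd (c τ) = 1; rw [h]; rfl⟩
  have htop : χ.ker = ⊤ := by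
    refine GalChar.eq_top_of_inertia_le _ L (fun τ hτ => (hker τ).2 (hL τ hτ)) fun q hq A hA τ hτ =>
      (hker τ).2 ?_
    rcases eq_or_ne q l with rfl | hql
    · exact triv_cocycle_inertia htriv e hodd hc hflat hA hτ
    · exact hunr q hq hql A hA τ hτ
  exact (hker σ).1 (htop ▸ Subgroup.mem_top σ)

end FLTAgent.Eisen
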