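import Fermat.Agent.Eisen.ChiAction
import Fermat.Agent.Eisen.LocalMu
import Fermat.Agent.Eisen.LocalTriv
import Mathlib.LinearAlgebra.Quotient.Basic
import Mathlib.Algebra.Module.LinearMap.Basic
import Mathlib.RingTheory.Ideal.Operations

/-!
No non-trivial classes: a flat cocycle in a finite `P`-primary Galois module with the Eisenstein
relation, unramified away from `l` and vanishing at infinity, is zero.
-/

set_option autoImplicit false
set_option linter.style.haveILetI false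
set_option linter.unusedSectionVars false

noncomputable section

namespace FLTAgent.Eisen

open scoped Pointwise

universe u

variable {R : Type*} [CommRing R]

/-- The action of `GQ` on a stable submodule. -/
@[reducible] def subAction {M : Type*} [AddCommGroup M] [Module R M] [DistribMulAction GQ M]
    (W : Submodule R M) (hW : ∀ (g : GQ), ∀ x ∈ W, g • x ∈ W) : DistribMulAction GQ W where
  smul g x := ⟨g • (x : M), hW g x x.2⟩
  one_smul x := Subtype.ext (one_smul GQ (x : M))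
  mul_smul g g' x := Subtype.ext (mul_smul g g' (x : M))
  smul_zero g := Subtype.ext (smul_zero g)
  smul_add g x y := Subtype.ext (smul_add g (x : M) (y : M))

/-- The action of `GQ` on the quotient by a stable submodule. -/
@[reducible] def quotAction {M : Type*} [AddCommGroup M] [Module R M] [DistribMulAction GQ M]
    [SMulCommClass GQ R M] (W : Submodule R M) (hW : ∀ (g : GQ), ∀ x ∈ W, g • x ∈ W) :
    DistribMulAction GQ (M ⧸ W) where
  smul g := W.mapQ W (DistribSMul.toLinearMap R M g) fun x hx => hW g x hx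
  one_smul x := by
    obtain ⟨x, rfl⟩ := Submodule.Quotient.mk_surjective W x
    exact congrArg (Submodule.Quotient.mk (p := W)) (one_smul GQ x)
  mul_smul g g' x := by
    obtain ⟨x, rfl⟩ := Submodule.Quotient.mk_surjective W x
    exact congrArg (Submodule.Quotient.mk (p := W)) (mul_smul g g' x)
  smul_zero g := map_zero (W.mapQ W (DistribSMul.toLinearMap R M g) fun x hx => hW g x hx)
  smul_add g x y := map_add (W.mapQ W (DistribSMul.toLinearMap R M g) fun x hx => hW g x hx) x y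

theorem exists_killed {M : Type*} [AddCommGroup M] [Module R M] [Nontrivial M] (P : Ideal R)
    {n : ℕ} (hP : ∀ p ∈ P ^ n, ∀ m : M, p • m = 0) :
    ∃ w : M, w ≠ 0 ∧ ∀ p ∈ P, p • w = 0 := by
  induction n with
  | zero =>
    obtain ⟨m, hm⟩ := exists_ne (0 : M)
    exact absurd (by simpa using hP 1 (by simp) m) hm
  | succ n ih =>
    by_cases h : ∀ p ∈ P ^ n, ∀ m : M, p • m = 0
    · exact ih h
    push Not at h
    obtain ⟨p, hp, m, hm⟩ := h
    refine ⟨p • m, hm, fun q hq => ?_⟩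
    rw [← mul_smul]
    exact hP _ (by rw [pow_succ']; exact Ideal.mul_mem_mul hq hp) m

variable {l : ℕ} [Fact l.Prime] {ζ : QBar}

/-- A line with trivial or cyclotomic action has no such classes. -/
theorem line_cocycle_eq_zero (hζ : IsPrimitiveRoot ζ l) {M : Type*} [AddCommGroup M]
    [DistribMulAction GQ M] [Fintype M] {w : M} (hw : w ≠ 0) (hwl : l • w = 0)
    (hgen : ∀ x : M, ∃ z : ℤ, x = z • w)
    (hact : (∀ g : GQ, g • w = w) ∨ ∀ (g : GQ) (n : ℕ), g ζ = ζ ^ n → g • w = n • w)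
    {κ : GQ} (hκ : ∀ (x : QBar) (n : ℕ), 0 < n → x ^ n = 1 → κ x = x⁻¹)
    {c : GQ → M} (hcoc : ∀ σ τ, c (σ * τ) = c σ + σ • c τ) (hflat : IsFlatTorsor l c)
    (hunr : ∀ q : ℕ, q.Prime → q ≠ l → ∃ A : ValuationSubring QBar, A.LiesOverPrime q ∧
      ∀ σ ∈ A.inertiaSubgroupIn ℚ, c σ = 0)
    (hcκ : c κ = 0) (L : IntermediateField ℚ QBar) [FiniteDimensional ℚ L]
    (hL : ∀ σ ∈ L.fixingSubgroup, c σ = 0) (σ : GQ) : c σ = 0 := by
  have hl : l.Prime := Fact.out
  haveI : NeZero l := ⟨hl.ne_zero⟩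
  let f : ZMod l →+ M := ZMod.lift l ⟨zmultiplesHom M w, by simpa using hwl⟩
  have hf : ∀ z : ℤ, f (z : ZMod l) = z • w := fun z => by simp [f]
  have hbij : Function.Bijective f := by
    refine ⟨(injective_iff_map_eq_zero f).2 fun x hx => ?_, fun x => ?_⟩
    · obtain ⟨z, rfl⟩ := ZMod.intCast_surjective x
      rw [hf, ← addOrderOf_dvd_iff_zsmul_eq_zero, addOrderOf_eq_prime hwl hw] at hx
      exact (ZMod.intCast_zmod_eq_zero_iff_dvd _ _).2 hx
    · obtain ⟨z, hz⟩ := hgen x
      exact ⟨z, by rw [hf, ← hz]⟩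
  let e : ZMod l ≃+ M := AddEquiv.ofBijective f hbij
  have hnat : ∀ k : ℕ, e (k : ZMod l) = k • w := fun k => by
    have := hf k
    rw [Int.cast_natCast, natCast_zsmul] at this
    exact this
  have hsmulw : ∀ (g : GQ) (k : ℕ), g • (k • w) = k • (g • w) := fun g k => by
    rw [← natCast_zsmul, smul_zsmul_comm, natCast_zsmul]
  -- inertia away from `l` acts trivially on a line, so all places over a prime are alike
  have hinert : ∀ q : ℕ, q.Prime → q ≠ l → ∀ A : ValuationSubring QBar, A.LiesOverPrime q →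
      ∀ σ ∈ A.inertiaSubgroupIn ℚ, ∀ x : M, σ • x = x := by
    intro q hq hql A hA ρ hρ x
    have hρζ : ρ ζ = ζ := by
      let z : A := ⟨ζ, GalRep.root_mem l hl.ne_zero hζ.pow_eq_one⟩
      have hz : z ^ l = 1 := Subtype.ext (by simpa using hζ.pow_eq_one)
      obtain ⟨hdec, hin⟩ := Frobenius.mem_inertiaSubgroupIn_iff.1 hρ
      have hρm : ρ ζ ∈ A := GalRep.root_mem l hl.ne_zero (by rw [← map_pow, hζ.pow_eq_one, map_one])
      let z' : A := ⟨ρ ζ, hρm⟩
      have hz' : z' ^ l = 1 := Subtype.ext (by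
        show (ρ ζ) ^ l = 1
        rw [← map_pow, hζ.pow_eq_one, map_one])
      refine congrArg Subtype.val (GalRep.root_eq_of_residue_eq hA hl.ne_zero
        ((Nat.coprime_primes hl hq).2 (Ne.symm hql)) hz' hz ?_)
      rw [← sub_eq_zero, ← map_sub, IsLocalRing.residue_eq_zero_iff,
        ← ValuationSubring.coe_mem_nonunits_iff]
      exact hin ζ z.2
    obtain ⟨z, rfl⟩ := hgen x
    rw [smul_zsmul_comm]
    rcases hact with h | h
    · rw [h ρ]
    · rw [h ρ 1 (by rw [pow_one]; exact hρζ), one_nsmul]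
  have hunr : ∀ q : ℕ, q.Prime → q ≠ l → ∀ A : ValuationSubring QBar, A.LiesOverPrime q →
      ∀ σ ∈ A.inertiaSubgroupIn ℚ, c σ = 0 := by
    intro q hq hql A hA ρ hρ
    obtain ⟨A₀, hA₀, hc₀⟩ := hunr q hq hql
    obtain ⟨τ, rfl⟩ := Frobenius.exists_smul_eq hq hA₀ hA
    have hconj : τ⁻¹ * ρ * τ ∈ A₀.inertiaSubgroupIn ℚ := by
      have h := Frobenius.inertiaSubgroupIn_conj hρ τ⁻¹
      rwa [inv_smul_smul, inv_inv] at h
    have e1 := hcoc ρ τ
    rw [hinert q hq hql _ hA ρ hρ (c τ)] at e1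
    have e2 := hcoc τ (τ⁻¹ * ρ * τ)
    rw [hc₀ _ hconj, smul_zero, add_zero, ← mul_assoc, mul_inv_cancel_left, e1] at e2
    exact add_eq_right.1 e2
  rcases hact with htriv | hcyc
  · by_cases h2 : l = 2
    · refine mu_cocycle_eq_zero (e := e) (hζ := hζ) (fun g m => ?_) hcoc hflat hunr hκ hcκ σ
      obtain ⟨k, rfl⟩ := e.surjective m
      have hk : g • e k = e k := by
        rw [← ZMod.natCast_zmod_val k, hnat, hsmulw, htriv]
      have hζg : g ζ = ζ := by
        subst h2
        rw [hζ.eq_neg_one_of_two_right, map_neg, map_one]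
      rw [hk]
      simp [muMap, AddChar.zmodChar_apply, hζg]
    · refine triv_cocycle_eq_zero (fun g m => ?_) e (hl.odd_of_ne_two h2) hcoc hflat hunr L hL σ
      obtain ⟨k, rfl⟩ := e.surjective m
      rw [← ZMod.natCast_zmod_val k, hnat, hsmulw, htriv]
  · refine mu_cocycle_eq_zero (e := e) (hζ := hζ) (fun g m => ?_) hcoc hflat hunr hκ hcκ σ
    obtain ⟨k, rfl⟩ := e.surjective m
    obtain ⟨n, -, hn⟩ := hζ.eq_pow_of_pow_eq_one (ξ := g ζ) (by
      rw [← map_pow, hζ.pow_eq_one, map_one])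
    have hk : g • e k = e ((k.val * n : ℕ) : ZMod l) := by
      rw [← ZMod.natCast_zmod_val k, hnat, hsmulw, hcyc g n hn.symm, hnat, smul_smul,
        ZMod.natCast_zmod_val]
    rw [hk, muMap, muMap, AddEquiv.symm_apply_apply, AddEquiv.symm_apply_apply,
      AddChar.zmodChar_apply', AddChar.zmodChar_apply, map_pow, ← hn, ← pow_mul, mul_comm]

variable (P : Ideal R)

/-- The theorem, by dévissage. -/
theorem cocycle_eq_zero (hζ : IsPrimitiveRoot ζ l) (hd : GalRep.FrobeniusDense)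
    {κ : GQ} (hκ : ∀ (x : QBar) (n : ℕ), 0 < n → x ^ n = 1 → κ x = x⁻¹)
    (hlP : (l : R) ∈ P) (hres : ∀ r : R, ∃ z : ℤ, r - z ∈ P)
    (S : Finset ℕ) (T : ℕ → R)
    (hT : ∀ q : ℕ, q.Prime → q ∉ S → T q - 1 - (q : R) ∈ P) {n : ℕ}
    (L : IntermediateField ℚ QBar) [FiniteDimensional ℚ L]
    {M : Type u} [AddCommGroup M] [Module R M] [DistribMulAction GQ M] [SMulCommClass GQ R M]
    [Finite M] (hP : ∀ p ∈ P ^ n, ∀ m : M, p • m = 0)
    (hLM : ∀ σ ∈ L.fixingSubgroup, ∀ m : M, σ • m = m)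
    (hfrob : ∀ q : ℕ, q.Prime → q ∉ S → ∀ A : ValuationSubring QBar, A.LiesOverPrime q →
      ∀ φ : GQ, A.IsFrobeniusAt φ q → ∀ m : M, φ • φ • m - T q • φ • m + q • m = 0)
    {c : GQ → M} (hcoc : ∀ σ τ, c (σ * τ) = c σ + σ • c τ) (hflat : IsFlatTorsor l c)
    (hunr : ∀ q : ℕ, q.Prime → q ≠ l → ∃ A : ValuationSubring QBar, A.LiesOverPrime q ∧
      ∀ σ ∈ A.inertiaSubgroupIn ℚ, c σ = 0)
    (hcκ : c κ = 0) (hLc : ∀ σ ∈ L.fixingSubgroup, c σ = 0) (σ : GQ) : c σ = 0 := by
  induction hN : Nat.card M using Nat.strong_induction_on generalizing M σ with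
  | _ N ih =>
  subst hN
  rcases subsingleton_or_nontrivial M with _ | _
  · exact Subsingleton.elim _ _
  let V : Submodule R M :=
    { carrier := {m | ∀ p ∈ P, p • m = 0}
      add_mem' := fun ha hb p hp => by rw [smul_add, ha p hp, hb p hp, add_zero]
      zero_mem' := fun p _ => smul_zero p
      smul_mem' := fun r m hm p hp => by rw [smul_comm, hm p hp, smul_zero] }
  have hVG : ∀ (g : GQ), ∀ x ∈ V, g • x ∈ V := fun g x hx p hp => by
    rw [← smul_comm g p x, hx p hp, smul_zero]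
  haveI : Nontrivial V := by
    obtain ⟨w, hw, hwP⟩ := exists_killed P hP
    exact ⟨⟨⟨w, hwP⟩, 0, fun h => hw (congrArg Subtype.val h)⟩⟩
  have hlV : ∀ v : V, l • v = 0 := fun v => Subtype.ext <| by
    rw [AddSubmonoidClass.coe_nsmul, ← Nat.cast_smul_eq_nsmul R]
    exact v.2 _ hlP
  letI := subAction V hVG
  have hsm : ∀ (g : GQ) (v : V), ((g • v : V) : M) = g • (v : M) := fun _ _ => rfl
  obtain ⟨⟨w, hwV⟩, hw, hwact⟩ := exists_line hlV hζ hd L
    (fun σ hσ v => Subtype.ext (hLM σ hσ v)) S fun q hq hqS A hA φ hφ v => by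
      refine Subtype.ext ?_
      have hTv : T q • φ • (v : M) = φ • (v : M) + q • φ • (v : M) := by
        have := hVG φ v v.2 _ (hT q hq hqS)
        rwa [sub_smul, sub_smul, one_smul, Nat.cast_smul_eq_nsmul, sub_eq_zero,
          sub_eq_iff_eq_add'] at this
      have h0 := hfrob q hq hqS A hA φ hφ v
      rw [hTv] at h0
      simp only [hsm, AddSubgroupClass.coe_sub, AddSubmonoidClass.coe_nsmul, smul_sub]
      rw [smul_comm φ q, ← sub_eq_zero, ← h0]
      abel
  have hw0 : w ≠ 0 := fun h => hw (Subtype.ext h)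
  have hwl : l • w = 0 := congrArg Subtype.val (hlV ⟨w, hwV⟩)
  have hzs : ∀ r : R, ∃ z : ℤ, r • w = z • w := fun r => by
    obtain ⟨z, hz⟩ := hres r
    refine ⟨z, ?_⟩
    have := hwV _ hz
    rwa [sub_smul, sub_eq_zero, Int.cast_smul_eq_zsmul] at this
  have hact : (∀ g : GQ, g • w = w) ∨ ∀ (g : GQ) (k : ℕ), g ζ = ζ ^ k → g • w = k • w :=
    hwact.imp (fun h g => congrArg Subtype.val (h g))
      fun h g k hk => congrArg Subtype.val (h g k hk)
  let W : Submodule R M := Submodule.span R {w}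
  have hWG : ∀ (g : GQ), ∀ x ∈ W, g • x ∈ W := by
    intro g x hx
    obtain ⟨r, rfl⟩ := Submodule.mem_span_singleton.1 hx
    obtain ⟨z, hz⟩ := hzs r
    rw [hz, smul_zsmul_comm]
    refine W.toAddSubgroup.zsmul_mem ?_ z
    rcases hact with h | h
    · rw [h g]; exact Submodule.mem_span_singleton_self w
    · have : NeZero l := ⟨(Fact.out : l.Prime).ne_zero⟩
      obtain ⟨k, -, hk⟩ := hζ.eq_pow_of_pow_eq_one (ξ := g ζ) (by
        rw [← map_pow, hζ.pow_eq_one, map_one])
      rw [h g k hk.symm]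
      exact W.toAddSubgroup.nsmul_mem (Submodule.mem_span_singleton_self w) k
  haveI : Finite (M ⧸ W) := Finite.of_surjective _ (Submodule.Quotient.mk_surjective W)
  have hlt : Nat.card (M ⧸ W) < Nat.card M := by
    haveI : Nontrivial W := ⟨⟨⟨w, Submodule.mem_span_singleton_self w⟩, 0,
      fun h => hw0 (congrArg Subtype.val h)⟩⟩
    rw [W.card_eq_card_quotient_mul_card]
    exact (lt_mul_iff_one_lt_left Nat.card_pos).2 Finite.one_lt_card
  letI := quotAction W hWG
  haveI : SMulCommClass GQ R (M ⧸ W) := ⟨fun g r x => by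
    obtain ⟨x, rfl⟩ := Submodule.Quotient.mk_surjective W x
    exact congrArg (Submodule.Quotient.mk (p := W)) (smul_comm g r x)⟩
  have hcW : ∀ τ, c τ ∈ W := by
    intro τ
    rw [← Submodule.Quotient.mk_eq_zero W]
    refine ih _ hlt (M := M ⧸ W) (c := fun τ => Submodule.Quotient.mk (c τ)) (fun p hp x => ?_)
      (fun ρ hρ x => ?_) (fun q hq hqS A hA φ hφ x => ?_)
      (fun a b => congrArg (Submodule.Quotient.mk (p := W)) (hcoc a b))
      (hflat.push W.mkQ.toAddMonoidHom (Submodule.Quotient.mk_surjective W) fun _ _ => rfl)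
      (fun q hq hql => (hunr q hq hql).imp fun A hA => ⟨hA.1, fun ρ hρ => by rw [hA.2 ρ hρ]; rfl⟩)
      (by rw [hcκ]; rfl) (fun ρ hρ => by rw [hLc ρ hρ]; rfl) τ rfl
    all_goals obtain ⟨x, rfl⟩ := Submodule.Quotient.mk_surjective W x
    · rw [← Submodule.Quotient.mk_smul, hP p hp]; rfl
    · exact congrArg (Submodule.Quotient.mk (p := W)) (hLM ρ hρ x)
    · exact congrArg (Submodule.Quotient.mk (p := W)) (hfrob q hq hqS A hA φ hφ x)
  letI := subAction W hWG
  haveI : Fintype W := Fintype.ofFinite W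
  have key := line_cocycle_eq_zero hζ (M := W) (w := ⟨w, Submodule.mem_span_singleton_self w⟩)
    (fun h => hw0 (congrArg Subtype.val h)) (Subtype.ext hwl) (fun x => by
      obtain ⟨r, hr⟩ := Submodule.mem_span_singleton.1 x.2
      obtain ⟨z, hz⟩ := hzs r
      exact ⟨z, Subtype.ext (by rw [AddSubgroupClass.coe_zsmul]; exact hr.symm.trans hz)⟩)
    (hact.imp (fun h g => Subtype.ext (h g)) fun h g k hk => Subtype.ext (h g k hk)) hκ
    (c := fun τ => ⟨c τ, hcW τ⟩) (fun a b => Subtype.ext (hcoc a b))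
    (hflat.pull W.subtype.toAddMonoidHom W.injective_subtype (fun _ _ => rfl) fun _ => rfl)
    (fun q hq hql => (hunr q hq hql).imp fun A hA => ⟨hA.1, fun ρ hρ => Subtype.ext (hA.2 ρ hρ)⟩) (Subtype.ext hcκ) L
    (fun ρ hρ => Subtype.ext (hLc ρ hρ)) σ
  exact congrArg Subtype.val key

end FLTAgent.Eisen
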