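import Fermat.Agent.Eisen.Lattice
import Mathlib.LinearAlgebra.Matrix.Determinant.Basic

/-!
`ℤ_(l)` inside the valuation rings over `l`; matrices with integral entries.
-/

set_option autoImplicit false
set_option linter.style.haveILetI false

noncomputable section

namespace FLTAgent.Eisen

variable {l : ℕ} {A : ValuationSubring QBar}

theorem coe_mem_of_mem_Zloc (hl : l.Prime) (hA : A.LiesOverPrime l) (r : Zloc l) :
    ((r : ℚ) : QBar) ∈ A := by
  rw [← eq_ratCast (algebraMap ℚ QBar), GalChar.rat_mem_iff hA hl]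
  exact fun h => Nat.Prime.not_coprime_iff_dvd.mpr ⟨l, hl, h, dvd_rfl⟩ r.2

theorem Zloc_smul_scalar (r : Zloc l) (x : QBar) : r • x = ((r : ℚ) : QBar) * x := by
  show (r : ℚ) • x = _
  rw [Rat.smul_def]

/-- An element integral over `ℤ_(l)` lies in every valuation ring over `l`. -/
theorem mem_of_isIntegral (hl : l.Prime) (hA : A.LiesOverPrime l) {x : QBar}
    (h : IsIntegral (Zloc l) x) : x ∈ A := by
  obtain ⟨P, hP, he⟩ := h
  let φ : Zloc l →+* A :=
    (algebraMap (Zloc l) QBar).codRestrict A.toSubring fun r => by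
      show algebraMap ℚ QBar (r : ℚ) ∈ A
      rw [eq_ratCast]; exact coe_mem_of_mem_Zloc hl hA r
  have hint : IsIntegral A x := ⟨P.map φ, hP.map φ, by
    rw [Polynomial.eval₂_map]; exact he⟩
  obtain ⟨y, hy⟩ := IsIntegrallyClosed.isIntegral_iff.mp hint
  exact hy ▸ y.2

theorem det_mem {n : Type*} [Fintype n] [DecidableEq n] (U : Matrix n n QBar)
    (h : ∀ i j, U i j ∈ A) : U.det ∈ A := by
  have : U = (Matrix.of fun i j => (⟨U i j, h i j⟩ : A)).map A.subtype := rfl
  rw [this, ← RingHom.mapMatrix_apply, ← RingHom.map_det]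
  exact Subtype.coe_prop _

/-- If the rows of `V` are `A`-combinations of those of `W` then `v (det V) ≤ v (det W)`. -/
theorem valuation_det_le {n : Type*} [Fintype n] [DecidableEq n] (V W : Matrix n n QBar)
    (R : n → n → QBar) (hR : ∀ i j, R i j ∈ A) (h : ∀ i p, V i p = ∑ j, R i j * W j p) :
    A.valuation V.det ≤ A.valuation W.det := by
  have : V = Matrix.of R * W := by ext i p; rw [h, Matrix.mul_apply]; rfl
  rw [this, Matrix.det_mul, map_mul]
  exact mul_le_of_le_one_left' ((A.valuation_le_one_iff _).2 (det_mem _ hR))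

theorem valuation_sign {n : Type*} [Fintype n] [DecidableEq n] (σ : Equiv.Perm n) :
    A.valuation ((Equiv.Perm.sign σ : ℤ) : QBar) = 1 := by
  rcases Int.units_eq_one_or (Equiv.Perm.sign σ) with h | h <;> simp [h]

end FLTAgent.Eisen
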