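import Fermat.Agent.Eisen.Places
import Fermat.Agent.Reduction.IntModel
import Mathlib.NumberTheory.Padics.PadicVal.Basic
import Mathlib.FieldTheory.Galois.Infinite
import Mathlib.FieldTheory.IntermediateField.Adjoin.Basic

/-!
Valuations of rational numbers at a place over `q`; expansions in powers of an element whose
valuation is a primitive root of that of `l`.
-/

set_option autoImplicit false
set_option linter.style.haveILetI false

noncomputable section

namespace FLTAgent.Eisen

theorem valuation_rat {q : ℕ} (hq : q.Prime) {A : ValuationSubring QBar}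
    (hA : A.LiesOverPrime q) {r : ℚ} (hr : r ≠ 0) :
    A.valuation (r : QBar) = A.valuation (q : QBar) ^ padicValRat q r := by
  have hq0 : A.valuation (q : QBar) ≠ 0 :=
    (Valuation.ne_zero_iff _).2 (Nat.cast_ne_zero.2 hq.ne_zero)
  rw [Rat.cast_def, map_div₀, padicValRat_def, zpow_sub₀ hq0, zpow_natCast, zpow_natCast,
    Reduction.v_intCast_eq_pow hA hq (Rat.num_ne_zero.2 hr)]
  congr 1
  have h : A.valuation (((r.den : ℤ)) : QBar) = A.valuation (q : QBar) ^ padicValNat q r.den :=
    (Reduction.v_intCast_eq_pow hA hq (Int.natCast_ne_zero.2 r.den_nz)).trans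
      (by rw [padicValInt.of_nat])
  rwa [Int.cast_natCast] at h

theorem zpow_val_inj {q : ℕ} (hq : q.Prime) {A : ValuationSubring QBar}
    (hA : A.LiesOverPrime q) {a b : ℤ}
    (h : A.valuation (q : QBar) ^ a = A.valuation (q : QBar) ^ b) : a = b :=
  zpow_right_injective₀ (zero_lt_iff.2 ((Valuation.ne_zero_iff _).2 (Nat.cast_ne_zero.2 hq.ne_zero)))
    (GalChar.valuation_natCast_lt_one hA).ne h

variable {l : ℕ} {A : ValuationSubring QBar} {ϖ : QBar}

/-- `ϖ` has valuation the `l`-th root of that of `l`. -/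
structure IsRootOfL (A : ValuationSubring QBar) (l : ℕ) (ϖ : QBar) : Prop where
  prime : l.Prime
  over : A.LiesOverPrime l
  eq : A.valuation ϖ ^ l = A.valuation (l : QBar)

namespace IsRootOfL

variable (h : IsRootOfL A l ϖ)
include h

theorem ne_zero : A.valuation ϖ ≠ 0 := fun e => by
  have := h.eq
  rw [e, zero_pow h.prime.ne_zero, eq_comm, Valuation.zero_iff, Nat.cast_eq_zero] at this
  exact h.prime.ne_zero this

theorem lt_one : A.valuation ϖ < 1 := by
  by_contra hle
  refine not_le.2 (GalChar.valuation_natCast_lt_one h.over) ?_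
  rw [← h.eq]
  exact one_le_pow₀ (not_lt.1 hle)

theorem valuation_term {c : ℚ} (hc : c ≠ 0) (k : ℕ) :
    A.valuation ((c : QBar) * ϖ ^ k) = A.valuation ϖ ^ ((l : ℤ) * padicValRat l c + k) := by
  rw [map_mul, map_pow, valuation_rat h.prime h.over hc, ← h.eq, zpow_add₀ h.ne_zero,
    zpow_natCast, zpow_mul, zpow_natCast]

theorem term_injective {c : Fin l → ℚ} {i j : Fin l} (hi : c i ≠ 0) (hj : c j ≠ 0)
    (e : A.valuation ((c i : QBar) * ϖ ^ (i : ℕ)) = A.valuation ((c j : QBar) * ϖ ^ (j : ℕ))) :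
    i = j := by
  rw [h.valuation_term hi, h.valuation_term hj] at e
  have e' := zpow_right_injective₀ (zero_lt_iff.2 h.ne_zero) h.lt_one.ne e
  have h1 : ((i : ℕ) : ℤ) % l = ((j : ℕ) : ℤ) % l := by
    have := congrArg (fun z : ℤ => z % l) e'
    simpa [Int.add_emod] using this
  rw [Int.emod_eq_of_lt (by positivity) (by exact_mod_cast i.2),
    Int.emod_eq_of_lt (by positivity) (by exact_mod_cast j.2)] at h1
  exact Fin.ext (by exact_mod_cast h1)

/-- Each term of an expansion is bounded by the sum. -/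
theorem term_le (c : Fin l → ℚ) (k : Fin l) :
    A.valuation ((c k : QBar) * ϖ ^ (k : ℕ)) ≤
      A.valuation (∑ i, (c i : QBar) * ϖ ^ (i : ℕ)) := by
  classical
  obtain ⟨m, -, hm⟩ := Finset.exists_max_image Finset.univ
    (fun i : Fin l => A.valuation ((c i : QBar) * ϖ ^ (i : ℕ))) ⟨k, Finset.mem_univ k⟩
  refine (hm k (Finset.mem_univ k)).trans ?_
  rcases eq_or_ne (c m) 0 with h0 | h0
  · simp [h0]
  refine (Valuation.map_sum_eq_of_lt _ (f := fun i : Fin l => (c i : QBar) * ϖ ^ (i : ℕ))
    (Finset.mem_univ m) fun i hi => ?_).ge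
  · simp only [Finset.mem_sdiff, Finset.mem_singleton] at hi
    refine lt_of_le_of_ne (hm i (Finset.mem_univ i)) fun e => ?_
    rcases eq_or_ne (c i) 0 with hi0 | hi0
    · rw [hi0, Rat.cast_zero, zero_mul, map_zero, eq_comm, Valuation.zero_iff, mul_eq_zero,
        Rat.cast_eq_zero, pow_eq_zero_iff'] at e
      exact e.elim h0 fun e' => h.ne_zero (by rw [e'.1, map_zero])
    · exact hi.2 (h.term_injective hi0 h0 e)

theorem coeff_eq_zero {c : Fin l → ℚ} (e : ∑ i, (c i : QBar) * ϖ ^ (i : ℕ) = 0) (k : Fin l) :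
    c k = 0 := by
  have := h.term_le c k
  rw [e, map_zero, nonpos_iff_eq_zero, Valuation.zero_iff, mul_eq_zero, Rat.cast_eq_zero,
    pow_eq_zero_iff'] at this
  exact this.elim id fun e' => absurd (by rw [e'.1, map_zero]) h.ne_zero

theorem coeff_mem {c : Fin l → ℚ} (e : ∑ i, (c i : QBar) * ϖ ^ (i : ℕ) ∈ A) (k : Fin l) :
    (c k : QBar) ∈ A := by
  rcases eq_or_ne (c k) 0 with h0 | h0
  · rw [h0, Rat.cast_zero]; exact A.zero_mem
  rw [← A.valuation_le_one_iff] at e ⊢
  have := (h.term_le c k).trans e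
  rw [h.valuation_term h0, zpow_le_one_iff_right_of_lt_one₀ (zero_lt_iff.2 h.ne_zero) h.lt_one] at this
  rw [valuation_rat h.prime h.over h0,
    zpow_le_one_iff_right_of_lt_one₀ (zero_lt_iff.2 ((Valuation.ne_zero_iff _).2
      (Nat.cast_ne_zero.2 h.prime.ne_zero))) (GalChar.valuation_natCast_lt_one h.over)]
  by_contra hneg
  have hk : ((k : ℕ) : ℤ) < l := by exact_mod_cast k.2
  nlinarith

/-- The valuation of an expansion is an integral power of that of `ϖ`. -/
theorem exists_zpow {c : Fin l → ℚ} (e : ∑ i, (c i : QBar) * ϖ ^ (i : ℕ) ≠ 0) :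
    ∃ n : ℤ, A.valuation (∑ i, (c i : QBar) * ϖ ^ (i : ℕ)) = A.valuation ϖ ^ n := by
  classical
  by_contra! hne
  refine e ?_
  rw [← A.valuation.zero_iff]
  refine le_antisymm ?_ zero_le
  refine le_of_not_gt fun hpos => ?_
  have hlt : A.valuation (∑ i, (c i : QBar) * ϖ ^ (i : ℕ)) <
      A.valuation (∑ i, (c i : QBar) * ϖ ^ (i : ℕ)) := by
    refine A.valuation.map_sum_lt hpos.ne' fun k _ => lt_of_le_of_ne (h.term_le c k) fun e' => ?_
    rcases eq_or_ne (c k) 0 with hk | hk
    · rw [hk, Rat.cast_zero, zero_mul, map_zero] at e'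
      exact hpos.ne e'
    · exact hne _ (e'.symm.trans (h.valuation_term hk _))
  exact lt_irrefl _ hlt

end IsRootOfL

open Polynomial in
/-- An element fixed by the stabiliser of `x` is a rational polynomial of degree `< n` in `x`,
if `x` has at most `n` conjugates. -/
theorem exists_expansion {x y : QBar} {n : ℕ} (S : Finset QBar) (hS : S.card ≤ n)
    (hconj : ∀ σ : GQ, σ x ∈ S) (hy : ∀ σ : GQ, σ x = x → σ y = y) :
    ∃ c : Fin n → ℚ, y = ∑ k, (c k : QBar) * x ^ (k : ℕ) := by
  have : IsAlgClosure ℚ QBar := ⟨inferInstance, AlgebraicClosure.isAlgebraic ℚ⟩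
  have : Normal ℚ QBar := IsAlgClosure.normal ℚ QBar
  have : IsGalois ℚ QBar := ⟨⟩
  have hint : IsIntegral ℚ x := Algebra.IsIntegral.isIntegral x
  have hdeg : (minpoly ℚ x).natDegree ≤ n := by
    classical
    refine le_trans ?_ hS
    rw [← IsAlgClosed.card_aroots_eq_natDegree (B := QBar) (p := minpoly ℚ x),
      ← Multiset.toFinset_card_of_nodup
        (Polynomial.nodup_roots (minpoly.irreducible hint).separable.map)]
    refine Finset.card_le_card fun r hr => ?_
    rw [Multiset.mem_toFinset, Polynomial.mem_aroots] at hr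
    have heq : minpoly ℚ r = minpoly ℚ x :=
      (minpoly.eq_of_irreducible_of_monic (minpoly.irreducible hint) hr.2 (minpoly.monic hint)).symm
    obtain ⟨σ, rfl⟩ := MulAction.mem_orbit_iff.1 ((Normal.minpoly_eq_iff_mem_orbit QBar).1 heq)
    exact hconj σ
  have hyE : y ∈ IntermediateField.adjoin ℚ {x} := by
    rw [← InfiniteGalois.fixedField_fixingSubgroup (IntermediateField.adjoin ℚ {x}),
      IntermediateField.mem_fixedField_iff]
    exact fun σ hσ => hy σ ((IntermediateField.mem_fixingSubgroup_iff _ σ).1 hσ x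
      (IntermediateField.mem_adjoin_simple_self ℚ x))
  have hyA : y ∈ (IntermediateField.adjoin ℚ {x}).toSubalgebra := hyE
  rw [IntermediateField.adjoin_simple_toSubalgebra_of_isAlgebraic hint.isAlgebraic,
    Algebra.adjoin_singleton_eq_range_aeval] at hyA
  obtain ⟨p, rfl⟩ := hyA
  refine ⟨fun k => (p %ₘ minpoly ℚ x).coeff k, ?_⟩
  show aeval x p = _
  rw [← minpoly.aeval_modByMonic_minpoly (A := ℚ) p x]
  set r := p %ₘ minpoly ℚ x
  have hr : r.natDegree < n :=
    lt_of_lt_of_le (Polynomial.natDegree_modByMonic_lt _ (minpoly.monic hint)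
      (minpoly.ne_one ℚ x)) hdeg
  rw [aeval_eq_sum_range' hr, Finset.sum_range]
  exact Finset.sum_congr rfl fun k _ => by rw [Algebra.smul_def, eq_ratCast]

end FLTAgent.Eisen
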