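import Mathlib.Algebra.MvPolynomial.Funext
import Mathlib.LinearAlgebra.Basis.VectorSpace
import Mathlib.LinearAlgebra.Matrix.NonsingularInverse
import Mathlib.RingTheory.Localization.Integral
import Mathlib.Data.Real.Basic
import Mathlib.Algebra.Algebra.Rat
import Mathlib.Analysis.Normed.Field.Basic

/-!
# An invertible real solution of integral linear matrix equations gives an integral one
-/

set_option autoImplicit false

noncomputable section

namespace FLTAgent.Eisen

variable {ι : Type*} [Fintype ι] [DecidableEq ι] {κ : Type*}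

omit [DecidableEq ι] in
/-- A `ℚ`-linear functional applied entrywise respects rational relations. -/
theorem map_rel (B : Matrix ι ι ℝ) (t : Matrix ι ι ℤ) (s : ℤ) (c : ℝ →ₗ[ℚ] ℚ)
    (h : B * t.map Int.cast = (s : ℝ) • (t.map Int.cast * B)) :
    B.map c * t.map Int.cast = (s : ℚ) • (t.map Int.cast * B.map c) := by
  have hc : ∀ (a : ℝ) (z : ℤ), c a * (z : ℚ) = c (a * z) := fun a z => by
    rw [show a * (z : ℝ) = (z : ℚ) • a by rw [Rat.smul_def, Rat.cast_intCast]; ring,
      map_smul, smul_eq_mul]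
    ring
  ext i j
  have hij := congrArg c (congrFun (congrFun h i) j)
  simp only [Matrix.mul_apply, Matrix.smul_apply, Matrix.map_apply, smul_eq_mul] at hij ⊢
  rw [show (s : ℝ) * ∑ x, (t i x : ℝ) * B x j = (∑ x, B x j * (t i x : ℝ)) * (s : ℤ) by
    rw [mul_comm]; exact congrArg (· * _) (Finset.sum_congr rfl fun x _ => mul_comm _ _),
    map_sum, ← hc, map_sum] at hij
  simp only [← hc] at hij
  rw [hij, mul_comm]
  exact congrArg _ (Finset.sum_congr rfl fun x _ => mul_comm _ _)

/-- An invertible real solution of `B t = s t B` for integral `t` gives an integral one. -/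
theorem exists_int_matrix (t : κ → Matrix ι ι ℤ) (s : κ → ℤ) (B : Matrix ι ι ℝ) (hB : B.det ≠ 0)
    (h : ∀ k, B * (t k).map Int.cast = (s k : ℝ) • ((t k).map Int.cast * B)) :
    ∃ A : Matrix ι ι ℤ, A.det ≠ 0 ∧ ∀ k, A * t k = s k • (t k * A) := by
  classical
  let e := Module.Basis.ofVectorSpace ℚ ℝ
  let S : Finset (Module.Basis.ofVectorSpaceIndex ℚ ℝ) :=
    Finset.univ.biUnion fun i : ι => Finset.univ.biUnion fun j : ι => (e.repr (B i j)).support
  let Bi : S → Matrix ι ι ℚ := fun k => B.map (e.coord k.1)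
  have hsum : ∀ i j, B i j = ∑ k : S, (Bi k i j : ℝ) * e k.1 := by
    intro i j
    have := e.linearCombination_repr (B i j)
    have hsub : (e.repr (B i j)).support ⊆ S := fun x hx => Finset.mem_biUnion.2
      ⟨i, Finset.mem_univ i, Finset.mem_biUnion.2 ⟨j, Finset.mem_univ j, hx⟩⟩
    rw [Finsupp.linearCombination_apply] at this
    replace this := (Finsupp.sum_of_support_subset (e.repr (B i j)) hsub (fun x a => a • e x)
      (fun x _ => zero_smul ℚ _)).symm.trans this
    refine this.symm.trans ((Finset.sum_attach S _).symm.trans ?_)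
    exact Finset.sum_congr rfl fun x _ => Rat.smul_def _ _
  let M : Matrix ι ι (MvPolynomial S ℚ) :=
    ∑ k : S, (MvPolynomial.X k : MvPolynomial S ℚ) • (Bi k).map MvPolynomial.C
  have hP : M.det ≠ 0 := by
    intro h0
    apply hB
    have hM : B = (MvPolynomial.eval₂Hom (Rat.castHom ℝ) fun k : S => e k.1).mapMatrix M := by
      ext i j
      simp only [RingHom.mapMatrix_apply, Matrix.map_apply, M, Matrix.sum_apply, map_sum]
      refine (hsum i j).trans ?_
      refine Finset.sum_congr rfl fun k _ => ?_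
      rw [Matrix.smul_apply, Matrix.map_apply, smul_eq_mul, map_mul, MvPolynomial.eval₂Hom_X',
        MvPolynomial.eval₂Hom_C, mul_comm]
      rfl
    rw [hM, ← RingHom.map_det, h0, map_zero]
  obtain ⟨x, hx⟩ : ∃ x : S → ℚ, MvPolynomial.eval x M.det ≠ 0 := by
    by_contra hc
    simp only [not_exists, not_not] at hc
    exact hP (MvPolynomial.funext fun x => by rw [hc x, map_zero])
  let A₀ : Matrix ι ι ℚ := ∑ k : S, x k • Bi k
  have hA₀ : A₀.det ≠ 0 := by
    rw [RingHom.map_det] at hx
    convert hx using 2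
    ext i j
    simp [A₀, M, Matrix.sum_apply]
  have hrel : ∀ k, A₀ * (t k).map Int.cast = (s k : ℚ) • ((t k).map Int.cast * A₀) := fun k => by
    simp only [A₀, Matrix.sum_mul, Matrix.mul_sum, Finset.smul_sum]
    refine Finset.sum_congr rfl fun i _ => ?_
    rw [Matrix.smul_mul, Matrix.mul_smul, show Bi i * (t k).map Int.cast =
      (s k : ℚ) • ((t k).map Int.cast * Bi i) from map_rel B (t k) (s k) (e.coord i.1) (h k),
      smul_comm]
  obtain ⟨⟨d, hd⟩, hint⟩ := IsLocalization.exist_integer_multiples_of_finite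
    (nonZeroDivisors ℤ) (fun p : ι × ι => A₀ p.1 p.2)
  choose a ha using hint
  let A : Matrix ι ι ℤ := fun i j => a (i, j)
  have hA : A.map (Int.cast : ℤ → ℚ) = (d : ℚ) • A₀ := by
    ext i j
    rw [Matrix.map_apply, Matrix.smul_apply, smul_eq_mul]
    exact (ha (i, j)).trans (zsmul_eq_mul _ _)
  refine ⟨A, fun h0 => ?_, fun k => ?_⟩
  · have := congrArg (Int.cast : ℤ → ℚ) h0
    rw [Int.cast_det, hA, Matrix.det_smul, Int.cast_zero, mul_eq_zero] at this
    exact this.elim (pow_ne_zero _ (Int.cast_ne_zero.2 (nonZeroDivisors.ne_zero hd))) hA₀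
  · refine Matrix.map_injective Int.cast_injective (α := ℤ) (β := ℚ) ?_
    show (A * t k).map (Int.castRingHom ℚ) = (s k • (t k * A)).map (Int.castRingHom ℚ)
    rw [Matrix.map_mul, Matrix.map_smul' _ (s k) _ (map_mul _), Matrix.map_mul]
    show A.map (Int.cast : ℤ → ℚ) * _ = (s k : ℚ) • ((t k).map Int.cast * A.map Int.cast)
    rw [hA, Matrix.smul_mul, Matrix.mul_smul, smul_comm]
    exact congrArg _ (hrel k)

end FLTAgent.Eisen
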