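import Fermat.Agent.Eisen.Assembly

/-!
# `UnipRoots` descends along a map with a left inverse up to an integer

If `f : J₀(N) → J₀(N')` commutes with Galois and `g ∘ f = d`, then unipotence on roots of rational
points at level `N'` gives it at level `N`, also when `l ∣ d`: take a further root first.
-/

set_option autoImplicit false
set_option linter.style.haveILetI false

noncomputable section

namespace FLTAgent.Eisen

open ModularCurve AlgebraicCurve

theorem eq_zero_of_coprime_nsmul {G : Type*} [AddCommGroup G] {a b : ℕ} (h : Nat.Coprime a b)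
    {u : G} (ha : a • u = 0) (hb : b • u = 0) : u = 0 := by
  have h1 := Nat.dvd_gcd (addOrderOf_dvd_of_nsmul_eq_zero ha) (addOrderOf_dvd_of_nsmul_eq_zero hb)
  rwa [h, Nat.dvd_one, AddMonoid.addOrderOf_eq_one_iff] at h1

theorem unipRoots_of_hom {N N' l d : ℕ} (hl : l.Prime) (hd : d ≠ 0)
    {A₀ : ValuationSubring QBar} (hdiv : DivisibleByPrime N l) (f : JZero N →+ JZero N')
    (g : JZero N' →+ JZero N) (hgf : ∀ x, g (f x) = d • x)
    (hf : ∀ (σ : GQ) (x : JZero N), f (σ • x) = σ • f x) (h : UnipRoots N' l A₀) :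
    UnipRoots N l A₀ := by
  intro σ hσ r x hx
  obtain ⟨a, d', hd', rfl⟩ := Nat.exists_eq_pow_mul_and_not_dvd hd l hl.ne_one
  have hroot : ∀ (i : ℕ) (y : JZero N), ∃ z, l ^ i • z = y := by
    intro i
    induction i with
    | zero => exact fun y => ⟨y, by rw [pow_zero, one_smul]⟩
    | succ i ih =>
      intro y
      obtain ⟨b, hb⟩ := ih y
      obtain ⟨c, hc⟩ := hdiv b
      exact ⟨c, by rw [pow_succ, mul_smul, hc, hb]⟩
  obtain ⟨x', rfl⟩ := hroot a x
  set u := σ • (σ • x' - x') - (σ • x' - x') with hu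
  have hfu : f u = 0 := by
    rw [hu, map_sub, hf, map_sub, hf, sub_eq_zero]
    refine h σ hσ (r + a) (f x') fun τ => ?_
    rw [← map_nsmul, ← hf, pow_add, mul_smul, hx τ]
  have hkill : d' • l ^ a • u = 0 := by
    rw [smul_smul, mul_comm, ← hgf u, hfu, map_zero]
  have hsm : ∀ (n : ℕ) (y : JZero N), σ • n • y = n • σ • y := fun n y =>
    map_nsmul (DistribSMul.toAddMonoidHom (JZero N) σ) n y
  have e : σ • (σ • l ^ a • x' - l ^ a • x') - (σ • l ^ a • x' - l ^ a • x') = l ^ a • u := by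
    simp only [hu, smul_sub, nsmul_sub, hsm]
  rw [← sub_eq_zero, e]
  refine eq_zero_of_coprime_nsmul (a := l ^ r) (b := d')
    (Nat.Coprime.pow_left r (hl.coprime_iff_not_dvd.2 hd')) ?_ hkill
  have h1 : σ • l ^ r • l ^ a • x' = l ^ r • l ^ a • x' := hx σ
  have hw : l ^ r • (σ • l ^ a • x' - l ^ a • x') = 0 := by rw [nsmul_sub, ← hsm, h1, sub_self]
  rw [← e, nsmul_sub, ← hsm, hw, sub_zero]
  exact smul_zero (A := JZero N) σ

end FLTAgent.Eisen
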