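import Fermat.Agent.Semistable.Galois

/-!
# Unipotence of inertia on roots of classes with fixed divisors
-/

set_option autoImplicit false
set_option linter.unusedSectionVars false

noncomputable section

namespace FLTAgent.Eisen

open AlgebraicCurve FLTAgent.GoodRed FLTAgent.GoodRed.RedDatum FLTAgent.FunctionField
  FLTAgent.Semistable FLTAgent.Semistable.NodeSystem SemilinearAut

variable {L k : Type*} [Field L] [Field k] {A : ValuationSubring L} {π : A →+* k}
  {F C C' : Type*} [Field F] [Algebra L F] [Field C] [Algebra k C] [Field C'] [Algebra k C']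
  [IsFunctionField L F] [IsFunctionField k C] [IsFunctionField k C'] [IsAlgClosed L]
  [IsAlgClosed k] {D : RedDatum A π F C} {D' : RedDatum A π F C'} {ι : Type*} [Fintype ι]
  {N : NodeSystem D D' ι}

/-- For inertia, `s - 1` sends a root of a class with a fixed divisor to a flat class. -/
theorem isFlat_smul_sub_of_fixed (T : NodeAut N) (hT : T.IsInertial) {m : ℕ} {X Y : Divisor L F}
    (hX : Divisor.degree X = 0) {g : F} (hg : g ≠ 0) (hY : T.s • Y = Y)
    (hdiv : divisorOf g = m • X - Y) : IsFlat (D := D) (D' := D') m (T.s • X - X) := by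
  obtain ⟨t, ht, hr⟩ := T.exists_red_div D T.σb T.red hT.2.1 hg
  obtain ⟨t', ht', hr'⟩ := T.exists_red_div D' T.σb' T.red' hT.2.2.1 hg
  refine ⟨by rw [map_sub, SemilinearAut.degree_smul, hX, sub_zero], toRingAut T.s g / g,
    div_ne_zero ((map_ne_zero _).2 hg) hg, ?_, t, t', ht, ht', hr, hr'⟩
  rw [div_eq_mul_inv, divisorOf_mul ((map_ne_zero _).2 hg) (inv_ne_zero hg), divisorOf_inv,
    divisorOf_toRingAut, hdiv, smul_sub T.s, hY, smul_sub m, smul_comm T.s]
  abel

/-- For inertia, `(s - 1) ^ 2` kills a root of a class with a fixed divisor. -/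
theorem smul_smul_sub_principal_of_fixed (hA : IsRankOne A)
    (hA0 : ∃ ϖ : L, ϖ ≠ 0 ∧ ϖ ∈ A.nonunits) (T : NodeAut N) (hT : T.IsInertial) {m : ℕ}
    (hm : (m : k) ≠ 0) {X Y : Divisor L F} (hX : Divisor.degree X = 0) {g : F} (hg : g ≠ 0)
    (hY : T.s • Y = Y) (hdiv : divisorOf g = m • X - Y) :
    ∃ f : F, f ≠ 0 ∧ T.s • (T.s • X - X) - (T.s • X - X) = divisorOf f :=
  T.smul_sub_principal hA hA0 hT hm (isFlat_smul_sub_of_fixed T hT hX hg hY hdiv)

end FLTAgent.Eisen
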