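import Fermat.Agent.Eisen.Assembly
import Fermat.Agent.Eisen.FixedRep
import Fermat.Agent.Eisen.UnipNode

/-!
# `UnipRoots` from a node system with inertial automorphisms
-/

set_option autoImplicit false
set_option linter.unusedSectionVars false
set_option linter.style.haveILetI false

noncomputable section

namespace FLTAgent.Eisen

open AlgebraicCurve ModularCurve FLTAgent.GoodRed FLTAgent.GoodRed.RedDatum FLTAgent.FunctionField
  FLTAgent.Semistable FLTAgent.Semistable.NodeSystem

theorem exists_divisorOf_of_principal {K F : Type*} [Field K] [Field F] [Algebra K F]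
    [IsFunctionField K F] {D : Divisor K F} (h : D ∈ Divisor.principal (K := K) (F := F)) :
    ∃ f : F, f ≠ 0 ∧ D = divisorOf f := by
  obtain ⟨f, hf, h⟩ := h
  exact ⟨f, hf, Finsupp.ext fun v => (h v).trans (divisorOf_apply f v).symm⟩

theorem mem_principal_divisorOf {K F : Type*} [Field K] [Field F] [Algebra K F]
    [IsFunctionField K F] {f : F} (hf : f ≠ 0) :
    divisorOf (K := K) f ∈ Divisor.principal (K := K) (F := F) :=
  ⟨f, hf, fun v => divisorOf_apply f v⟩

theorem mk_eq_mk_iff {K F : Type*} [Field K] [Field F] [Algebra K F]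
    {D E : Divisor.degZero (K := K) (F := F)} :
    Pic0.mk D = Pic0.mk E ↔
      (D : Divisor K F) - E ∈ Divisor.principal (K := K) (F := F) := by
  rw [Pic0.mk, Pic0.mk, eq_comm, QuotientAddGroup.eq, AddSubgroup.mem_addSubgroupOf,
    AddSubgroup.coe_add, AddSubgroup.coe_neg, neg_add_eq_sub]

theorem mk_nsmul {K F : Type*} [Field K] [Field F] [Algebra K F] (n : ℕ)
    (D : Divisor.degZero (K := K) (F := F)) : Pic0.mk (n • D) = n • Pic0.mk D :=
  map_nsmul (QuotientAddGroup.mk' ((Divisor.principal (K := K) (F := F)).addSubgroupOf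
    (Divisor.degZero (K := K) (F := F)))) n D

variable {N : ℕ} [NeZero N] {l : ℕ} {A₀ : ValuationSubring QBar} {k : Type*} [Field k]
  [IsAlgClosed k] {π : A₀ →+* k} {C C' : Type*} [Field C] [Algebra k C] [Field C'] [Algebra k C']
  [IsFunctionField k C] [IsFunctionField k C']
  [IsFunctionField QBar (modularFunctionFieldBar N)]
  {D : RedDatum A₀ π (modularFunctionFieldBar N) C}
  {D' : RedDatum A₀ π (modularFunctionFieldBar N) C'} {ι : Type*} [Fintype ι]

/-- A node system on which inertia acts trivially gives unipotence on roots of rational points. -/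
theorem unipRoots_of_nodeSystem (Nd : NodeSystem D D' ι) (hA : IsRankOne A₀)
    (hA0 : ∃ ϖ : QBar, ϖ ≠ 0 ∧ ϖ ∈ A₀.nonunits) (hl : (l : k) ≠ 0)
    {O : Place QBar (modularFunctionFieldBar N)}
    (hO : ∀ σ : GQ, arithmeticGalois (modularFunctionFieldFull N) σ • O = O)
    (hT : ∀ σ ∈ A₀.inertiaSubgroupIn ℚ,
      ∃ T : NodeAut Nd, T.s = arithmeticGalois (modularFunctionFieldFull N) σ ∧ T.IsInertial) :
    UnipRoots N l A₀ := by
  intro σ hσ r x hx
  obtain ⟨T, hTs, hTi⟩ := hT σ hσ
  obtain ⟨X, rfl⟩ := Pic0.mk_surjective x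
  set ρ := arithmeticGalois (L := QBar) (modularFunctionFieldFull N)
  have hXdeg : Divisor.degree (X : Divisor QBar (modularFunctionFieldBar N)) = 0 :=
    Divisor.mem_degZero.1 X.2
  have hfix : ∀ τ : GQ, ∃ h : modularFunctionFieldBar N, h ≠ 0 ∧
      ρ τ • (l ^ r • (X : Divisor QBar (modularFunctionFieldBar N)))
        - l ^ r • (X : Divisor QBar (modularFunctionFieldBar N)) = divisorOf h := fun τ => by
    have h := hx τ
    rw [galois_smul_pic0_def, ← mk_nsmul, SemilinearAut.pic0_smul_mk, mk_eq_mk_iff,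
      SemilinearAut.coe_degZeroSMulHom, AddSubmonoidClass.coe_nsmul] at h
    exact exists_divisorOf_of_principal h
  obtain ⟨f, hf, hY⟩ := exists_fixed_representative (fun τ : GQ => ρ τ) hO
    (D := l ^ r • (X : Divisor QBar (modularFunctionFieldBar N)))
    (by rw [map_nsmul, hXdeg, smul_zero]) hfix
  obtain ⟨h, hh, hdiv⟩ := smul_smul_sub_principal_of_fixed hA hA0 T hTi (m := l ^ r)
    (by rw [Nat.cast_pow]; exact pow_ne_zero _ hl) hXdeg (inv_ne_zero hf)
    (by rw [hTs]; exact hY σ)
    (by rw [divisorOf_inv]; abel)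
  simp only [hTs] at hdiv
  rw [galois_smul_pic0_def, galois_smul_pic0_def, SemilinearAut.pic0_smul_mk]
  show ρ σ • Pic0.mk (SemilinearAut.degZeroSMulHom (ρ σ) X - X)
    = Pic0.mk (SemilinearAut.degZeroSMulHom (ρ σ) X - X)
  rw [SemilinearAut.pic0_smul_mk, mk_eq_mk_iff, SemilinearAut.coe_degZeroSMulHom,
    AddSubgroup.coe_sub, SemilinearAut.coe_degZeroSMulHom, hdiv]
  exact mem_principal_divisorOf hh

end FLTAgent.Eisen
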