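import Fermat.Agent.Eisen.UnipJZero
import Fermat.Agent.Eisen.CuspInfty
import Fermat.Agent.Eisen.LevelPull
import Fermat.Agent.Semistable.LevelAut

/-!
# `UnipRoots` at level `q` from crossing data of level `M q`

Crossing data of level `M q` give inertia an action by inertial automorphisms of a node system,
hence unipotence on roots of rational points at level `M q`, and pullback descends it to `q`.
-/

set_option autoImplicit false
set_option linter.style.haveILetI false
set_option linter.unusedSectionVars false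
set_option synthInstance.maxHeartbeats 100000

noncomputable section

open ModularCurve AlgebraicCurve IsLocalRing

namespace FLTAgent.Eisen

open FLTAgent.GoodRed FLTAgent.GoodRed.RedDatum FLTAgent.Hecke FLTAgent.FunctionField
  FLTAgent.Semistable

local notation "Qbar" => AlgebraicClosure ℚ

variable {M : ℕ} [NeZero M] {q : ℕ} [Fact q.Prime]

local instance instNeZeroUnipLevel : NeZero q := ⟨(Fact.out : q.Prime).ne_zero⟩
local instance instAlgebraUnipLevel : Algebra (MF Qbar M) (MF Qbar (M * q)) :=
  algebraAlong (alphaMap Qbar M q)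
local instance instScalarTowerUnipLevel : IsScalarTower Qbar (MF Qbar M) (MF Qbar (M * q)) :=
  isScalarTower_along (alphaMap Qbar M q)
local instance instFiniteUnipLevel : Module.Finite (MF Qbar M) (MF Qbar (M * q)) := finite_alongAlpha M (q := q)

variable {A : ValuationSubring (AlgebraicClosure ℚ)} {hA : A.LiesOverPrime q} {hqM : ¬ q ∣ M}
  [CharP (ResidueField A) q] [IsAlgClosed (ResidueField A)]
  [IsFunctionField (ResidueField A) (modularFunctionFieldFullC (ResidueField A) M)]
  {ι : Type*} [Fintype ι]
  {X : CrossData (x0Datum A hA M hqM) (redInf A hA M hqM) (redZero A hA M hqM)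
    (frobC (K := ResidueField A) q M) q ι}

/-- Crossing data of level `M q` give unipotence on roots of rational points. -/
theorem unipRoots_of_crossData (hfr : X.frP = frPlace q M)
    (hx : Set.range X.x = crossingSet A hA hqM)
    (hG₁ : ∀ σ : Qbar ≃ₐ[ℚ] Qbar, arithmeticGalois (modularFunctionFieldFull M) σ • X.G₁ = X.G₁)
    (hG₂ : ∀ σ : Qbar ≃ₐ[ℚ] Qbar, arithmeticGalois (modularFunctionFieldFull M) σ • X.G₂ = X.G₂)
    {l : ℕ} (hl : l.Prime) (hlq : l ≠ q) : UnipRoots (M * q) l A := by
  have hl0 : (l : ResidueField A) ≠ 0 := fun h => hlq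
    ((Nat.prime_dvd_prime_iff_eq (Fact.out : q.Prime) hl).1
      ((CharP.cast_eq_zero_iff (ResidueField A) q l).1 h)).symm
  have hϖ : ∃ ϖ : Qbar, ϖ ≠ 0 ∧ ϖ ∈ A.nonunits :=
    ⟨(q : Qbar), Nat.cast_ne_zero.2 (Fact.out : q.Prime).ne_zero, hA⟩
  obtain ⟨O, hO⟩ := exists_galois_fixed_place (M * q)
  exact unipRoots_of_nodeSystem X.nodeSystem (Semistable.isRankOne_of_liesOverPrime hA Fact.out) hϖ hl0 hO
    fun σ hσ => exists_inertial_nodeAut hfr hx hG₁ hG₂ hσ

end FLTAgent.Eisen
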